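import Mathlib

/-!
# P-GALREP, p-adic part (S30): two generic algebra interfaces (Mathlib only)

Architect: helper30.  Frozen interface `Prop`s for the sub-modules A3a (Tate module of an
abelian group with finite `p`-power torsion) and A4a (eigenvector for a character of a
commutative algebra of operators), used by the owner of `PackageAdicStatement`.
-/

set_option autoImplicit false

namespace Fermat.Agent.S30

/-- **A3a (Tate).**  The `p`-adic Tate module of an abelian group `J` whose `p ^ k`-torsion is
finite for all `k`: a finite free `ℤ_[p]`-module `T` with projections `π k : T → J[p ^ k]`,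
compatible (`p • π (k+1) = π k`), with `ker (π k) = p ^ k T`, whose image contains
`p ^ m • J[p ^ (k+m)]` for `m` large, and functorial in the endomorphisms of `J`
(`T := {x : ℕ → J | x 0 = 0 ∧ ∀ k, p • x (k+1) = x k}`). -/
def TateStatement : Prop :=
  ∀ (p : ℕ) [Fact p.Prime] (J : Type) [AddCommGroup J],
    (∀ k : ℕ, Set.Finite {x : J | p ^ k • x = 0}) →
    ∃ (T : Type) (_ : AddCommGroup T) (_ : Module ℤ_[p] T) (_ : Module.Free ℤ_[p] T)
      (_ : Module.Finite ℤ_[p] T) (π : ℕ → T →+ J)
      (Φ : AddMonoid.End J →+* Module.End ℤ_[p] T),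
      (∀ (k : ℕ) (t : T), p ^ k • π k t = 0) ∧
      (∀ (k : ℕ) (t : T), p • π (k + 1) t = π k t) ∧
      (∀ (k : ℕ) (t : T), π k t = 0 → ∃ s : T, t = ((p : ℤ_[p]) ^ k) • s) ∧
      (∀ k : ℕ, ∃ m : ℕ, ∀ x : J, p ^ (k + m) • x = 0 → ∃ t : T, π k t = p ^ m • x) ∧
      (∀ (f : AddMonoid.End J) (k : ℕ) (t : T), π k (Φ f t) = f (π k t))

/-- **A4a (EigenVector).**  A commutative algebra `R` acting on a nonzero finite-dimensional
vector space `V`, and a character `lam` of `R` which vanishes on the kernel of the action:
then `lam` has a nonzero eigenvector in `V`.  (`B := R ⧸ ker θ` is Artinian and acts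
faithfully; the maximal ideal `ker lam` of `B` is an associated prime of `V`.) -/
def EigenVectorStatement : Prop :=
  ∀ (K : Type) [Field K] (V : Type) [AddCommGroup V] [Module K V] [FiniteDimensional K V]
    [Nontrivial V]
    (R : Type) [CommRing R] [Algebra K R] (θ : R →ₐ[K] Module.End K V) (lam : R →ₐ[K] K),
    (∀ r : R, θ r = 0 → lam r = 0) →
    ∃ v : V, v ≠ 0 ∧ ∀ r : R, θ r v = lam r • v

end Fermat.Agent.S30
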