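import Fermat.Agent.S30.Glue
import Fermat.Agent.Red.GateAll
import Fermat.Agent.Red.Desc.Final
import Fermat.Agent.Red.ESTF.Final

/-!
# P-GALREP: the geometric inputs from the gate at good levels

With the descent of roots (R-DESC), the reduction to prime exponents (R-GATE) and the Kronecker
congruence in function form (R-ESTF) landed, the only open input is `GateGood`.

Author: helper30.
-/

set_option autoImplicit false

namespace Fermat.Agent.S30

/-- The geometric inputs of P-GALREP from the gate at good levels. -/
theorem geometricInputsFull_of_gateGood (hG : Fermat.Agent.S37.GateGood) :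
    GeometricInputsFull :=
  geometricInputsFull_of_gate
    (fun N _ => Fermat.Agent.Red.GateAll.gate_of_gatePrime N
      (Fermat.Agent.Red.GateAll.gatePrime_of hG Fermat.Agent.Red.Desc.ifaceGateDescent N))
    (fun N _ => Fermat.Agent.Red.ESTF.ifaceCongFrobenius N)

end Fermat.Agent.S30
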