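import Fermat.Agent.S30.Skeleton
import Fermat.Agent.S29.CycChar
import Fermat.Prelude.Def_GaloisRep_ComplexConjugation

/-!
# P-GALREP, module A2: the `p`-adic cyclotomic character of `G_ℚ`

`cycCharAdic : CycCharAdicStatement`: for a complete discrete valuation ring `𝒪` of
characteristic zero and residue characteristic `p` there is a character `d : G_ℚ →* 𝒪ˣ` which is
continuous (congruent to `1` modulo `𝔪 ^ n` on the open subgroup fixing `ℚ(ζ_{p^n})`), trivial on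
inertia at every prime `ℓ ≠ p`, sends every Frobenius element at `ℓ ≠ p` to `ℓ`, and sends complex
conjugation (an involution) to `-1`.

Construction: Mathlib's `cyclotomicCharacter (AlgebraicClosure ℚ) p : _ →* ℤ_[p]ˣ` composed with
the canonical ring homomorphism `ℤ_[p] →+* 𝒪` (`IsAdicComplete.liftRingHom`).

All auxiliary declarations live in the namespace `Fermat.Agent.S30.CycCharAdic`.
-/

set_option autoImplicit false

namespace Fermat.Agent.S30

namespace CycCharAdic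

open Fermat.Agent.S29 (GQ)

/-! ## The ring homomorphism `ℤ_[p] →+* 𝒪` -/

section Lift

variable (p : ℕ) [Fact p.Prime] (𝒪 : Type) [CommRing 𝒪] [IsLocalRing 𝒪]
  [IsAdicComplete (IsLocalRing.maximalIdeal 𝒪) 𝒪]
  (hp : (p : 𝒪) ∈ IsLocalRing.maximalIdeal 𝒪)

omit [Fact (Nat.Prime p)] [IsAdicComplete (IsLocalRing.maximalIdeal 𝒪) 𝒪] in
include hp in
theorem natCast_pow_eq_zero (n : ℕ) :
    ((p ^ n : ℕ) : 𝒪 ⧸ (IsLocalRing.maximalIdeal 𝒪) ^ n) = 0 := by
  rw [← map_natCast (Ideal.Quotient.mk _), Ideal.Quotient.eq_zero_iff_mem]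
  push_cast
  exact Ideal.pow_mem_pow hp n

/-- The level-`n` map `ℤ_p → ℤ/p^n → 𝒪/𝔪^n`. -/
noncomputable def levelHom (n : ℕ) : ℤ_[p] →+* 𝒪 ⧸ (IsLocalRing.maximalIdeal 𝒪) ^ n :=
  (ZMod.castHom (ringChar.dvd (natCast_pow_eq_zero p 𝒪 hp n)) _).comp (PadicInt.toZModPow n)

omit [IsAdicComplete (IsLocalRing.maximalIdeal 𝒪) 𝒪] in
theorem levelHom_compat {m n : ℕ} (hle : m ≤ n) :
    (Ideal.Quotient.factorPow (IsLocalRing.maximalIdeal 𝒪) hle).comp (levelHom p 𝒪 hp n) =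
      levelHom p 𝒪 hp m := by
  unfold levelHom
  rw [← PadicInt.zmod_cast_comp_toZModPow m n hle, ← RingHom.comp_assoc, ← RingHom.comp_assoc]
  congr 1
  exact Subsingleton.elim _ _

/-- The canonical ring homomorphism `ℤ_p → 𝒪`. -/
noncomputable def padicLift : ℤ_[p] →+* 𝒪 :=
  IsAdicComplete.liftRingHom (IsLocalRing.maximalIdeal 𝒪) (levelHom p 𝒪 hp)
    (fun hle => levelHom_compat p 𝒪 hp hle)

theorem mk_padicLift (n : ℕ) (x : ℤ_[p]) :
    Ideal.Quotient.mk ((IsLocalRing.maximalIdeal 𝒪) ^ n) (padicLift p 𝒪 hp x) =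
      levelHom p 𝒪 hp n x :=
  IsAdicComplete.mk_liftRingHom _ _ _ n x

theorem padicLift_sub_mem {n : ℕ} {x y : ℤ_[p]}
    (h : PadicInt.toZModPow n x = PadicInt.toZModPow n y) :
    padicLift p 𝒪 hp x - padicLift p 𝒪 hp y ∈ (IsLocalRing.maximalIdeal 𝒪) ^ n := by
  rw [← Ideal.Quotient.eq, mk_padicLift, mk_padicLift]
  simp only [levelHom, RingHom.comp_apply, h]

end Lift

/-! ## Roots of unity of `p`-power order modulo a prime `ℓ ≠ p` -/

section Roots

variable {L : Type*} [Field L]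

/-- multiplying a nonunit by an element of the valuation subring gives a nonunit -/
theorem mul_mem_nonunits (A : ValuationSubring L) {a b : L} (ha : a ∈ A.nonunits) (hb : b ∈ A) :
    a * b ∈ A.nonunits := by
  rw [ValuationSubring.mem_nonunits_iff] at *
  rw [map_mul]
  exact mul_lt_one_of_nonneg_of_lt_one_left zero_le ha ((A.valuation_le_one_iff _).mpr hb)

theorem mem_of_pow_eq_one (A : ValuationSubring L) {m : ℕ} (hm : m ≠ 0) {x : L}
    (hx : x ^ m = 1) : x ∈ A := by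
  apply Fermat.Agent.S54.mem_valuationSubring_of_isIntegral A
  refine ⟨Polynomial.X ^ m - 1, Polynomial.monic_X_pow_sub_C (1 : ℤ) hm, ?_⟩
  simp [hx]

/-- Distinct `p^n`-th roots of unity stay distinct modulo the maximal ideal of a valuation
subring lying over a prime `ℓ ≠ p`. -/
theorem eq_of_sub_mem_nonunits_pow (A : ValuationSubring L) {p ℓ : ℕ} (hp : p.Prime)
    (hℓ : ℓ.Prime) (hne : ℓ ≠ p) (hA : (ℓ : L) ∈ A.nonunits) (n : ℕ) :
    ∀ {x y : L}, x ^ p ^ n = 1 → y ^ p ^ n = 1 → x - y ∈ A.nonunits → x = y := by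
  induction n with
  | zero =>
    intro x y hx hy _
    rw [pow_zero, pow_one] at hx hy
    rw [hx, hy]
  | succ n ih =>
    intro x y hx hy h
    have hpn : p ^ (n + 1) ≠ 0 := pow_ne_zero _ hp.ne_zero
    have hxA : x ∈ A := mem_of_pow_eq_one A hpn hx
    have hyA : y ∈ A := mem_of_pow_eq_one A hpn hy
    have hx' : (x ^ p) ^ p ^ n = 1 := by rw [← pow_mul, ← pow_succ']; exact hx
    have hy' : (y ^ p) ^ p ^ n = 1 := by rw [← pow_mul, ← pow_succ']; exact hy
    have hsum : (∑ i ∈ Finset.range p, x ^ i * y ^ (p - 1 - i)) ∈ A :=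
      A.toSubring.sum_mem fun i _ => A.mul_mem _ _ (A.pow_mem hxA _) (A.pow_mem hyA _)
    have hsub : x ^ p - y ^ p ∈ A.nonunits := by
      rw [← geom_sum₂_mul, mul_comm]
      exact mul_mem_nonunits A h hsum
    have hpp : x ^ p = y ^ p := ih hx' hy' hsub
    have hy0 : y ≠ 0 := by
      rintro rfl
      rw [zero_pow hpn] at hy
      exact zero_ne_one hy
    have hyinv : y⁻¹ ∈ A := by
      apply mem_of_pow_eq_one A hpn
      rw [inv_pow, hy, inv_one]
    have hξ : (x * y⁻¹) ^ p = 1 := by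
      rw [mul_pow, inv_pow, hpp, mul_inv_cancel₀ (pow_ne_zero _ hy0)]
    have hmem : x * y⁻¹ - 1 ∈ A.nonunits := by
      have e : x * y⁻¹ - 1 = (x - y) * y⁻¹ := by field_simp
      rw [e]
      exact mul_mem_nonunits A h hyinv
    have h1 : x * y⁻¹ = 1 :=
      Fermat.Agent.S29.CycChar.eq_of_sub_mem_nonunits A hp hℓ hne hA hξ (one_pow p) hmem
    field_simp at h1
    exact h1

end Roots

/-! ## The `p`-adic cyclotomic character with values in `ℤ_[p]` -/

section Char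

variable (p : ℕ) [Fact p.Prime]

local notation "Qb" => AlgebraicClosure ℚ

theorem hasEnoughRootsOfUnity_Qb (i : ℕ) : HasEnoughRootsOfUnity Qb (p ^ i) :=
  haveI : NeZero ((p ^ i : ℕ) : Qb) :=
    ⟨Nat.cast_ne_zero.mpr (pow_ne_zero _ (Fact.out : p.Prime).ne_zero)⟩
  inferInstance

/-- The `p`-adic cyclotomic character of `G_ℚ`. -/
noncomputable def chi : GQ →* ℤ_[p]ˣ :=
  (cyclotomicCharacter Qb p).comp (MulSemiringAction.toRingAut GQ Qb)

theorem chi_spec (σ : GQ) (n : ℕ) (t : Qb) (ht : t ^ p ^ n = 1) :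
    σ t = t ^ (PadicInt.toZModPow n ((chi p σ : ℤ_[p]ˣ) : ℤ_[p])).val :=
  haveI : ∀ i, HasEnoughRootsOfUnity Qb (p ^ i) := hasEnoughRootsOfUnity_Qb p
  cyclotomicCharacter.spec p (MulSemiringAction.toRingAut GQ Qb σ) t ht


/-- The value of the character is determined by the action on a primitive root. -/
theorem chi_toZModPow (σ : GQ) (n : ℕ) {ζ : Qb} (hζ : IsPrimitiveRoot ζ (p ^ n)) (a : ℕ)
    (h : σ ζ = ζ ^ a) :
    PadicInt.toZModPow n ((chi p σ : ℤ_[p]ˣ) : ℤ_[p]) = (a : ZMod (p ^ n)) := by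
  have hpos : 0 < p ^ n := pow_pos (Fact.out : p.Prime).pos n
  have h1 := chi_spec p σ n ζ hζ.pow_eq_one
  rw [h] at h1
  have h2 := Fermat.Agent.S29.CycChar.modEq_of_pow_eq hζ hpos h1
  have h3 := (ZMod.natCast_eq_natCast_iff _ _ _).mpr h2
  rw [h3, ZMod.natCast_val, ZMod.cast_id]

theorem chi_eq_of_forall (σ : GQ) (x : ℤ_[p])
    (h : ∀ n : ℕ, PadicInt.toZModPow n ((chi p σ : ℤ_[p]ˣ) : ℤ_[p]) = PadicInt.toZModPow n x) :
    ((chi p σ : ℤ_[p]ˣ) : ℤ_[p]) = x :=
  PadicInt.ext_of_toZModPow.mp h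

/-- Complex conjugation inverts roots of unity. -/
theorem complexConjugation_root {m : ℕ} (hm : m ≠ 0) {ζ : Qb} (hζ : ζ ^ m = 1) :
    complexConjugation ζ = ζ ^ (m - 1) := by
  apply complexEmbedding.toRingHom.injective
  change complexEmbedding (complexConjugation ζ) = complexEmbedding (ζ ^ (m - 1))
  rw [complexEmbedding_complexConjugation, map_pow]
  have hz : (complexEmbedding ζ) ^ m = 1 := by rw [← map_pow, hζ, map_one]
  have hnorm : ‖complexEmbedding ζ‖ = 1 := Complex.norm_eq_one_of_pow_eq_one hz hm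
  rw [← Complex.inv_eq_conj hnorm]
  symm
  apply eq_inv_of_mul_eq_one_left
  rw [← pow_succ, Nat.sub_add_cancel (Nat.pos_of_ne_zero hm), hz]

end Char

end CycCharAdic

open CycCharAdic Fermat.Agent.S29 in
/-- **A2 (CycCharAdic).** -/
theorem cycCharAdic : CycCharAdicStatement := by
  intro p hp 𝒪 _ _ _ _ _ hpm
  have : Fact p.Prime := ⟨hp⟩
  let d : GQ →* 𝒪ˣ := (Units.map (padicLift p 𝒪 hpm : ℤ_[p] →* 𝒪)).comp (chi p)
  have hd : ∀ σ : GQ, ((d σ : 𝒪ˣ) : 𝒪) = padicLift p 𝒪 hpm ((chi p σ : ℤ_[p]ˣ) : ℤ_[p]) :=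
    fun σ => rfl
  have hprim : ∀ n : ℕ, ∃ ζ : AlgebraicClosure ℚ, IsPrimitiveRoot ζ (p ^ n) := fun n =>
    haveI := hasEnoughRootsOfUnity_Qb p n
    HasEnoughRootsOfUnity.exists_primitiveRoot (AlgebraicClosure ℚ) (p ^ n)
  have hpn : ∀ n : ℕ, p ^ n ≠ 0 := fun n => pow_ne_zero n hp.ne_zero
  refine ⟨d, ?_, ?_, ?_, ?_⟩
  · -- continuity
    intro n
    obtain ⟨ζ, hζ⟩ := hprim n
    refine ⟨IntermediateField.adjoin ℚ {ζ}, ?_, ?_⟩
    · exact IntermediateField.adjoin.finiteDimensional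
        ((hζ.isIntegral (pow_pos hp.pos n)).tower_top (A := ℚ))
    · intro σ hσ
      have h1 : σ ζ = ζ ^ 1 := by
        rw [pow_one]
        exact hσ ζ (IntermediateField.mem_adjoin_simple_self ℚ ζ)
      have h2 := chi_toZModPow p σ n hζ 1 h1
      have h3 : PadicInt.toZModPow n ((chi p σ : ℤ_[p]ˣ) : ℤ_[p]) = PadicInt.toZModPow n 1 := by
        rw [h2, map_one, Nat.cast_one]
      have h4 := padicLift_sub_mem p 𝒪 hpm h3
      rw [map_one] at h4
      rw [hd]
      exact h4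
  · -- inertia at `ℓ ≠ p`
    intro ℓ hℓ hne A hA σ hσ
    have h : ((chi p σ : ℤ_[p]ˣ) : ℤ_[p]) = 1 := by
      apply chi_eq_of_forall
      intro n
      obtain ⟨ζ, hζ⟩ := hprim n
      have hζA : ζ ∈ A := mem_of_pow_eq_one A (hpn n) hζ.pow_eq_one
      have h1 : σ ζ - ζ ∈ A.nonunits := Fermat.Agent.S29.CycChar.inertia_sub_mem A hσ hζA
      have hσp : (σ ζ) ^ p ^ n = 1 := by rw [← map_pow, hζ.pow_eq_one, map_one]
      have h2 : σ ζ = ζ := eq_of_sub_mem_nonunits_pow A hp hℓ hne hA n hσp hζ.pow_eq_one h1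
      rw [chi_toZModPow p σ n hζ 1 (by rw [pow_one]; exact h2), map_one, Nat.cast_one]
    apply Units.ext
    rw [hd, h, map_one]
    rfl
  · -- Frobenius at `ℓ ≠ p`
    intro ℓ hℓ hne A hA σ hσ
    have h : ((chi p σ : ℤ_[p]ˣ) : ℤ_[p]) = (ℓ : ℤ_[p]) := by
      apply chi_eq_of_forall
      intro n
      obtain ⟨ζ, hζ⟩ := hprim n
      have hζA : ζ ∈ A := mem_of_pow_eq_one A (hpn n) hζ.pow_eq_one
      have h1 : σ ζ - ζ ^ ℓ ∈ A.nonunits := Fermat.Agent.S29.CycChar.frobenius_sub_mem A hσ hζA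
      have hσp : (σ ζ) ^ p ^ n = 1 := by rw [← map_pow, hζ.pow_eq_one, map_one]
      have hℓp : (ζ ^ ℓ) ^ p ^ n = 1 := by
        rw [← pow_mul, mul_comm, pow_mul, hζ.pow_eq_one, one_pow]
      have h2 : σ ζ = ζ ^ ℓ := eq_of_sub_mem_nonunits_pow A hp hℓ hne hA n hσp hℓp h1
      rw [chi_toZModPow p σ n hζ ℓ h2, map_natCast]
    rw [hd, h, map_natCast]
  · -- complex conjugation
    refine ⟨complexConjugation, complexConjugation_mul_self, ?_⟩
    have h : ((chi p complexConjugation : ℤ_[p]ˣ) : ℤ_[p]) = -1 := by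
      apply chi_eq_of_forall
      intro n
      obtain ⟨ζ, hζ⟩ := hprim n
      have hc := complexConjugation_root (hpn n) hζ.pow_eq_one
      rw [chi_toZModPow p complexConjugation n hζ (p ^ n - 1) hc, map_neg, map_one]
      have h1 : ((p ^ n - 1 : ℕ) : ZMod (p ^ n)) + 1 = 0 := by
        have : ((p ^ n - 1 + 1 : ℕ) : ZMod (p ^ n)) = 0 := by
          rw [Nat.sub_add_cancel (Nat.pos_of_ne_zero (hpn n))]
          exact ZMod.natCast_self _
        simpa using this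
      exact eq_neg_of_add_eq_zero_left h1
    apply Units.ext
    rw [hd, h, map_neg, map_one]
    rfl

end Fermat.Agent.S30
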