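import Fermat.Agent.S30.Skeleton

/-!
# P-GALREP, p-adic part, module A5: the quadratic relation passes to every element of `G_ℚ`

`adicClosure : AdicClosureStatement`.  Fix `g`.  For every `n`, weak Chebotarev applied to the
compositum of the levels of `ρ` and `d` modulo `m ^ n` gives a Frobenius `f` at a prime outside
`S` and an exponent `k` such that `g` agrees with `f ^ k` there; the quadratic relation of
`ρ f` passes to `ρ f ^ k` (power closure over the commutative ring `𝒪`), hence
`ρ g ^ 2 - b_n ρ g + d g` maps `Λ` into `m ^ n Λ` for some `b_n`.  A linear form `φ` and a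
vector `v` with `φ (ρ g v) = 1` pin down `b_n` modulo `m ^ n` independently of `n`, and Krull's
intersection theorem finishes the proof.
-/

set_option autoImplicit false

namespace Fermat.Agent.S30

open Fermat.Agent.S29 (GQ WeakChebotarev)

section PowerClosure

variable {R : Type*} [CommRing R] {W : Type*} [AddCommGroup W] [Module R W]

/-- The scalars `t n = x ^ n + y ^ n` attached to the quadratic `X ^ 2 - b X + d`. -/
def acTrace (b d : R) : ℕ → R
  | 0 => 2
  | 1 => b
  | (n + 2) => b * acTrace b d (n + 1) - d * acTrace b d n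

theorem acTrace_zero (b d : R) : acTrace b d 0 = 2 := rfl

theorem acTrace_one (b d : R) : acTrace b d 1 = b := rfl

theorem acTrace_add_two (b d : R) (n : ℕ) :
    acTrace b d (n + 2) = b * acTrace b d (n + 1) - d * acTrace b d n := rfl

/-- With `y = b • 1 - x` one has `x * y = d • 1`. -/
theorem ac_mul_conj {x : Module.End R W} {b d : R}
    (h : x * x - b • x + d • (1 : Module.End R W) = 0) :
    x * (b • (1 : Module.End R W) - x) = d • (1 : Module.End R W) := by
  have h1 : x * (b • (1 : Module.End R W) - x) = -(x * x - b • x) := by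
    rw [mul_sub, mul_smul_comm, mul_one]
    abel
  rw [h1]
  have h2 : x * x - b • x = -(d • (1 : Module.End R W)) := eq_neg_of_add_eq_zero_left h
  rw [h2, neg_neg]

theorem ac_commute (x : Module.End R W) (b : R) :
    Commute x (b • (1 : Module.End R W) - x) :=
  ((Commute.one_right x).smul_right b).sub_right (Commute.refl x)

/-- `x ^ n + y ^ n = t n • 1`. -/
theorem ac_pow_add_pow {x : Module.End R W} {b d : R}
    (h : x * x - b • x + d • (1 : Module.End R W) = 0) :
    ∀ n : ℕ, x ^ n + (b • (1 : Module.End R W) - x) ^ n =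
      acTrace b d n • (1 : Module.End R W)
  | 0 => by
      rw [pow_zero, pow_zero, acTrace_zero, two_smul]
  | 1 => by
      rw [pow_one, pow_one, acTrace_one]
      abel
  | (n + 2) => by
      have ih1 := ac_pow_add_pow h (n + 1)
      have ih0 := ac_pow_add_pow h n
      set y : Module.End R W := b • (1 : Module.End R W) - x with hy
      have hxy : x * y = d • (1 : Module.End R W) := ac_mul_conj h
      have hc : Commute x y := ac_commute x b
      have hyx : y * x = d • (1 : Module.End R W) := by rw [← hc.eq, hxy]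
      have hsum : x + y = b • (1 : Module.End R W) := by rw [hy]; abel
      have key : x ^ (n + 2) + y ^ (n + 2) =
          (x + y) * (x ^ (n + 1) + y ^ (n + 1)) - (x * y) * (x ^ n + y ^ n) := by
        have e1 : x * y ^ (n + 1) = (x * y) * y ^ n := by rw [pow_succ', ← mul_assoc]
        have e2 : y * x ^ (n + 1) = (x * y) * x ^ n := by
          rw [pow_succ', ← mul_assoc, hyx, hxy]
        have e3 : x * x ^ (n + 1) = x ^ (n + 2) := (pow_succ' x (n + 1)).symm
        have e4 : y * y ^ (n + 1) = y ^ (n + 2) := (pow_succ' y (n + 1)).symm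
        rw [add_mul, mul_add, mul_add, e1, e2, e3, e4, mul_add]
        abel
      rw [key, ih1, ih0, hsum, hxy, acTrace_add_two]
      rw [smul_mul_smul_comm, smul_mul_smul_comm, mul_one, sub_smul]

/-- The quadratic relation for `x ^ n`. -/
theorem ac_pow_relation {x : Module.End R W} {b d : R}
    (h : x * x - b • x + d • (1 : Module.End R W) = 0) (n : ℕ) :
    x ^ n * x ^ n - acTrace b d n • x ^ n + d ^ n • (1 : Module.End R W) = 0 := by
  set y : Module.End R W := b • (1 : Module.End R W) - x with hy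
  have hxy : x * y = d • (1 : Module.End R W) := ac_mul_conj h
  have hc : Commute x y := ac_commute x b
  have h1 : acTrace b d n • x ^ n = (x ^ n + y ^ n) * x ^ n := by
    rw [ac_pow_add_pow h n, smul_mul_assoc, one_mul]
  have h2 : d ^ n • (1 : Module.End R W) = y ^ n * x ^ n := by
    rw [← (hc.pow_pow n n).eq, ← hc.mul_pow, hxy, smul_pow, one_pow]
  rw [h1, h2, add_mul]
  abel

end PowerClosure

section Congruence

variable {R : Type*} [CommRing R] {W : Type*} [AddCommGroup W] [Module R W]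

/-- A linear map preserves `I • ⊤`. -/
theorem ac_map_mem (I : Ideal R) (X : Module.End R W) {w : W}
    (hw : w ∈ I • (⊤ : Submodule R W)) : X w ∈ I • (⊤ : Submodule R W) := by
  refine Submodule.smul_induction_on (p := fun x => X x ∈ I • (⊤ : Submodule R W)) hw ?_ ?_
  · intro a ha x _
    rw [map_smul]
    exact Submodule.smul_mem_smul ha Submodule.mem_top
  · intro x y hx hy
    rw [map_add]
    exact Submodule.add_mem _ hx hy

/-- A linear form maps `I • ⊤` into `I`. -/
theorem ac_form_mem (I : Ideal R) (φ : W →ₗ[R] R) {w : W}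
    (hw : w ∈ I • (⊤ : Submodule R W)) : φ w ∈ I := by
  refine Submodule.smul_induction_on (p := fun x => φ x ∈ I) hw ?_ ?_
  · intro a ha x _
    rw [map_smul, smul_eq_mul]
    exact I.mul_mem_right _ ha
  · intro x y hx hy
    rw [map_add]
    exact I.add_mem hx hy

/-- Scalars of `I` map everything into `I • ⊤`. -/
theorem ac_smul_mem (I : Ideal R) {a : R} (ha : a ∈ I) (w : W) :
    a • w ∈ I • (⊤ : Submodule R W) :=
  Submodule.smul_mem_smul ha Submodule.mem_top

/-- The congruence step: if `Y = X * s` with `s ≡ 1` modulo `I`, `e = c * u` with `u ≡ 1`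
modulo `I`, and `X` satisfies the quadratic relation with coefficients `t`, `c`, then
`Y * Y - t • Y + e • 1` maps everything into `I • ⊤`. -/
theorem ac_congr (I : Ideal R) (X s : Module.End R W) (t c u : R)
    (hs : ∀ w : W, s w - w ∈ I • (⊤ : Submodule R W)) (hu : u - 1 ∈ I)
    (hX : X * X - t • X + c • (1 : Module.End R W) = 0) (v : W) :
    ((X * s) * (X * s) - t • (X * s) + (c * u) • (1 : Module.End R W)) v ∈
      I • (⊤ : Submodule R W) := by
  -- the error term `E w = X (s w - w)`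
  have hE : ∀ w : W, X (s w) - X w ∈ I • (⊤ : Submodule R W) := fun w => by
    rw [← map_sub]
    exact ac_map_mem I X (hs w)
  have hrel : X (X v) - t • X v + c • v = 0 := by
    have := congrArg (fun T : Module.End R W => T v) hX
    simpa using this
  have key : ((X * s) * (X * s) - t • (X * s) + (c * u) • (1 : Module.End R W)) v =
      X (X (s v) - X v) + (X (s (X (s v))) - X (X (s v))) - t • (X (s v) - X v)
        + (c * (u - 1)) • v + (X (X v) - t • X v + c • v) := by
    simp only [LinearMap.add_apply, LinearMap.sub_apply, LinearMap.smul_apply,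
      Module.End.mul_apply, Module.End.one_apply, map_sub, smul_sub, mul_sub, mul_one, sub_smul]
    abel
  rw [key, hrel, add_zero]
  refine Submodule.add_mem _ (Submodule.sub_mem _ (Submodule.add_mem _ ?_ ?_) ?_) ?_
  · exact ac_map_mem I X (hE v)
  · exact hE (X (s v))
  · exact Submodule.smul_mem _ _ (hE v)
  · exact ac_smul_mem I (I.mul_mem_left _ hu) v

end Congruence

/-- **A5 (AdicClosure).** -/
theorem adicClosure : AdicClosureStatement := by
  intro hCheb 𝒪 _ _ _ Λ _ _ _ _ _ ρ d S hρ hd hFrob g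
  -- for every `n` a coefficient `b_n` working modulo `m ^ n`
  have hn : ∀ n : ℕ, ∃ b : 𝒪, ∀ v : Λ,
      (ρ g * ρ g - b • ρ g + ((d g : 𝒪ˣ) : 𝒪) • (1 : Module.End 𝒪 Λ)) v ∈
        (IsLocalRing.maximalIdeal 𝒪 ^ n) • (⊤ : Submodule 𝒪 Λ) := by
    intro n
    obtain ⟨L₁, hL₁, h₁⟩ := hρ n
    obtain ⟨L₂, hL₂, h₂⟩ := hd n
    have hfd : FiniteDimensional ℚ ↥(L₁ ⊔ L₂) := IntermediateField.finiteDimensional_sup L₁ L₂
    obtain ⟨ℓ, hℓ, hℓS, A, hA, f, hf, k, hk⟩ := hCheb (L₁ ⊔ L₂) hfd g S
    obtain ⟨b, hb⟩ := hFrob ℓ hℓ hℓS A hA f hf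
    -- `σ = (f ^ k)⁻¹ * g` fixes the compositum
    have hσ : ∀ x ∈ L₁ ⊔ L₂, ((f ^ k)⁻¹ * g) x = x := fun x hx => by
      rw [AlgEquiv.mul_apply, hk x hx]
      exact (f ^ k).symm_apply_apply x
    have hg : g = f ^ k * ((f ^ k)⁻¹ * g) := by rw [mul_inv_cancel_left]
    have hs := h₁ ((f ^ k)⁻¹ * g) fun x hx => hσ x (le_sup_left (a := L₁) (b := L₂) hx)
    have hu := h₂ ((f ^ k)⁻¹ * g) fun x hx => hσ x (le_sup_right (a := L₁) (b := L₂) hx)
    have hX := ac_pow_relation hb k
    refine ⟨acTrace b ((d f : 𝒪ˣ) : 𝒪) k, fun v => ?_⟩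
    have h := ac_congr (IsLocalRing.maximalIdeal 𝒪 ^ n) (ρ f ^ k) (ρ ((f ^ k)⁻¹ * g))
      (acTrace b ((d f : 𝒪ˣ) : 𝒪) k) (((d f : 𝒪ˣ) : 𝒪) ^ k) ((d ((f ^ k)⁻¹ * g) : 𝒪ˣ) : 𝒪)
      hs hu hX v
    have e1 : ρ g = ρ f ^ k * ρ ((f ^ k)⁻¹ * g) := by
      conv_lhs => rw [hg]
      rw [map_mul, map_pow]
    have e2 : ((d g : 𝒪ˣ) : 𝒪) = ((d f : 𝒪ˣ) : 𝒪) ^ k * ((d ((f ^ k)⁻¹ * g) : 𝒪ˣ) : 𝒪) := by
      conv_lhs => rw [hg]
      rw [map_mul, map_pow, Units.val_mul, Units.val_pow_eq_pow_val]
    rw [e1, e2]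
    exact h
  -- a vector `v` and a linear form `φ` with `φ (ρ g v) = 1`
  obtain ⟨v, φ, hφ⟩ : ∃ (v : Λ) (φ : Λ →ₗ[𝒪] 𝒪), φ (ρ g v) = 1 := by
    let B := Module.Free.chooseBasis 𝒪 Λ
    have hne : Nonempty (Module.Free.ChooseBasisIndex 𝒪 Λ) := by
      by_contra hemp
      rw [not_nonempty_iff] at hemp
      have : Subsingleton Λ := by
        refine ⟨fun x y => ?_⟩
        apply B.ext_elem
        intro i
        exact hemp.elim i
      exact not_subsingleton Λ this
    obtain ⟨i⟩ := hne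
    refine ⟨ρ g⁻¹ (B i), B.coord i, ?_⟩
    have h1 : ρ g (ρ g⁻¹ (B i)) = B i := by
      rw [← Module.End.mul_apply, ← map_mul, mul_inv_cancel, map_one, Module.End.one_apply]
    rw [h1]
    simp
  -- the candidate coefficient
  refine ⟨φ ((ρ g * ρ g + ((d g : 𝒪ˣ) : 𝒪) • (1 : Module.End 𝒪 Λ)) v), ?_⟩
  set b₀ : 𝒪 := φ ((ρ g * ρ g + ((d g : 𝒪ˣ) : 𝒪) • (1 : Module.End 𝒪 Λ)) v) with hb₀
  refine LinearMap.ext fun w => ?_
  rw [LinearMap.zero_apply]
  have hmem : (ρ g * ρ g - b₀ • ρ g + ((d g : 𝒪ˣ) : 𝒪) • (1 : Module.End 𝒪 Λ)) w ∈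
      (⨅ i : ℕ, (IsLocalRing.maximalIdeal 𝒪 ^ i) • (⊤ : Submodule 𝒪 Λ)) := by
    rw [Submodule.mem_iInf]
    intro n
    obtain ⟨b, hb⟩ := hn n
    -- `b ≡ b₀` modulo `m ^ n`
    have hbb : b₀ - b ∈ IsLocalRing.maximalIdeal 𝒪 ^ n := by
      have h := ac_form_mem _ φ (hb v)
      have e : φ ((ρ g * ρ g - b • ρ g + ((d g : 𝒪ˣ) : 𝒪) • (1 : Module.End 𝒪 Λ)) v) =
          b₀ - b := by
        rw [hb₀]
        simp only [LinearMap.add_apply, LinearMap.sub_apply, LinearMap.smul_apply,
          Module.End.mul_apply, Module.End.one_apply, map_add, map_sub, map_smul, smul_eq_mul]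
        rw [hφ]
        ring
      rwa [e] at h
    have e : (ρ g * ρ g - b₀ • ρ g + ((d g : 𝒪ˣ) : 𝒪) • (1 : Module.End 𝒪 Λ)) w =
        (ρ g * ρ g - b • ρ g + ((d g : 𝒪ˣ) : 𝒪) • (1 : Module.End 𝒪 Λ)) w
          - (b₀ - b) • ρ g w := by
      simp only [LinearMap.add_apply, LinearMap.sub_apply, LinearMap.smul_apply,
        Module.End.mul_apply, Module.End.one_apply, sub_smul]
      abel
    rw [e]
    exact Submodule.sub_mem _ (hb w) (ac_smul_mem _ hbb _)
  rw [Ideal.iInf_pow_smul_eq_bot_of_isLocalRing (IsLocalRing.maximalIdeal 𝒪)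
    (Ideal.IsMaximal.ne_top inferInstance), Submodule.mem_bot] at hmem
  exact hmem

end Fermat.Agent.S30
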