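import Fermat.Agent.S30.GlueTID
import Fermat.Agent.Red.SM.TID2
import Fermat.Agent.Red.SM.TID3Row

/-!
# P-GALREP: the geometric inputs, unconditionally

Commutativity of the Hecke operators and their compatibility with Galois, the Eichler--Shimura
relation on torsion points (through the torsion gate), finiteness of the torsion of the
Jacobian and the lattice form of the key lemma.

Author: helper30 (assembly); the inputs are due to the P-RED and IN-JAC teams.
-/

set_option autoImplicit false

namespace Fermat.Agent.S30

/-- The geometric inputs of P-GALREP. -/
theorem geometricInputsFull : GeometricInputsFull :=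
  geometricInputsFull_of_rowTID
    (Fermat.Agent.Red.SM.TID.rowTID_of_t2 Fermat.Agent.Red.SM.TID.t2_identity
      Fermat.Agent.Red.SM.TID.t2_fricke Fermat.Agent.Red.SM.TID.t2_coeff_int
      Fermat.Agent.Red.SM.TID.t2_isMonicOfOrder)

end Fermat.Agent.S30
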