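import Fermat.Agent.S29.Skeleton
import Fermat.Prelude.Def_CuspForm_HeckeGaloisRepDatum

/-!
# P-GALREP, p-adic part (S30): interface skeleton

Architect: helper30.  Every declaration here is a `def` (a frozen interface `Prop`, or a
small auxiliary definition); nothing is assumed.  See findings stmt='S30' kind='blueprint'.

Design: the representation is cut out of the `p`-adic Tate module of `J₀(N)` as the
`χ`-eigenlattice `Λ`; on `Λ` every Frobenius at `ℓ ∉ S` satisfies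
`F² - χ(T_ℓ) F + ℓ = 0`.  By weak Chebotarev and continuity EVERY element of `G_ℚ` satisfies a
quadratic relation with constant term the cyclotomic character, and then complex conjugation
(an involution of determinant `-1`) forces a simple constituent to have rank `≤ 2` over the
GIVEN ring `𝒪` (no extension of `𝒪` is needed: `𝒪'' = 𝒪'`).
-/

set_option autoImplicit false

open Polynomial

namespace Fermat.Agent.S30

open Fermat.Agent.S29 (GQ WeakChebotarev HeckeGaloisCommute EichlerShimuraTorsion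
  TorsionFiniteLevel)

/-! ## Pure algebra -/

/-- **A1 (QuadRepOdd).**  A nonzero finite free module `Λ` over a discrete valuation ring of
characteristic zero with an action of a group `G` such that every element satisfies a monic
quadratic with constant term `d g` (`d` a character), and an element `c` with `c² = 1`,
`d c = -1`: then there is a rank-2 representation with the prescribed characteristic
polynomials, at least as continuous as `Λ` and `d`. -/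
def QuadRepOddStatement : Prop :=
  ∀ (𝒪 : Type) [CommRing 𝒪] [IsDomain 𝒪] [IsDiscreteValuationRing 𝒪] [CharZero 𝒪]
    (G : Type) [Group G]
    (Λ : Type) [AddCommGroup Λ] [Module 𝒪 Λ] [Module.Free 𝒪 Λ] [Module.Finite 𝒪 Λ]
    [Nontrivial Λ]
    (ρ : G →* Module.End 𝒪 Λ) (d : G →* 𝒪ˣ) (c : G),
    c * c = 1 → d c = -1 →
    (∀ g : G, ∃ b : 𝒪, ρ g * ρ g - b • ρ g + ((d g : 𝒪ˣ) : 𝒪) • (1 : Module.End 𝒪 Λ) = 0) →
    ∃ ρ' : G →* Module.End 𝒪 (Fin 2 → 𝒪),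
      (∀ (g : G) (b : 𝒪),
        ρ g * ρ g - b • ρ g + ((d g : 𝒪ˣ) : 𝒪) • (1 : Module.End 𝒪 Λ) = 0 →
          LinearMap.charpoly (ρ' g) = X ^ 2 - C b * X + C ((d g : 𝒪ˣ) : 𝒪)) ∧
      (∀ (g : G) (n : ℕ),
        (∀ v : Λ, ρ g v - v ∈ (IsLocalRing.maximalIdeal 𝒪 ^ n) • (⊤ : Submodule 𝒪 Λ)) →
        ((d g : 𝒪ˣ) : 𝒪) - 1 ∈ IsLocalRing.maximalIdeal 𝒪 ^ n →
          ∀ w : Fin 2 → 𝒪, ρ' g w - w ∈
            (IsLocalRing.maximalIdeal 𝒪 ^ n) • (⊤ : Submodule 𝒪 (Fin 2 → 𝒪))) ∧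
      (∀ g : G, ρ g = 1 → d g = 1 → ρ' g = 1)

/-- **A2 (CycCharAdic).**  The `p`-adic cyclotomic character of `G_ℚ` with values in a
complete discrete valuation ring of residue characteristic `p`: continuous, trivial on inertia
at `ℓ ≠ p`, sends a Frobenius at `ℓ ≠ p` to `ℓ`, and sends some involution to `-1`. -/
def CycCharAdicStatement : Prop :=
  ∀ (p : ℕ), p.Prime →
  ∀ (𝒪 : Type) [CommRing 𝒪] [IsDomain 𝒪] [IsDiscreteValuationRing 𝒪]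
    [IsAdicComplete (IsLocalRing.maximalIdeal 𝒪) 𝒪] [CharZero 𝒪],
    (p : 𝒪) ∈ IsLocalRing.maximalIdeal 𝒪 →
    ∃ d : GQ →* 𝒪ˣ,
      (∀ n : ℕ, ∃ L : IntermediateField ℚ (AlgebraicClosure ℚ), FiniteDimensional ℚ L ∧
        ∀ σ : GQ, (∀ x ∈ L, σ x = x) →
          ((d σ : 𝒪ˣ) : 𝒪) - 1 ∈ IsLocalRing.maximalIdeal 𝒪 ^ n) ∧
      (∀ ℓ : ℕ, ℓ.Prime → ℓ ≠ p →
        ∀ A : ValuationSubring (AlgebraicClosure ℚ), A.LiesOverPrime ℓ →
          ∀ σ ∈ A.inertiaSubgroupIn ℚ, d σ = 1) ∧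
      (∀ ℓ : ℕ, ℓ.Prime → ℓ ≠ p →
        ∀ A : ValuationSubring (AlgebraicClosure ℚ), A.LiesOverPrime ℓ →
          ∀ σ : GQ, A.IsFrobeniusAt σ ℓ → ((d σ : 𝒪ˣ) : 𝒪) = (ℓ : 𝒪)) ∧
      ∃ c : GQ, c * c = 1 ∧ d c = -1

/-- **ESLattice.**  A nonzero finite free `𝒪`-module with a continuous action of `G_ℚ`,
unramified at the primes `q ∤ N`, `q ≠ p`, on which every Frobenius at `ℓ ∉ S` satisfies the
Eichler–Shimura quadratic `X² - χ(T_ℓ) X + ℓ`. -/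
def ESLattice (p N : ℕ) [NeZero N] (S : Finset ℕ)
    (𝒪 : Type) [CommRing 𝒪] [IsLocalRing 𝒪]
    (χ : CuspForm.heckeAlgebra N 2 (↑S : Set ℕ) →+* 𝒪) : Prop :=
  ∃ (Λ : Type) (_ : AddCommGroup Λ) (_ : Module 𝒪 Λ) (_ : Module.Free 𝒪 Λ)
    (_ : Module.Finite 𝒪 Λ) (_ : Nontrivial Λ) (ρ : GQ →* Module.End 𝒪 Λ),
    GaloisActionIsAdicContinuous 𝒪 ρ ∧
    (∀ q : ℕ, q.Prime → ¬ q ∣ N → q ≠ p →
      ∀ A : ValuationSubring (AlgebraicClosure ℚ), A.LiesOverPrime q →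
        ∀ σ ∈ A.inertiaSubgroupIn ℚ, ρ σ = 1) ∧
    (∀ (ℓ : ℕ) (hℓ : ℓ.Prime) (hℓN : ¬ ℓ ∣ N) (hℓS : ℓ ∉ (↑S : Set ℕ)),
      ∀ A : ValuationSubring (AlgebraicClosure ℚ), A.LiesOverPrime ℓ →
        ∀ σ : GQ, A.IsFrobeniusAt σ ℓ →
          ρ σ * ρ σ - χ (CuspForm.heckeAlgebra.T hℓ hℓN hℓS) • ρ σ
            + (ℓ : 𝒪) • (1 : Module.End 𝒪 Λ) = 0)

/-- **A5 (AdicClosure).**  By weak Chebotarev and continuity, the quadratic relation passes
from the Frobenius elements at the primes outside a finite set `S` to every element of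
`G_ℚ`. -/
def AdicClosureStatement : Prop :=
  WeakChebotarev →
  ∀ (𝒪 : Type) [CommRing 𝒪] [IsDomain 𝒪] [IsDiscreteValuationRing 𝒪]
    (Λ : Type) [AddCommGroup Λ] [Module 𝒪 Λ] [Module.Free 𝒪 Λ] [Module.Finite 𝒪 Λ]
    [Nontrivial Λ]
    (ρ : GQ →* Module.End 𝒪 Λ) (d : GQ →* 𝒪ˣ) (S : Finset ℕ),
    GaloisActionIsAdicContinuous 𝒪 ρ →
    (∀ n : ℕ, ∃ L : IntermediateField ℚ (AlgebraicClosure ℚ), FiniteDimensional ℚ L ∧
      ∀ σ : GQ, (∀ x ∈ L, σ x = x) →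
        ((d σ : 𝒪ˣ) : 𝒪) - 1 ∈ IsLocalRing.maximalIdeal 𝒪 ^ n) →
    (∀ ℓ : ℕ, ℓ.Prime → ℓ ∉ S →
      ∀ A : ValuationSubring (AlgebraicClosure ℚ), A.LiesOverPrime ℓ →
        ∀ σ : GQ, A.IsFrobeniusAt σ ℓ →
          ∃ b : 𝒪, ρ σ * ρ σ - b • ρ σ + ((d σ : 𝒪ˣ) : 𝒪) • (1 : Module.End 𝒪 Λ) = 0) →
    ∀ g : GQ, ∃ b : 𝒪, ρ g * ρ g - b • ρ g + ((d g : 𝒪ˣ) : 𝒪) • (1 : Module.End 𝒪 Λ) = 0

/-- The conclusion of S30 with `𝒪'' = 𝒪'`. -/
def GalRepAdicConclusion (p N : ℕ) [NeZero N] (S : Finset ℕ)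
    (𝒪 : Type) [CommRing 𝒪] [IsLocalRing 𝒪]
    (χ : CuspForm.heckeAlgebra N 2 (↑S : Set ℕ) →+* 𝒪) : Prop :=
  ∃ ρ : GaloisRepAdic 𝒪,
    (∀ (ℓ : ℕ) (hℓ : ℓ.Prime) (hℓN : ¬ ℓ ∣ N) (hℓS : ℓ ∉ (↑S : Set ℕ)),
      ∀ A : ValuationSubring (AlgebraicClosure ℚ), A.LiesOverPrime ℓ →
        ∀ σ : GQ, A.IsFrobeniusAt σ ℓ →
          LinearMap.charpoly (ρ.ρ σ) =
            X ^ 2 - C (χ (CuspForm.heckeAlgebra.T hℓ hℓN hℓS)) * X + C ((ℓ : 𝒪))) ∧
    (∀ q : ℕ, q.Prime → ¬ q ∣ N → q ≠ p → ρ.IsUnramifiedAt q)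

/-- **A6 (CoreAdic).**  From an `ESLattice` and weak Chebotarev to the conclusion of S30. -/
def CoreAdicStatement : Prop :=
  WeakChebotarev →
  ∀ (p : ℕ), p.Prime → ∀ (N : ℕ) [NeZero N] (S : Finset ℕ), p ∈ S →
    (∀ q : ℕ, q.Prime → q ∣ N → q ∈ S) →
  ∀ (𝒪 : Type) [CommRing 𝒪] [IsDomain 𝒪] [IsDiscreteValuationRing 𝒪]
    [IsAdicComplete (IsLocalRing.maximalIdeal 𝒪) 𝒪] [CharZero 𝒪],
    (p : 𝒪) ∈ IsLocalRing.maximalIdeal 𝒪 →
    ∀ χ : CuspForm.heckeAlgebra N 2 (↑S : Set ℕ) →+* 𝒪,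
      ESLattice p N S 𝒪 χ → GalRepAdicConclusion p N S 𝒪 χ

/-! ## Geometric input (IN-JAC, integral form) -/

/-- the Hecke operator `T_ℓ` on weight-2 cusp forms of level `N`, as an element of the full
Hecke algebra, for every prime `ℓ` (zero when `ℓ ∣ N`) -/
noncomputable def heckeTAll (N : ℕ) [NeZero N] (ℓ : Nat.Primes) :
    CuspForm.heckeAlgebra N 2 (∅ : Set ℕ) :=
  if h : (ℓ : ℕ) ∣ N then 0 else CuspForm.heckeAlgebra.T ℓ.2 h (Set.notMem_empty _)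

/-- **IN-JAC-key, integral form.**  If an integer polynomial `P` in the Hecke operators `T_ℓ`
(`ℓ ∤ N * n`) kills `J₀(N)[n]` (module structure `ModularCurve.heckeModuleBar N`), then the
operator `P(T)` on weight-2 cusp forms is `n` times an operator which is integral over `ℤ`.
(Analytic reason: `P(T)/n` preserves the lattice `H¹_par(Γ₀(N), ℤ)`, into whose
complexification the cusp forms embed Hecke-equivariantly by the period map.)  It implies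
`Fermat.Agent.S29.HeckeKeyModP N n`. -/
def HeckeKeyInt (N n : ℕ) [NeZero N] : Prop :=
  ∀ (P : MvPolynomial Nat.Primes ℤ),
    (∀ ℓ ∈ P.vars, ¬ (ℓ : ℕ) ∣ N * n) →
    (letI := ModularCurve.heckeModuleBar N
      ∀ x : ModularCurve.JZero N, n • x = 0 → P • x = 0) →
    ∃ B : Module.End ℂ (CuspForm (CongruenceSubgroup.Gamma0 N) 2), IsIntegral ℤ B ∧
      ((MvPolynomial.aeval (R := ℤ) (heckeTAll N) P : CuspForm.heckeAlgebra N 2 (∅ : Set ℕ)) :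
        Module.End ℂ (CuspForm (CongruenceSubgroup.Gamma0 N) 2)) = (n : ℂ) • B

/-- **A3+A4 (PackageAdic).**  The geometric inputs produce an `ESLattice` for every character
of the Hecke algebra with values in a complete discrete valuation ring of residue
characteristic `p`. -/
def PackageAdicStatement (N p : ℕ) [NeZero N] : Prop :=
  p.Prime → HeckeGaloisCommute N → EichlerShimuraTorsion N p →
    (∀ k : ℕ, TorsionFiniteLevel N (p ^ k)) → (∀ k : ℕ, HeckeKeyInt N (p ^ k)) →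
    ∀ (S : Finset ℕ), p ∈ S → (∀ q : ℕ, q.Prime → q ∣ N → q ∈ S) →
    ∀ (𝒪 : Type) [CommRing 𝒪] [IsDomain 𝒪] [IsDiscreteValuationRing 𝒪]
      [IsAdicComplete (IsLocalRing.maximalIdeal 𝒪) 𝒪] [Finite (IsLocalRing.ResidueField 𝒪)]
      [CharZero 𝒪],
      (p : 𝒪) ∈ IsLocalRing.maximalIdeal 𝒪 →
      ∀ χ : CuspForm.heckeAlgebra N 2 (↑S : Set ℕ) →+* 𝒪, ESLattice p N S 𝒪 χ

end Fermat.Agent.S30
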