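import Fermat.Agent.S30.Skeleton
import Fermat.Agent.S29.Integral

/-!
# P-GALREP, module M11: `HeckeKeyModP` from `HeckeKeyInt`

If `P(T) = n • B` on weight-2 cusp forms with `B` integral over `ℤ`, then for every normalised
eigenform `g` the number `P(a_ℓ(g))` is `n` times an algebraic integer (the eigenvalue of `B`
on `g`).
-/

set_option autoImplicit false

open ModularFormClass CongruenceSubgroup

namespace Fermat.Agent.S30

namespace KeyOfInt

variable {N : ℕ} [NeZero N]

/-- the eigenvalue system of `g`, set to zero at the primes dividing `N` -/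
noncomputable def eig (N : ℕ) (g : CuspForm (Gamma0 N) 2) (ℓ : Nat.Primes) : ℂ :=
  if (ℓ : ℕ) ∣ N then 0 else qCoeff ⇑g ℓ

theorem heckeTAll_apply {g : CuspForm (Gamma0 N) 2} (hg : g.IsNormalizedEigenform)
    (ℓ : Nat.Primes) :
    ((heckeTAll N ℓ : CuspForm.heckeAlgebra N 2 (∅ : Set ℕ)) :
      Module.End ℂ (CuspForm (Gamma0 N) 2)) g = eig N g ℓ • g := by
  unfold heckeTAll eig
  split_ifs with h
  · simp
  · rw [CuspForm.heckeAlgebra.coe_T]
    exact Fermat.Agent.S29.Integral.heckeTLin_apply hg ℓ.2 h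

theorem aeval_apply {g : CuspForm (Gamma0 N) 2} (hg : g.IsNormalizedEigenform)
    (P : MvPolynomial Nat.Primes ℤ) :
    ((MvPolynomial.aeval (R := ℤ) (heckeTAll N) P : CuspForm.heckeAlgebra N 2 (∅ : Set ℕ)) :
      Module.End ℂ (CuspForm (Gamma0 N) 2)) g
      = (MvPolynomial.aeval (R := ℤ) (eig N g) P : ℂ) • g := by
  induction P using MvPolynomial.induction_on with
  | C a =>
    rw [MvPolynomial.aeval_C, MvPolynomial.aeval_C]
    have h1 : ((algebraMap ℤ (CuspForm.heckeAlgebra N 2 (∅ : Set ℕ)) a :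
        CuspForm.heckeAlgebra N 2 (∅ : Set ℕ)) : Module.End ℂ (CuspForm (Gamma0 N) 2))
        = algebraMap ℤ (Module.End ℂ (CuspForm (Gamma0 N) 2)) a := rfl
    rw [h1]
    simp only [eq_intCast, Module.End.intCast_apply]
    exact (Int.cast_smul_eq_zsmul ℂ a g).symm
  | add p q hp hq =>
    rw [map_add, map_add, Subalgebra.coe_add, LinearMap.add_apply, hp, hq, add_smul]
  | mul_X p ℓ hp =>
    rw [map_mul, map_mul, MvPolynomial.aeval_X, MvPolynomial.aeval_X, Subalgebra.coe_mul,
      Module.End.mul_apply, heckeTAll_apply hg, map_smul, hp, smul_smul, mul_comm]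

/-- evaluation of a polynomial in an operator on an eigenvector -/
theorem polyAeval_apply {V : Type*} [AddCommGroup V] [Module ℂ V] (B : Module.End ℂ V)
    {v : V} {c : ℂ} (hB : B v = c • v) (f : Polynomial ℤ) :
    (Polynomial.aeval B f) v = (Polynomial.aeval c f) • v := by
  have hpow : ∀ j : ℕ, (B ^ j) v = c ^ j • v := by
    intro j
    induction j with
    | zero => simp
    | succ j ih =>
      rw [pow_succ, Module.End.mul_apply, hB, map_smul, ih, smul_smul, pow_succ, mul_comm]
  induction f using Polynomial.induction_on' with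
  | add p q hp hq => rw [map_add, map_add, LinearMap.add_apply, hp, hq, add_smul]
  | monomial n a =>
    rw [Polynomial.aeval_monomial, Polynomial.aeval_monomial, Module.End.mul_apply, hpow,
      map_smul]
    simp only [eq_intCast, Module.End.intCast_apply]
    rw [← Int.cast_smul_eq_zsmul ℂ a v, smul_smul, mul_comm]

end KeyOfInt

/-- **M11.** `HeckeKeyInt N n` implies `HeckeKeyModP N n`. -/
theorem heckeKeyModP_of_int (N n : ℕ) [NeZero N] (h : HeckeKeyInt N n) :
    Fermat.Agent.S29.HeckeKeyModP N n := by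
  intro P hvars hkill g hg
  obtain ⟨B, hBint, hB⟩ := h P hvars hkill
  have hg0 : g ≠ 0 := Fermat.Agent.S29.Integral.ne_zero hg
  -- the two eigenvalue systems agree on the variables of `P`
  have hcongr : (MvPolynomial.aeval (R := ℤ) (KeyOfInt.eig N g) P : ℂ)
      = MvPolynomial.aeval (R := ℤ) (fun ℓ : Nat.Primes => qCoeff ⇑g ℓ) P := by
    apply MvPolynomial.eval₂Hom_congr' rfl _ rfl
    intro ℓ hℓ _
    unfold KeyOfInt.eig
    rw [if_neg]
    intro hdvd
    exact hvars ℓ hℓ (Dvd.dvd.mul_right hdvd n)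
  rw [← hcongr]
  have key : (n : ℂ) • B g = (MvPolynomial.aeval (R := ℤ) (KeyOfInt.eig N g) P : ℂ) • g := by
    rw [← KeyOfInt.aeval_apply hg P, hB, LinearMap.smul_apply]
  rcases Nat.eq_zero_or_pos n with rfl | hn
  · refine ⟨0, ?_⟩
    simp only [Nat.cast_zero, zero_smul, zero_mul] at key ⊢
    exact (smul_eq_zero.mp key.symm).resolve_right hg0
  · have hn0 : (n : ℂ) ≠ 0 := Nat.cast_ne_zero.mpr hn.ne'
    set a : ℂ := MvPolynomial.aeval (R := ℤ) (KeyOfInt.eig N g) P with ha
    have hBg : B g = (a / n) • g := by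
      have := congrArg (fun v => (n : ℂ)⁻¹ • v) key
      simp only [smul_smul, inv_mul_cancel₀ hn0, one_smul] at this
      rw [this, div_eq_inv_mul]
    obtain ⟨f, hfm, hf⟩ := hBint
    have hint : IsIntegral ℤ (a / n) := by
      refine ⟨f, hfm, ?_⟩
      have h1 := KeyOfInt.polyAeval_apply B hBg f
      have h2 : Polynomial.aeval B f = 0 := by
        rw [Polynomial.aeval_def]; exact hf
      rw [h2, LinearMap.zero_apply] at h1
      have h3 := (smul_eq_zero.mp h1.symm).resolve_right hg0
      rw [Polynomial.aeval_def] at h3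
      exact h3
    refine ⟨⟨a / n, hint⟩, ?_⟩
    simp only
    field_simp

end Fermat.Agent.S30
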