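import Fermat.Agent.S30.CoreAdic
import Fermat.Agent.S30.CycCharAdic
import Fermat.Agent.S30.AdicClosure
import Fermat.Agent.S30.KeyOfInt
import Fermat.Agent.S31.IntOfLattice
import Fermat.Agent.S29.Assembly

/-!
# P-GALREP: S30 from the geometric inputs

`GeometricInputsFull` collects the four geometric inputs in their strongest (lattice) form;
`s30_of` is the statement of S30 from them, from `QuadRepOddStatement` (A1) and from
`PackageAdicStatement` (A4).  Weak Chebotarev, the cyclotomic character, the adic closure and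
the core are landed and used here.

Author: helper30.
-/

set_option autoImplicit false

open Polynomial

namespace Fermat.Agent.S30

open Fermat.Agent.S29 (GQ WeakChebotarev HeckeGaloisCommute EichlerShimuraTorsion
  TorsionFiniteLevel HeckeKeyModP GeometricInputs)
open Fermat.Agent.S31 (HeckeKeyLattice heckeKeyInt_of_lattice)

/-- The geometric inputs of P-GALREP in their final form. -/
def GeometricInputsFull : Prop :=
  (∀ (N : ℕ) [NeZero N], HeckeGaloisCommute N) ∧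
  (∀ (N p : ℕ) [NeZero N], p.Prime → EichlerShimuraTorsion N p) ∧
  (∀ (N n : ℕ) [NeZero N], 0 < n → TorsionFiniteLevel N n) ∧
  (∀ (N : ℕ) [NeZero N], HeckeKeyLattice N)

/-- The full inputs imply the inputs of the residual part. -/
theorem geometricInputs_of_full (h : GeometricInputsFull) : GeometricInputs :=
  ⟨h.1, h.2.1, fun N p _ hp => h.2.2.1 N p hp.pos,
    fun N p _ _ => heckeKeyModP_of_int N p (heckeKeyInt_of_lattice N (h.2.2.2 N) p)⟩

/-- The core of S30, unconditionally relative to A1. -/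
theorem coreAdic (hQ : QuadRepOddStatement) : CoreAdicStatement :=
  coreAdic_of hQ cycCharAdic adicClosure

/-- S30 from the geometric inputs, A1 (QuadRepOdd) and A4 (PackageAdic). -/
theorem s30_of (hQ : QuadRepOddStatement)
    (hPack : ∀ (N p : ℕ) [NeZero N], PackageAdicStatement N p)
    (h : GeometricInputsFull) :
    ∀ (p : ℕ) [Fact p.Prime] (N : ℕ) [NeZero N] (S : Finset ℕ)
      (_hpS : p ∈ S) (_hNS : ∀ q : ℕ, q.Prime → q ∣ N → q ∈ S)
      (𝒪' : Type) [CommRing 𝒪'] [IsDomain 𝒪'] [IsDiscreteValuationRing 𝒪']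
      [IsAdicComplete (IsLocalRing.maximalIdeal 𝒪') 𝒪'] [Finite (IsLocalRing.ResidueField 𝒪')]
      [CharZero 𝒪'] (_hp𝒪' : (p : 𝒪') ∈ IsLocalRing.maximalIdeal 𝒪')
      (χ : CuspForm.heckeAlgebra N 2 (↑S : Set ℕ) →+* 𝒪'),
      ∃ (𝒪'' : Type) (_ : CommRing 𝒪'') (_ : IsDomain 𝒪'') (_ : IsDiscreteValuationRing 𝒪'')
        (_ : IsAdicComplete (IsLocalRing.maximalIdeal 𝒪'') 𝒪'')
        (_ : Finite (IsLocalRing.ResidueField 𝒪'')) (_ : CharZero 𝒪'')
        (_ : Algebra 𝒪' 𝒪'') (_ : Module.Finite 𝒪' 𝒪'') (_ : IsLocalHom (algebraMap 𝒪' 𝒪'')),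
      Function.Injective (algebraMap 𝒪' 𝒪'') ∧
      ∃ ρ : GaloisRepAdic 𝒪'',
        (∀ (ℓ : ℕ) (hℓ : ℓ.Prime) (hℓN : ¬ ℓ ∣ N) (hℓS : ℓ ∉ (↑S : Set ℕ)),
          ∀ A : ValuationSubring (AlgebraicClosure ℚ), A.LiesOverPrime ℓ →
            ∀ σ : AlgebraicClosure ℚ ≃ₐ[ℚ] AlgebraicClosure ℚ, A.IsFrobeniusAt σ ℓ →
              LinearMap.charpoly (ρ.ρ σ) =
                X ^ 2 - C (algebraMap 𝒪' 𝒪'' (χ (CuspForm.heckeAlgebra.T hℓ hℓN hℓS))) * X
                  + C ((ℓ : 𝒪''))) ∧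
        (∀ q : ℕ, q.Prime → ¬ q ∣ N → q ≠ p → ρ.IsUnramifiedAt q) := by
  intro p hpF N _ S hpS hNS 𝒪' _ _ _ _ _ _ hp𝒪' χ
  have hp : p.Prime := hpF.out
  have hES : ESLattice p N S 𝒪' χ :=
    hPack N p hp (h.1 N) (h.2.1 N p hp) (fun k => h.2.2.1 N (p ^ k) (pow_pos hp.pos k))
      (fun k => heckeKeyInt_of_lattice N (h.2.2.2 N) (p ^ k)) S hpS hNS 𝒪' hp𝒪' χ
  obtain ⟨ρ, hfrob, hunr⟩ :=
    coreAdic hQ Fermat.Agent.Cheb.weakChebotarev p hp N S hpS hNS 𝒪' hp𝒪' χ hES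
  refine ⟨𝒪', inferInstance, inferInstance, inferInstance, inferInstance, inferInstance,
    inferInstance, Algebra.id 𝒪', ?_, ?_, ?_, ρ, ?_, hunr⟩
  · exact Module.Finite.self 𝒪'
  · exact ⟨fun a ha => ha⟩
  · exact Function.injective_id
  · intro ℓ hℓ hℓN hℓS A hA σ hσ
    exact hfrob ℓ hℓ hℓN hℓS A hA σ hσ

end Fermat.Agent.S30
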