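import Fermat.Agent.S30.Skeleton

/-!
# P-GALREP, p-adic part (S30), module A6 (CoreAdic)

`coreAdic_of` : the core statement of S30 (from an `ESLattice` and weak Chebotarev to the
`p`-adic Galois representation) relative to the three pure-algebra modules A1 (QuadRepOdd),
A2 (CycCharAdic), A5 (AdicClosure), taken as explicit hypotheses.
-/

set_option autoImplicit false

open Polynomial

namespace Fermat.Agent.S30

open Fermat.Agent.S29 (GQ WeakChebotarev)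

/-- **A6 (CoreAdic)**, relative to the pure algebra modules A1, A2, A5. -/
theorem coreAdic_of (hQ : QuadRepOddStatement) (hC : CycCharAdicStatement)
    (hA : AdicClosureStatement) : CoreAdicStatement := by
  intro hCheb p hp N _ S hpS hNS 𝒪 _ _ _ _ _ hp𝒪 χ hES
  obtain ⟨Λ, _, _, _, _, _, ρ, hcont, hunr, hfrob⟩ := hES
  obtain ⟨d, hdcont, hdunr, hdfrob, c, hcc, hdc⟩ := hC p hp 𝒪 hp𝒪
  -- the primes outside `S` do not divide `N` and are different from `p`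
  have hnotN : ∀ ℓ : ℕ, ℓ.Prime → ℓ ∉ S → ¬ ℓ ∣ N := fun ℓ hℓ hℓS h => hℓS (hNS ℓ hℓ h)
  have hnep : ∀ ℓ : ℕ, ℓ ∉ S → ℓ ≠ p := fun ℓ hℓS h => hℓS (h ▸ hpS)
  have hmem : ∀ ℓ : ℕ, ℓ ∉ S → ℓ ∉ (↑S : Set ℕ) := fun ℓ hℓS h => hℓS (Finset.mem_coe.mp h)
  -- the quadratic relation at the Frobenius elements outside `S`
  have hquadFrob : ∀ ℓ : ℕ, ℓ.Prime → ℓ ∉ S →
      ∀ A : ValuationSubring (AlgebraicClosure ℚ), A.LiesOverPrime ℓ →
        ∀ σ : GQ, A.IsFrobeniusAt σ ℓ →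
          ∃ b : 𝒪, ρ σ * ρ σ - b • ρ σ + ((d σ : 𝒪ˣ) : 𝒪) • (1 : Module.End 𝒪 Λ) = 0 := by
    intro ℓ hℓ hℓS A hA σ hσ
    refine ⟨χ (CuspForm.heckeAlgebra.T hℓ (hnotN ℓ hℓ hℓS) (hmem ℓ hℓS)), ?_⟩
    rw [hdfrob ℓ hℓ (hnep ℓ hℓS) A hA σ hσ]
    exact hfrob ℓ hℓ (hnotN ℓ hℓ hℓS) (hmem ℓ hℓS) A hA σ hσ
  -- ... at every element of `G_ℚ`
  have hquad := hA hCheb 𝒪 Λ ρ d S hcont hdcont hquadFrob
  -- the rank two representation
  obtain ⟨ρ', hchar, hcont', hone⟩ := hQ 𝒪 GQ Λ ρ d c hcc hdc hquad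
  refine ⟨{ V := Fin 2 → 𝒪
            finrank_eq := by simp
            ρ := ρ'
            isAdicContinuous := ?_ }, ?_, ?_⟩
  · -- continuity at the compositum of the two levels
    intro n
    obtain ⟨L₁, hL₁, h₁⟩ := hcont n
    obtain ⟨L₂, hL₂, h₂⟩ := hdcont n
    have := hL₁
    have := hL₂
    refine ⟨L₁ ⊔ L₂, IntermediateField.finiteDimensional_sup L₁ L₂, fun σ hσ w => ?_⟩
    exact hcont' σ n
      (h₁ σ fun x hx => hσ x ((le_sup_left : L₁ ≤ L₁ ⊔ L₂) hx))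
      (h₂ σ fun x hx => hσ x ((le_sup_right : L₂ ≤ L₁ ⊔ L₂) hx)) w
  · -- the characteristic polynomials at the Frobenius elements
    intro ℓ hℓ hℓN hℓS A hA σ hσ
    have hℓS' : ℓ ∉ S := fun h => hℓS (Finset.mem_coe.mpr h)
    have hd := hdfrob ℓ hℓ (hnep ℓ hℓS') A hA σ hσ
    have := hchar σ (χ (CuspForm.heckeAlgebra.T hℓ hℓN hℓS))
      (by rw [hd]; exact hfrob ℓ hℓ hℓN hℓS A hA σ hσ)
    rw [hd] at this
    exact this
  · -- unramified outside `N p`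
    intro q hq hqN hqp A hA σ hσ
    exact hone σ (hunr q hq hqN hqp A hA σ hσ) (hdunr q hq hqp A hA σ hσ)

end Fermat.Agent.S30
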