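import Mathlib

/-!
# P-GALREP, module A4 (PackageAdic): the pure algebra of the eigenlattice

Let `M` be a finite free `ℤ_[p]`-module with commuting actions of a group `G` and of a
polynomial ring `ℤ[X_i]` (`Θ`), let `𝒪` be a discrete valuation ring which is a
`ℤ_[p]`-algebra with `p` in its maximal ideal, and let `χ : ℤ[X_i] → 𝒪` be a character such
that `χ P ∈ p ^ k 𝒪` whenever `Θ P M ⊆ p ^ k M`.

* `exists_eigenfunctional`: a finitely generated module over a commutative ring has a nonzero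
  eigenfunctional for every character into a field killing its annihilator (the prime
  `ker χ` lies in the support, so the fibre at `ker χ` is a nonzero vector space).
* `exists_eigen_linear`: a nonzero `ℤ_[p]`-linear `χ`-eigenfunctional `M → 𝒪`.
* `exists_eigenlattice`: the dual `Λ` of the module of `χ`-eigenfunctionals is a nonzero finite
  free `𝒪`-module with an action of `G`; triviality (also modulo `p ^ n`) and quadratic
  relations transfer from `M` to `Λ`, with `Θ P` replaced by `χ P`.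

No tensor product of `M` with `𝒪` and no flatness argument is needed.
All declarations live in the namespace `Fermat.Agent.S30.EigenLattice`.
-/

set_option autoImplicit false

namespace Fermat.Agent.S30.EigenLattice

open scoped TensorProduct

section LemmaE

/-- **Lemma E.** A finitely generated module `M` over a commutative ring `A` has a nonzero
`χ`-eigenfunctional for every character `χ : A → K` into a field which kills the annihilator
of `M`. -/
theorem exists_eigenfunctional {A : Type*} [CommRing A] {M : Type*} [AddCommGroup M]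
    [Module A M] [Module.Finite A M] {K : Type*} [Field K] (χ : A →+* K)
    (key : ∀ a : A, (∀ m : M, a • m = 0) → χ a = 0) :
    ∃ f : M →+ K, f ≠ 0 ∧ ∀ (a : A) (m : M), f (a • m) = χ a * f m := by
  classical
  obtain ⟨𝔭, h𝔭⟩ : ∃ 𝔭 : PrimeSpectrum A, 𝔭.asIdeal = RingHom.ker χ :=
    ⟨⟨RingHom.ker χ, RingHom.ker_isPrime χ⟩, rfl⟩
  have hsupp : 𝔭 ∈ Module.support A M := by
    rw [Module.mem_support_iff_of_finite, h𝔭]
    intro a ha
    rw [Module.mem_annihilator] at ha
    exact RingHom.mem_ker.mpr (key a ha)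
  rw [Module.mem_support_iff_nontrivial_residueField_tensorProduct] at hsupp
  obtain ⟨x, hx⟩ := exists_ne (0 : 𝔭.asIdeal.ResidueField ⊗[A] M)
  obtain ⟨φ, hφ⟩ := Module.Projective.exists_dual_ne_zero 𝔭.asIdeal.ResidueField hx
  let j : 𝔭.asIdeal.ResidueField →+* K :=
    Ideal.ResidueField.lift 𝔭.asIdeal χ h𝔭.le (by
      intro a ha
      have : χ a ≠ 0 := fun h => ha (by rw [h𝔭]; exact RingHom.mem_ker.mpr h)
      exact IsUnit.mk0 _ this)
  have hj : ∀ a : A, j (algebraMap A 𝔭.asIdeal.ResidueField a) = χ a := fun a =>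
    Ideal.ResidueField.lift_algebraMap _ _ _ _ a
  let f₀ : M →ₗ[A] 𝔭.asIdeal.ResidueField :=
    (φ.restrictScalars A).comp (TensorProduct.mk A 𝔭.asIdeal.ResidueField M 1)
  have hf₀ : f₀ ≠ 0 := by
    intro h0
    apply hφ
    have hall : ∀ y : 𝔭.asIdeal.ResidueField ⊗[A] M, φ y = 0 := by
      intro y
      induction y using TensorProduct.induction_on with
      | zero => exact map_zero φ
      | tmul c m =>
        have h1 : c ⊗ₜ[A] m = c • ((1 : 𝔭.asIdeal.ResidueField) ⊗ₜ[A] m) := by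
          rw [TensorProduct.smul_tmul', smul_eq_mul, mul_one]
        have h2 : φ ((1 : 𝔭.asIdeal.ResidueField) ⊗ₜ[A] m) = 0 := DFunLike.congr_fun h0 m
        rw [h1, map_smul, h2, smul_zero]
      | add y z hy hz => rw [map_add, hy, hz, add_zero]
    exact hall x
  refine ⟨j.toAddMonoidHom.comp f₀.toAddMonoidHom, ?_, ?_⟩
  · intro h
    apply hf₀
    ext m
    have := DFunLike.congr_fun h m
    exact j.injective (by rw [LinearMap.zero_apply, map_zero]; exact this)
  · intro a m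
    show j (f₀ (a • m)) = χ a * j (f₀ m)
    rw [map_smul, Algebra.smul_def, map_mul, hj]


/-- **Lemma E**, homomorphism form. -/
theorem exists_eigenfunctional_hom {R₀ : Type*} [CommRing R₀] {A : Type*} [CommRing A]
    [Algebra R₀ A] {M : Type*} [AddCommGroup M] [Module R₀ M] [Module.Finite R₀ M]
    (θ : A →ₐ[R₀] Module.End R₀ M) {K : Type*} [Field K] (χ : A →+* K)
    (key : ∀ a : A, θ a = 0 → χ a = 0) :
    ∃ f : M →+ K, f ≠ 0 ∧ ∀ (a : A) (m : M), f (θ a m) = χ a * f m := by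
  let _ : Module A M := Module.compHom M (θ : A →+* Module.End R₀ M)
  have : IsScalarTower R₀ A M := ⟨fun c a m => by
    show θ (c • a) m = c • θ a m
    rw [map_smul, LinearMap.smul_apply]⟩
  have : Module.Finite A M := Module.Finite.of_restrictScalars_finite R₀ A M
  obtain ⟨f, hf, hf'⟩ := exists_eigenfunctional (A := A) (M := M) χ
    (fun a ha => key a (LinearMap.ext ha))
  exact ⟨f, hf, hf'⟩

end LemmaE

section EvalComm

variable {R : Type*} [CommRing R] {M : Type*} [AddCommGroup M] [Module R M] {σ : Type*}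

open scoped IsMulCommutative in
/-- Evaluation of polynomials at a commuting family of endomorphisms. -/
noncomputable def evalComm (T : σ → Module.End R M) (hT : ∀ i j, T i * T j = T j * T i) :
    MvPolynomial σ R →ₐ[R] Module.End R M :=
  haveI : IsMulCommutative (Algebra.adjoin R (Set.range T)) :=
    Algebra.isMulCommutative_adjoin R (by
      rintro _ ⟨i, rfl⟩ _ ⟨j, rfl⟩
      exact hT i j)
  (Algebra.adjoin R (Set.range T)).val.comp
    (MvPolynomial.aeval fun i =>
      (⟨T i, Algebra.subset_adjoin (Set.mem_range_self i)⟩ : Algebra.adjoin R (Set.range T)))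

theorem evalComm_X (T : σ → Module.End R M) (hT : ∀ i j, T i * T j = T j * T i) (i : σ) :
    evalComm T hT (MvPolynomial.X i) = T i := by
  unfold evalComm
  simp

theorem evalComm_C (T : σ → Module.End R M) (hT : ∀ i j, T i * T j = T j * T i) (c : R) :
    evalComm T hT (MvPolynomial.C c) = algebraMap R (Module.End R M) c := by
  rw [← MvPolynomial.algebraMap_eq, AlgHom.commutes]

theorem evalComm_C_apply (T : σ → Module.End R M) (hT : ∀ i j, T i * T j = T j * T i) (c : R)
    (m : M) : evalComm T hT (MvPolynomial.C c) m = c • m := by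
  rw [evalComm_C]
  rfl

end EvalComm

section Padic

variable {p : ℕ} [Fact p.Prime] {M : Type*} [AddCommGroup M] [Module ℤ_[p] M] {σ : Type*}
  (Θ : MvPolynomial σ ℤ →+* Module.End ℤ_[p] M)
  {𝒪 : Type*} [CommRing 𝒪] [Algebra ℤ_[p] 𝒪] (χ : MvPolynomial σ ℤ →+* 𝒪)

theorem theta_X_comm (i j : σ) :
    Θ (MvPolynomial.X i) * Θ (MvPolynomial.X j) = Θ (MvPolynomial.X j) * Θ (MvPolynomial.X i) := by
  rw [← map_mul, ← map_mul, mul_comm]

/-- the extension of `Θ` to polynomials with `p`-adic coefficients -/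
noncomputable def thetaA : MvPolynomial σ ℤ_[p] →ₐ[ℤ_[p]] Module.End ℤ_[p] M :=
  evalComm (fun i => Θ (MvPolynomial.X i)) (theta_X_comm Θ)

/-- the extension of `χ` to polynomials with `p`-adic coefficients -/
noncomputable def chiA : MvPolynomial σ ℤ_[p] →ₐ[ℤ_[p]] 𝒪 :=
  MvPolynomial.aeval fun i => χ (MvPolynomial.X i)

theorem thetaA_map (P : MvPolynomial σ ℤ) :
    thetaA Θ (MvPolynomial.map (Int.castRingHom ℤ_[p]) P) = Θ P := by
  have h : ((thetaA Θ : MvPolynomial σ ℤ_[p] →+* Module.End ℤ_[p] M).comp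
      (MvPolynomial.map (Int.castRingHom ℤ_[p]))) = Θ := by
    apply MvPolynomial.ringHom_ext
    · intro n
      rw [RingHom.comp_apply, MvPolynomial.map_C, RingHom.coe_coe]
      unfold thetaA
      rw [evalComm_C, eq_intCast, map_intCast]
      have h0 : (MvPolynomial.C n : MvPolynomial σ ℤ) = (n : MvPolynomial σ ℤ) :=
        eq_intCast (MvPolynomial.C (σ := σ) (R := ℤ)) n
      rw [h0, map_intCast]
    · intro i
      rw [RingHom.comp_apply, MvPolynomial.map_X, RingHom.coe_coe]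
      unfold thetaA
      rw [evalComm_X]
  exact DFunLike.congr_fun h P

theorem chiA_map (P : MvPolynomial σ ℤ) :
    chiA (p := p) χ (MvPolynomial.map (Int.castRingHom ℤ_[p]) P) = χ P := by
  have h : ((chiA (p := p) χ : MvPolynomial σ ℤ_[p] →+* 𝒪).comp
      (MvPolynomial.map (Int.castRingHom ℤ_[p]))) = χ := by
    apply MvPolynomial.ringHom_ext
    · intro n
      rw [RingHom.comp_apply, MvPolynomial.map_C, RingHom.coe_coe]
      unfold chiA
      rw [MvPolynomial.aeval_C, eq_intCast, map_intCast]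
      have h0 : (MvPolynomial.C n : MvPolynomial σ ℤ) = (n : MvPolynomial σ ℤ) :=
        eq_intCast (MvPolynomial.C (σ := σ) (R := ℤ)) n
      rw [h0, map_intCast]
    · intro i
      rw [RingHom.comp_apply, MvPolynomial.map_X, RingHom.coe_coe]
      unfold chiA
      rw [MvPolynomial.aeval_X]
  exact DFunLike.congr_fun h P

/-- every polynomial with `p`-adic coefficients is congruent to an integer polynomial modulo
`p ^ k` -/
theorem exists_approx (k : ℕ) (a : MvPolynomial σ ℤ_[p]) :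
    ∃ (P : MvPolynomial σ ℤ) (a' : MvPolynomial σ ℤ_[p]),
      a = MvPolynomial.map (Int.castRingHom ℤ_[p]) P + MvPolynomial.C ((p : ℤ_[p]) ^ k) * a' := by
  induction a using MvPolynomial.induction_on with
  | C c =>
    obtain ⟨c', hc'⟩ := Ideal.mem_span_singleton'.mp (PadicInt.appr_spec k c)
    refine ⟨MvPolynomial.C ((c.appr k : ℕ) : ℤ), MvPolynomial.C c', ?_⟩
    rw [MvPolynomial.map_C, ← map_mul, ← map_add]
    congr 1
    rw [eq_intCast, Int.cast_natCast, mul_comm, hc']
    ring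
  | add a b ha hb =>
    obtain ⟨P, a', hP⟩ := ha
    obtain ⟨Q, b', hQ⟩ := hb
    refine ⟨P + Q, a' + b', ?_⟩
    rw [map_add, mul_add]
    nth_rewrite 1 [hP]
    nth_rewrite 1 [hQ]
    ring
  | mul_X a i ha =>
    obtain ⟨P, a', hP⟩ := ha
    refine ⟨P * MvPolynomial.X i, a' * MvPolynomial.X i, ?_⟩
    rw [map_mul, MvPolynomial.map_X]
    nth_rewrite 1 [hP]
    ring

/-- **(IV)** the extended character kills the kernel of the extended action -/
theorem chiA_eq_zero_of_thetaA_eq_zero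
    (key : ∀ (P : MvPolynomial σ ℤ) (k : ℕ),
      (∀ v : M, ∃ w : M, Θ P v = ((p : ℤ_[p]) ^ k) • w) → ∃ y : 𝒪, χ P = (p : 𝒪) ^ k * y)
    (hsep : ∀ y : 𝒪, (∀ k : ℕ, ∃ z : 𝒪, y = (p : 𝒪) ^ k * z) → y = 0)
    (a : MvPolynomial σ ℤ_[p]) (ha : thetaA Θ a = 0) : chiA (p := p) χ a = 0 := by
  apply hsep
  intro k
  obtain ⟨P, a', hP⟩ := exists_approx k a
  have h1 : Θ P = - (((p : ℤ_[p]) ^ k) • thetaA Θ a') := by
    have h2 := congrArg (thetaA Θ) hP
    rw [ha, map_add, thetaA_map, map_mul] at h2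
    unfold thetaA at h2
    rw [evalComm_C] at h2
    rw [Algebra.smul_def]
    exact eq_neg_of_add_eq_zero_left h2.symm
  obtain ⟨y, hy⟩ := key P k (fun v => ⟨- (thetaA Θ a' v), by
    rw [h1, LinearMap.neg_apply, LinearMap.smul_apply, smul_neg]⟩)
  refine ⟨y + chiA (p := p) χ a', ?_⟩
  have h3 := congrArg (chiA (p := p) χ) hP
  rw [map_add, chiA_map, map_mul] at h3
  rw [h3, hy]
  unfold chiA
  rw [MvPolynomial.aeval_C, map_pow, map_natCast]
  ring

/-- **Existence of an eigenfunctional with values in `𝒪`.** -/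
theorem exists_eigen_linear [Module.Free ℤ_[p] M] [Module.Finite ℤ_[p] M] [IsDomain 𝒪]
    (key : ∀ (P : MvPolynomial σ ℤ) (k : ℕ),
      (∀ v : M, ∃ w : M, Θ P v = ((p : ℤ_[p]) ^ k) • w) → ∃ y : 𝒪, χ P = (p : 𝒪) ^ k * y)
    (hsep : ∀ y : 𝒪, (∀ k : ℕ, ∃ z : 𝒪, y = (p : 𝒪) ^ k * z) → y = 0) :
    ∃ g : M →ₗ[ℤ_[p]] 𝒪, g ≠ 0 ∧
      ∀ (P : MvPolynomial σ ℤ) (m : M), g (Θ P m) = χ P * g m := by
  classical
  let K := FractionRing 𝒪
  let χK : MvPolynomial σ ℤ_[p] →+* K :=
    (algebraMap 𝒪 K).comp (chiA (p := p) χ : MvPolynomial σ ℤ_[p] →+* 𝒪)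
  obtain ⟨f, hf, hf'⟩ := exists_eigenfunctional_hom (thetaA Θ) χK (fun a ha => by
    show algebraMap 𝒪 K (chiA (p := p) χ a) = 0
    rw [chiA_eq_zero_of_thetaA_eq_zero Θ χ key hsep a ha, map_zero])
  have hinj : Function.Injective (algebraMap 𝒪 K) := IsFractionRing.injective 𝒪 K
  have hsemi : ∀ (c : ℤ_[p]) (m : M),
      f (c • m) = algebraMap 𝒪 K (algebraMap ℤ_[p] 𝒪 c) * f m := by
    intro c m
    have h := hf' (MvPolynomial.C c) m
    have h1 : thetaA Θ (MvPolynomial.C c) m = c • m := evalComm_C_apply _ _ c m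
    have h2 : χK (MvPolynomial.C c) = algebraMap 𝒪 K (algebraMap ℤ_[p] 𝒪 c) := by
      show algebraMap 𝒪 K (chiA (p := p) χ (MvPolynomial.C c)) = _
      unfold chiA
      rw [MvPolynomial.aeval_C]
    rw [h1, h2] at h
    exact h
  have hP : ∀ (P : MvPolynomial σ ℤ) (m : M), f (Θ P m) = algebraMap 𝒪 K (χ P) * f m := by
    intro P m
    have h := hf' (MvPolynomial.map (Int.castRingHom ℤ_[p]) P) m
    rw [thetaA_map] at h
    have h2 : χK (MvPolynomial.map (Int.castRingHom ℤ_[p]) P) = algebraMap 𝒪 K (χ P) := by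
      show algebraMap 𝒪 K (chiA (p := p) χ _) = _
      rw [chiA_map]
    rw [h2] at h
    exact h
  let b := Module.Free.chooseBasis ℤ_[p] M
  obtain ⟨d, hd⟩ := IsLocalization.exist_integer_multiples (nonZeroDivisors 𝒪)
    (Finset.univ : Finset (Module.Free.ChooseBasisIndex ℤ_[p] M)) (fun i => f (b i))
  have hd0 : algebraMap 𝒪 K (d : 𝒪) ≠ 0 := by
    intro h
    exact nonZeroDivisors.coe_ne_zero d (hinj (by rw [h, map_zero]))
  -- all values of `d * f` are integral
  let S : Submodule ℤ_[p] M :=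
    { carrier := {m | ∃ y : 𝒪, algebraMap 𝒪 K y = algebraMap 𝒪 K (d : 𝒪) * f m}
      zero_mem' := ⟨0, by rw [map_zero, map_zero, mul_zero]⟩
      add_mem' := by
        rintro m n ⟨y, hy⟩ ⟨z, hz⟩
        exact ⟨y + z, by rw [map_add, map_add, hy, hz, mul_add]⟩
      smul_mem' := by
        rintro c m ⟨y, hy⟩
        refine ⟨algebraMap ℤ_[p] 𝒪 c * y, ?_⟩
        rw [map_mul, hy, hsemi]
        ring }
  have hS : S = ⊤ := by
    rw [eq_top_iff, ← b.span_eq, Submodule.span_le]
    rintro _ ⟨i, rfl⟩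
    obtain ⟨y, hy⟩ := hd i (Finset.mem_univ i)
    refine ⟨y, ?_⟩
    rw [hy, Algebra.smul_def]
  have hall : ∀ m : M, ∃ y : 𝒪, algebraMap 𝒪 K y = algebraMap 𝒪 K (d : 𝒪) * f m := by
    intro m
    have : m ∈ S := by rw [hS]; exact Submodule.mem_top
    exact this
  choose g hg using hall
  refine ⟨{ toFun := g
            map_add' := fun m n => hinj (by rw [map_add, hg, hg, hg, map_add, mul_add])
            map_smul' := fun c m => hinj (by
              rw [RingHom.id_apply, Algebra.smul_def, map_mul, hg, hg, hsemi]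
              ring) }, ?_, ?_⟩
  · intro h0
    apply hf
    ext m
    have h1 : g m = 0 := DFunLike.congr_fun h0 m
    have h2 := hg m
    rw [h1, map_zero] at h2
    rcases mul_eq_zero.mp h2.symm with h3 | h3
    · exact absurd h3 hd0
    · exact h3
  · intro P m
    show g (Θ P m) = χ P * g m
    apply hinj
    rw [map_mul, hg, hg, hP]
    ring

end Padic


section Lattice

variable {p : ℕ} [Fact p.Prime] {M : Type} [AddCommGroup M] [Module ℤ_[p] M] {σ : Type*}
  (Θ : MvPolynomial σ ℤ →+* Module.End ℤ_[p] M)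
  {𝒪 : Type} [CommRing 𝒪] [Algebra ℤ_[p] 𝒪] (χ : MvPolynomial σ ℤ →+* 𝒪)
  {G : Type*} [Group G] (ρ : G →* Module.End ℤ_[p] M)

/-- the module of `χ`-eigenfunctionals on `M` -/
def eigenFun : Submodule 𝒪 (M →ₗ[ℤ_[p]] 𝒪) where
  carrier := {f | ∀ (P : MvPolynomial σ ℤ) (m : M), f (Θ P m) = χ P * f m}
  zero_mem' := fun P m => by
    rw [LinearMap.zero_apply, LinearMap.zero_apply, mul_zero]
  add_mem' := by
    intro f g hf hg P m
    rw [LinearMap.add_apply, LinearMap.add_apply, hf P m, hg P m, mul_add]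
  smul_mem' := by
    intro c f hf P m
    rw [LinearMap.smul_apply, LinearMap.smul_apply, hf P m, smul_eq_mul, smul_eq_mul]
    ring

theorem mem_eigenFun {f : M →ₗ[ℤ_[p]] 𝒪} :
    f ∈ eigenFun Θ χ ↔ ∀ (P : MvPolynomial σ ℤ) (m : M), f (Θ P m) = χ P * f m := Iff.rfl

variable {Θ} {ρ}

/-- right translation by `g` on the eigenfunctionals -/
noncomputable def eigenTrans (hcomm : ∀ (P : MvPolynomial σ ℤ) (g : G), Commute (Θ P) (ρ g)) (g : G) :
    eigenFun Θ χ →ₗ[𝒪] eigenFun Θ χ where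
  toFun f := ⟨f.1.comp (ρ g), fun P m => by
    show f.1 (ρ g (Θ P m)) = χ P * f.1 (ρ g m)
    have h : ρ g (Θ P m) = Θ P (ρ g m) := (LinearMap.congr_fun (hcomm P g).eq m).symm
    rw [h]
    exact f.2 P (ρ g m)⟩
  map_add' f g := rfl
  map_smul' c f := rfl

@[simp] theorem eigenTrans_apply (hcomm : ∀ (P : MvPolynomial σ ℤ) (g : G), Commute (Θ P) (ρ g))
    (g : G) (f : eigenFun Θ χ) (m : M) :
    (eigenTrans χ hcomm g f : M →ₗ[ℤ_[p]] 𝒪) m = (f : M →ₗ[ℤ_[p]] 𝒪) (ρ g m) := rfl

/-- the representation on the dual of the module of eigenfunctionals -/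
noncomputable def eigenRho (hcomm : ∀ (P : MvPolynomial σ ℤ) (g : G), Commute (Θ P) (ρ g)) :
    G →* Module.End 𝒪 (Module.Dual 𝒪 (eigenFun Θ χ)) where
  toFun g := (eigenTrans χ hcomm g).dualMap
  map_one' := by
    have : eigenTrans χ hcomm (1 : G) = LinearMap.id := by
      refine LinearMap.ext fun f => Subtype.ext (LinearMap.ext fun m => ?_)
      show f.1 (ρ 1 m) = f.1 m
      rw [map_one, Module.End.one_apply]
    rw [this, LinearMap.dualMap_id]
    rfl
  map_mul' a b := by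
    have : eigenTrans χ hcomm (a * b)
        = (eigenTrans χ hcomm b).comp (eigenTrans χ hcomm a) := by
      refine LinearMap.ext fun f => Subtype.ext (LinearMap.ext fun m => ?_)
      show f.1 (ρ (a * b) m) = f.1 (ρ a (ρ b m))
      rw [map_mul, Module.End.mul_apply]
    rw [this, ← LinearMap.dualMap_comp_dualMap]
    rfl

theorem eigenRho_apply (hcomm : ∀ (P : MvPolynomial σ ℤ) (g : G), Commute (Θ P) (ρ g))
    (g : G) (w : Module.Dual 𝒪 (eigenFun Θ χ)) (f : eigenFun Θ χ) :
    eigenRho χ hcomm g w f = w (eigenTrans χ hcomm g f) := rfl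

/-- elements acting trivially on `M` act trivially on the eigenlattice -/
theorem eigenRho_eq_one (hcomm : ∀ (P : MvPolynomial σ ℤ) (g : G), Commute (Θ P) (ρ g))
    (g : G) (hg : ρ g = 1) : eigenRho χ hcomm g = 1 := by
  refine LinearMap.ext fun w => LinearMap.ext fun f => ?_
  rw [eigenRho_apply]
  show w (eigenTrans χ hcomm g f) = w f
  congr 1
  refine Subtype.ext (LinearMap.ext fun m => ?_)
  show f.1 (ρ g m) = f.1 m
  rw [hg, Module.End.one_apply]

/-- quadratic relations on `M` transfer to the eigenlattice -/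
theorem eigenRho_quadratic (hcomm : ∀ (P : MvPolynomial σ ℤ) (g : G), Commute (Θ P) (ρ g))
    (g : G) (P : MvPolynomial σ ℤ) (c : ℤ_[p])
    (h : ρ g * ρ g - Θ P * ρ g + c • (1 : Module.End ℤ_[p] M) = 0) :
    eigenRho χ hcomm g * eigenRho χ hcomm g - χ P • eigenRho χ hcomm g
      + (algebraMap ℤ_[p] 𝒪 c) • (1 : Module.End 𝒪 (Module.Dual 𝒪 (eigenFun Θ χ))) = 0 := by
  refine LinearMap.ext fun w => LinearMap.ext fun f => ?_
  show w (eigenTrans χ hcomm g (eigenTrans χ hcomm g f))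
      - χ P * w (eigenTrans χ hcomm g f) + (algebraMap ℤ_[p] 𝒪 c) * w f = 0
  have key2 : eigenTrans χ hcomm g (eigenTrans χ hcomm g f)
      - χ P • eigenTrans χ hcomm g f + (algebraMap ℤ_[p] 𝒪 c) • f = 0 := by
    refine Subtype.ext (LinearMap.ext fun m => ?_)
    show f.1 (ρ g (ρ g m)) - χ P * f.1 (ρ g m) + (algebraMap ℤ_[p] 𝒪 c) * f.1 m = 0
    have h1 := f.2 P (ρ g m)
    have h2 : (algebraMap ℤ_[p] 𝒪 c) * f.1 m = f.1 (c • m) := by
      rw [map_smul, Algebra.smul_def]
    rw [← h1, h2, ← map_sub, ← map_add]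
    have h3 := LinearMap.congr_fun h m
    simp only [LinearMap.add_apply, LinearMap.sub_apply, Module.End.mul_apply,
      LinearMap.smul_apply, Module.End.one_apply, LinearMap.zero_apply] at h3
    rw [h3, map_zero]
  have key3 := congrArg w key2
  rw [map_add, map_sub w, map_smul, map_smul, map_zero, smul_eq_mul, smul_eq_mul] at key3
  exact key3

/-- elements acting trivially on `M` modulo `p ^ n` act trivially on the eigenlattice modulo
`p ^ n` -/
theorem eigenRho_congr [IsDomain 𝒪] (hp0 : (p : 𝒪) ≠ 0)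
    (hcomm : ∀ (P : MvPolynomial σ ℤ) (g : G), Commute (Θ P) (ρ g))
    (g : G) (n : ℕ) (hg : ∀ v : M, ∃ v' : M, ρ g v - v = ((p : ℤ_[p]) ^ n) • v') :
    ∃ D : Module.End 𝒪 (Module.Dual 𝒪 (eigenFun Θ χ)),
      eigenRho χ hcomm g - 1 = ((p : 𝒪) ^ n) • D := by
  choose u hu using hg
  have hpn : ((p : 𝒪) ^ n) ≠ 0 := pow_ne_zero n hp0
  have hval : ∀ (f : eigenFun Θ χ) (v : M), f.1 (ρ g v) - f.1 v = (p : 𝒪) ^ n * f.1 (u v) := by
    intro f v
    rw [← map_sub, hu v, map_smul, Algebra.smul_def, map_pow, map_natCast]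
  -- the divided difference as a linear map
  let E : eigenFun Θ χ →ₗ[𝒪] eigenFun Θ χ :=
    { toFun := fun f => ⟨
        { toFun := fun v => f.1 (u v)
          map_add' := fun v v' => mul_left_cancel₀ hpn (by
            rw [← hval, mul_add, ← hval, ← hval, map_add, map_add, map_add]
            ring)
          map_smul' := fun c v => mul_left_cancel₀ hpn (by
            rw [← hval, RingHom.id_apply, Algebra.smul_def, mul_left_comm, ← hval, map_smul,
              map_smul, map_smul, Algebra.smul_def, Algebra.smul_def]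
            ring) }, fun P m => mul_left_cancel₀ hpn (by
          show (p : 𝒪) ^ n * f.1 (u (Θ P m)) = (p : 𝒪) ^ n * (χ P * f.1 (u m))
          rw [← hval, mul_left_comm, ← hval]
          have h : ρ g (Θ P m) = Θ P (ρ g m) := (LinearMap.congr_fun (hcomm P g).eq m).symm
          rw [h, f.2 P, f.2 P]
          ring)⟩
      map_add' := fun f f' => rfl
      map_smul' := fun c f => rfl }
  refine ⟨E.dualMap, ?_⟩
  refine LinearMap.ext fun w => LinearMap.ext fun f => ?_
  show w (eigenTrans χ hcomm g f) - w f = (p : 𝒪) ^ n * w (E f)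
  rw [← map_sub w, ← smul_eq_mul, ← map_smul]
  congr 1
  refine Subtype.ext (LinearMap.ext fun v => ?_)
  show f.1 (ρ g v) - f.1 v = (p : 𝒪) ^ n * f.1 (u v)
  exact hval f v

end Lattice


section Main

/-- In a discrete valuation ring in which `p` is not a unit, an element divisible by all
powers of `p` is zero. -/
theorem eq_zero_of_forall_pow_dvd {𝒪 : Type*} [CommRing 𝒪] [IsDomain 𝒪]
    [IsDiscreteValuationRing 𝒪] {p : ℕ} (hp : (p : 𝒪) ∈ IsLocalRing.maximalIdeal 𝒪) (y : 𝒪)
    (h : ∀ k : ℕ, ∃ z : 𝒪, y = (p : 𝒪) ^ k * z) : y = 0 := by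
  have h1 : y ∈ ⨅ i : ℕ, (IsLocalRing.maximalIdeal 𝒪) ^ i := by
    rw [Ideal.mem_iInf]
    intro k
    obtain ⟨z, rfl⟩ := h k
    exact Ideal.mul_mem_right _ _ (Ideal.pow_mem_pow hp k)
  rw [Ideal.iInf_pow_eq_bot_of_isLocalRing (IsLocalRing.maximalIdeal 𝒪) Ideal.IsPrime.ne_top']
    at h1
  exact h1

/-- **The eigenlattice theorem.**  Let `M` be a finite free `ℤ_[p]`-module with commuting
actions of a group `G` and of a polynomial ring `ℤ[X_i]`, let `𝒪` be a discrete valuation ring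
which is a `ℤ_[p]`-algebra with `p` in its maximal ideal, and let `χ : ℤ[X_i] → 𝒪` be a
character such that `χ P ∈ p ^ k 𝒪` whenever `P M ⊆ p ^ k M`.  Then there is a nonzero finite
free `𝒪`-module `Λ` with an action of `G` such that triviality (also modulo `p ^ n`) and
quadratic relations transfer from `M` to `Λ`, with `Θ P` replaced by `χ P`. -/
theorem exists_eigenlattice {p : ℕ} [Fact p.Prime]
    {M : Type} [AddCommGroup M] [Module ℤ_[p] M] [Module.Free ℤ_[p] M] [Module.Finite ℤ_[p] M]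
    {σ : Type*} (Θ : MvPolynomial σ ℤ →+* Module.End ℤ_[p] M)
    {G : Type*} [Group G] (ρ : G →* Module.End ℤ_[p] M)
    (hcomm : ∀ (P : MvPolynomial σ ℤ) (g : G), Commute (Θ P) (ρ g))
    {𝒪 : Type} [CommRing 𝒪] [IsDomain 𝒪] [IsDiscreteValuationRing 𝒪] [Algebra ℤ_[p] 𝒪]
    (hp : (p : 𝒪) ∈ IsLocalRing.maximalIdeal 𝒪) (hp0 : (p : 𝒪) ≠ 0)
    (χ : MvPolynomial σ ℤ →+* 𝒪)
    (key : ∀ (P : MvPolynomial σ ℤ) (k : ℕ),
      (∀ v : M, ∃ w : M, Θ P v = ((p : ℤ_[p]) ^ k) • w) → ∃ y : 𝒪, χ P = (p : 𝒪) ^ k * y) :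
    ∃ (Λ : Type) (_ : AddCommGroup Λ) (_ : Module 𝒪 Λ) (_ : Module.Free 𝒪 Λ)
      (_ : Module.Finite 𝒪 Λ) (_ : Nontrivial Λ) (ρΛ : G →* Module.End 𝒪 Λ),
      (∀ g : G, ρ g = 1 → ρΛ g = 1) ∧
      (∀ (g : G) (n : ℕ), (∀ v : M, ∃ v' : M, ρ g v - v = ((p : ℤ_[p]) ^ n) • v') →
        ∀ w : Λ, ρΛ g w - w ∈ (IsLocalRing.maximalIdeal 𝒪 ^ n) • (⊤ : Submodule 𝒪 Λ)) ∧
      (∀ (g : G) (P : MvPolynomial σ ℤ) (c : ℤ_[p]),
        ρ g * ρ g - Θ P * ρ g + c • (1 : Module.End ℤ_[p] M) = 0 →
        ρΛ g * ρΛ g - χ P • ρΛ g + (algebraMap ℤ_[p] 𝒪 c) • (1 : Module.End 𝒪 Λ) = 0) := by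
  classical
  obtain ⟨f₀, hf₀, hf₀'⟩ := exists_eigen_linear Θ χ key (eq_zero_of_forall_pow_dvd hp)
  have hNT : Nontrivial (eigenFun Θ χ) :=
    ⟨⟨⟨f₀, hf₀'⟩, 0, fun h => hf₀ (congrArg Subtype.val h)⟩⟩
  have hfin : Module.Finite 𝒪 (eigenFun Θ χ) := inferInstance
  have htf0 : Module.IsTorsionFree 𝒪 (M →ₗ[ℤ_[p]] 𝒪) := inferInstance
  have htf : Module.IsTorsionFree 𝒪 (eigenFun Θ χ) := inferInstance
  have hfree : Module.Free 𝒪 (eigenFun Θ χ) :=
    Module.free_of_finite_type_torsion_free' (R := 𝒪) (M := eigenFun Θ χ)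
  have hNT' : Nontrivial (Module.Dual 𝒪 (eigenFun Θ χ)) := inferInstance
  refine ⟨Module.Dual 𝒪 (eigenFun Θ χ), inferInstance, inferInstance, inferInstance,
    inferInstance, hNT', eigenRho χ hcomm, ?_, ?_, ?_⟩
  · exact fun g hg => eigenRho_eq_one χ hcomm g hg
  · intro g n hg w
    obtain ⟨D, hD⟩ := eigenRho_congr χ hp0 hcomm g n hg
    have h1 : eigenRho χ hcomm g w - w = ((p : 𝒪) ^ n) • D w := by
      have := LinearMap.congr_fun hD w
      simpa using this
    rw [h1]
    exact Submodule.smul_mem_smul (Ideal.pow_mem_pow hp n) Submodule.mem_top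
  · exact fun g P c h => eigenRho_quadratic χ hcomm g P c h

end Main

end Fermat.Agent.S30.EigenLattice
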