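import Fermat.Agent.S30.Skeleton2

/-!
# P-GALREP, S30, module A4a: eigenvector for a character of a commutative algebra of operators

`B := R ⧸ ker θ` is a finite-dimensional commutative `K`-algebra acting faithfully on `V`;
the maximal ideal `ker lam` of `B` is a minimal prime over the annihilator `⊥` of `V`, hence an
associated prime of `V`: there is `v ≠ 0` whose annihilator is `ker lam`.
-/

set_option autoImplicit false

namespace Fermat.Agent.S30

/-- **A4a (EigenVector).** -/
theorem eigenVector : EigenVectorStatement := by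
  intro K _ V _ _ _ _ R _ _ θ lam h
  classical
  -- the faithful quotient
  let φ : (R ⧸ RingHom.ker θ) →ₐ[K] Module.End K V := Ideal.kerLiftAlg θ
  have hφinj : Function.Injective φ := Ideal.kerLiftAlg_injective θ
  have hφmk : ∀ r : R, φ (Ideal.Quotient.mk _ r) = θ r := fun r => Ideal.kerLiftAlg_mk θ r
  -- the character on the quotient
  let lamB : (R ⧸ RingHom.ker θ) →ₐ[K] K :=
    Ideal.Quotient.liftₐ (RingHom.ker θ) lam (fun r hr => h r hr)
  have hlamB : ∀ r : R, lamB (Ideal.Quotient.mk _ r) = lam r := fun r => by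
    simp [lamB]
  -- module structure of `V` over the quotient
  let instMod : Module (R ⧸ RingHom.ker θ) V := Module.compHom V φ.toRingHom
  have hsmul : ∀ (b : R ⧸ RingHom.ker θ) (v : V), b • v = φ b v := fun b v => rfl
  have : IsScalarTower K (R ⧸ RingHom.ker θ) V := ⟨fun k b v => by
    rw [hsmul, hsmul, map_smul]; rfl⟩
  have : Module.Finite K (R ⧸ RingHom.ker θ) :=
    Module.Finite.of_injective φ.toLinearMap hφinj
  have : IsNoetherianRing (R ⧸ RingHom.ker θ) :=
    isNoetherian_of_tower K (isNoetherian_of_isNoetherianRing_of_finite K (R ⧸ RingHom.ker θ))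
  have : IsArtinianRing (R ⧸ RingHom.ker θ) := IsArtinianRing.of_finite K _
  have : Module.Finite (R ⧸ RingHom.ker θ) V := Module.Finite.of_restrictScalars_finite K _ V
  -- the annihilator is trivial
  have hann : Module.annihilator (R ⧸ RingHom.ker θ) V = ⊥ := by
    rw [eq_bot_iff]
    intro b hb
    rw [Module.mem_annihilator] at hb
    have : φ b = 0 := by
      ext v
      exact hb v
    exact hφinj (by rw [this, map_zero])
  -- the maximal ideal
  have hsurj : Function.Surjective lamB := fun k =>
    ⟨algebraMap K _ k, by simp⟩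
  have hmax : (RingHom.ker (lamB : (R ⧸ RingHom.ker θ) →+* K)).IsMaximal :=
    RingHom.ker_isMaximal_of_surjective _ hsurj
  have hmin : RingHom.ker (lamB : (R ⧸ RingHom.ker θ) →+* K) ∈
      (Module.annihilator (R ⧸ RingHom.ker θ) V).minimalPrimes := by
    rw [hann]
    refine ⟨⟨hmax.isPrime, bot_le⟩, ?_⟩
    rintro q ⟨hq, -⟩ hqm
    have := hq
    have hqmax : q.IsMaximal := IsArtinianRing.isMaximal_of_isPrime q
    exact (hqmax.eq_of_le hmax.ne_top hqm).ge
  have hass := Module.associatedPrimes.minimalPrimes_annihilator_subset_associatedPrimes (R ⧸ RingHom.ker θ) V hmin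
  obtain ⟨-, x, hx⟩ := (isAssociatedPrime_iff).mp hass
  have hmem : ∀ b : R ⧸ RingHom.ker θ, lamB b = 0 ↔ b • x = 0 := by
    intro b
    have : b ∈ RingHom.ker (lamB : (R ⧸ RingHom.ker θ) →+* K) ↔
        b ∈ Submodule.colon (⊥ : Submodule (R ⧸ RingHom.ker θ) V) {x} := by rw [← hx]
    rw [RingHom.mem_ker, Submodule.mem_colon_singleton, Submodule.mem_bot] at this
    exact this
  refine ⟨x, ?_, ?_⟩
  · rintro rfl
    have := (hmem 1).mpr (smul_zero _)
    rw [map_one] at this
    exact one_ne_zero this
  · intro r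
    have h1 : lamB (Ideal.Quotient.mk _ r - algebraMap K _ (lam r)) = 0 := by
      rw [map_sub, hlamB, AlgHom.commutes]
      simp
    have h2 := (hmem _).mp h1
    rw [sub_smul, hsmul, hsmul, hφmk, AlgHom.commutes, sub_eq_zero] at h2
    rw [h2]
    simp [Algebra.algebraMap_eq_smul_one]

end Fermat.Agent.S30
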