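import Fermat.Agent.S30.Skeleton2

set_option autoImplicit false
set_option linter.unusedSectionVars false
set_option linter.style.haveILetI false

namespace Fermat.Agent.S30

open PadicInt

section TateBasic

variable (p : ℕ) [hp : Fact p.Prime] (J : Type) [AddCommGroup J]

/-- The Tate module of `J` as an additive subgroup of the group of sequences. -/
def tateSub : AddSubgroup (ℕ → J) where
  carrier := {x | x 0 = 0 ∧ ∀ k, p • x (k + 1) = x k}
  zero_mem' := ⟨rfl, fun k => smul_zero _⟩
  add_mem' := fun {a b} ha hb =>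
    ⟨by simp [ha.1, hb.1], fun k => by simp [smul_add, ha.2 k, hb.2 k]⟩
  neg_mem' := fun {a} ha => ⟨by simp [ha.1], fun k => by simp [ha.2 k]⟩

variable {p J}

theorem tate_mem_iff {x : ℕ → J} :
    x ∈ tateSub p J ↔ x 0 = 0 ∧ ∀ k, p • x (k + 1) = x k := Iff.rfl

theorem tate_zero (x : tateSub p J) : (x : ℕ → J) 0 = 0 := x.2.1

theorem tate_succ (x : tateSub p J) (k : ℕ) : p • (x : ℕ → J) (k + 1) = (x : ℕ → J) k := x.2.2 k

theorem tate_pow_smul_shift (x : tateSub p J) (k j : ℕ) :
    p ^ k • (x : ℕ → J) (j + k) = (x : ℕ → J) j := by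
  induction k with
  | zero => simp
  | succ k ih =>
    rw [pow_succ, mul_smul, ← add_assoc, tate_succ, ih]

theorem tate_pow_smul_eq_zero (x : tateSub p J) (k : ℕ) : p ^ k • (x : ℕ → J) k = 0 := by
  have := tate_pow_smul_shift x k 0
  rw [zero_add] at this
  rw [this, tate_zero]

theorem tate_nsmul_congr {y : J} {k m n : ℕ} (hy : p ^ k • y = 0) (h : m ≡ n [MOD p ^ k]) :
    m • y = n • y := by
  have key : ∀ a : ℕ, a • y = (a % p ^ k) • y := by
    intro a
    conv_lhs => rw [← Nat.mod_add_div a (p ^ k)]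
    rw [add_smul, mul_smul, smul_comm, hy, smul_zero, add_zero]
  rw [key m, key n, h]

theorem tate_toZModPow_eq (a : ℤ_[p]) (k : ℕ) :
    toZModPow k a = ((a.appr k : ℕ) : ZMod (p ^ k)) := rfl

theorem tate_appr_add (a b : ℤ_[p]) (k : ℕ) :
    (a + b).appr k ≡ a.appr k + b.appr k [MOD p ^ k] := by
  rw [← ZMod.natCast_eq_natCast_iff, Nat.cast_add, ← tate_toZModPow_eq, ← tate_toZModPow_eq,
    ← tate_toZModPow_eq, map_add]

theorem tate_appr_mul (a b : ℤ_[p]) (k : ℕ) :
    (a * b).appr k ≡ a.appr k * b.appr k [MOD p ^ k] := by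
  rw [← ZMod.natCast_eq_natCast_iff, Nat.cast_mul, ← tate_toZModPow_eq, ← tate_toZModPow_eq,
    ← tate_toZModPow_eq, map_mul]

theorem tate_appr_natCast (n : ℕ) (k : ℕ) :
    ((n : ℤ_[p])).appr k ≡ n [MOD p ^ k] := by
  rw [← ZMod.natCast_eq_natCast_iff, ← tate_toZModPow_eq, map_natCast]

theorem tate_appr_succ (a : ℤ_[p]) (k : ℕ) :
    a.appr (k + 1) ≡ a.appr k [MOD p ^ k] := by
  rw [Nat.ModEq.comm]
  exact (Nat.modEq_iff_dvd' (appr_mono a (Nat.le_succ k))).mpr
    (dvd_appr_sub_appr a k (k + 1) (Nat.le_succ k))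

/-- Scalar multiplication by a `p`-adic integer on the Tate module. -/
noncomputable def tateSMul (a : ℤ_[p]) (x : tateSub p J) : tateSub p J :=
  ⟨fun k => a.appr k • (x : ℕ → J) k, by
    refine ⟨by simp [tate_zero], fun k => ?_⟩
    show p • (a.appr (k + 1) • (x : ℕ → J) (k + 1)) = a.appr k • (x : ℕ → J) k
    rw [smul_comm, tate_succ]
    exact tate_nsmul_congr (tate_pow_smul_eq_zero x k) (tate_appr_succ a k)⟩

theorem tateSMul_apply (a : ℤ_[p]) (x : tateSub p J) (k : ℕ) :
    (tateSMul a x : ℕ → J) k = a.appr k • (x : ℕ → J) k := rfl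

noncomputable instance tateModule : Module ℤ_[p] (tateSub p J) where
  smul := tateSMul
  one_smul x := by
    apply Subtype.ext; funext k
    show (1 : ℤ_[p]).appr k • (x : ℕ → J) k = (x : ℕ → J) k
    have h := tate_appr_natCast (p := p) 1 k
    rw [Nat.cast_one] at h
    rw [tate_nsmul_congr (tate_pow_smul_eq_zero x k) h, one_smul]
  mul_smul a b x := by
    apply Subtype.ext; funext k
    show (a * b).appr k • (x : ℕ → J) k = a.appr k • (b.appr k • (x : ℕ → J) k)
    rw [tate_nsmul_congr (tate_pow_smul_eq_zero x k) (tate_appr_mul a b k), mul_smul]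
  smul_zero a := by
    apply Subtype.ext; funext k
    show a.appr k • (0 : J) = 0
    simp
  smul_add a x y := by
    apply Subtype.ext; funext k
    show a.appr k • ((x : ℕ → J) k + (y : ℕ → J) k) = a.appr k • (x : ℕ → J) k + a.appr k • (y : ℕ → J) k
    rw [smul_add]
  add_smul a b x := by
    apply Subtype.ext; funext k
    show (a + b).appr k • (x : ℕ → J) k = a.appr k • (x : ℕ → J) k + b.appr k • (x : ℕ → J) k
    rw [tate_nsmul_congr (tate_pow_smul_eq_zero x k) (tate_appr_add a b k), add_smul]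
  zero_smul x := by
    apply Subtype.ext; funext k
    show (0 : ℤ_[p]).appr k • (x : ℕ → J) k = 0
    have h := tate_appr_natCast (p := p) 0 k
    rw [Nat.cast_zero] at h
    rw [tate_nsmul_congr (tate_pow_smul_eq_zero x k) h, zero_smul]

theorem tate_smul_apply (a : ℤ_[p]) (x : tateSub p J) (k : ℕ) :
    ((a • x : tateSub p J) : ℕ → J) k = a.appr k • (x : ℕ → J) k := rfl

theorem tate_natCast_smul_apply (n : ℕ) (x : tateSub p J) (k : ℕ) :
    (((n : ℤ_[p]) • x : tateSub p J) : ℕ → J) k = n • (x : ℕ → J) k := by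
  rw [tate_smul_apply]
  exact tate_nsmul_congr (tate_pow_smul_eq_zero x k) (tate_appr_natCast n k)

/-- The projections of the Tate module. -/
def tatePi (k : ℕ) : tateSub p J →+ J where
  toFun x := (x : ℕ → J) k
  map_zero' := rfl
  map_add' _ _ := rfl

theorem tatePi_apply (k : ℕ) (x : tateSub p J) : tatePi k x = (x : ℕ → J) k := rfl

theorem tate_ext {x y : tateSub p J} (h : ∀ k, tatePi k x = tatePi k y) : x = y :=
  Subtype.ext (funext h)

theorem tatePi_smul (a : ℤ_[p]) (x : tateSub p J) (k : ℕ) :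
    tatePi k (a • x) = a.appr k • tatePi k x := rfl

theorem tatePi_natCast_smul (n : ℕ) (x : tateSub p J) (k : ℕ) :
    tatePi k ((n : ℤ_[p]) • x) = n • tatePi k x := tate_natCast_smul_apply n x k

theorem tatePi_pow_smul (x : tateSub p J) (k : ℕ) : p ^ k • tatePi k x = 0 :=
  tate_pow_smul_eq_zero x k

theorem tatePi_succ (x : tateSub p J) (k : ℕ) : p • tatePi (k + 1) x = tatePi k x :=
  tate_succ x k

/-- The kernel of `π k` is `p ^ k T`. -/
theorem tatePi_ker (k : ℕ) (t : tateSub p J) (ht : tatePi k t = 0) :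
    ∃ s : tateSub p J, t = ((p : ℤ_[p]) ^ k) • s := by
  refine ⟨⟨fun j => (t : ℕ → J) (j + k), ?_, fun j => ?_⟩, ?_⟩
  · show (t : ℕ → J) (0 + k) = 0
    rw [zero_add]; exact ht
  · show p • (t : ℕ → J) (j + 1 + k) = (t : ℕ → J) (j + k)
    rw [show j + 1 + k = (j + k) + 1 by ring]
    exact tate_succ t (j + k)
  · apply tate_ext
    intro j
    rw [← Nat.cast_pow, tatePi_natCast_smul]
    show (t : ℕ → J) j = p ^ k • (t : ℕ → J) (j + k)
    rw [tate_pow_smul_shift]


/-- The action of an endomorphism of `J` on the Tate module. -/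
def tateMap (f : AddMonoid.End J) : tateSub p J →ₗ[ℤ_[p]] tateSub p J where
  toFun x := ⟨fun k => f ((x : ℕ → J) k), by
    refine ⟨?_, fun k => ?_⟩
    · show f ((x : ℕ → J) 0) = 0
      rw [tate_zero]; exact map_zero f
    · show p • f ((x : ℕ → J) (k + 1)) = f ((x : ℕ → J) k)
      rw [← map_nsmul, tate_succ]⟩
  map_add' x y := by
    apply Subtype.ext; funext k
    exact map_add f _ _
  map_smul' a x := by
    apply Subtype.ext; funext k
    exact map_nsmul f _ _

theorem tatePi_tateMap (f : AddMonoid.End J) (k : ℕ) (x : tateSub p J) :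
    tatePi k (tateMap f x) = f (tatePi k x) := rfl

/-- Functoriality of the Tate module in the endomorphisms of `J`. -/
def tatePhi : AddMonoid.End J →+* Module.End ℤ_[p] (tateSub p J) where
  toFun := tateMap
  map_one' := by
    apply LinearMap.ext; intro x; apply tate_ext; intro k; rfl
  map_mul' f g := by
    apply LinearMap.ext; intro x; apply tate_ext; intro k; rfl
  map_zero' := by
    apply LinearMap.ext; intro x; apply tate_ext; intro k; rfl
  map_add' f g := by
    apply LinearMap.ext; intro x; apply tate_ext; intro k; rfl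

theorem tatePi_tatePhi (f : AddMonoid.End J) (k : ℕ) (x : tateSub p J) :
    tatePi k (tatePhi f x) = f (tatePi k x) := rfl

/-- Multiplication by `p ^ n` is injective on the Tate module. -/
theorem tate_pow_smul_injective (n : ℕ) (x : tateSub p J)
    (h : ((p : ℤ_[p]) ^ n) • x = 0) : x = 0 := by
  apply tate_ext
  intro j
  have h1 : tatePi (j + n) (((p : ℤ_[p]) ^ n) • x) = 0 := by rw [h]; rfl
  rw [← Nat.cast_pow, tatePi_natCast_smul] at h1
  have h2 := tate_pow_smul_shift x n j
  rw [tatePi_apply] at h1 ⊢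
  rw [← h2, h1]; rfl

instance tate_isTorsionFree : Module.IsTorsionFree ℤ_[p] (tateSub p J) := by
  apply Module.IsTorsionFree.of_smul_eq_zero
  intro r x h
  by_cases hr : r = 0
  · exact Or.inl hr
  · right
    have hspec := PadicInt.unitCoeff_spec hr
    rw [hspec, mul_smul] at h
    have h' : ((p : ℤ_[p]) ^ r.valuation) • x = 0 := by
      have := congrArg (fun y => ((PadicInt.unitCoeff hr)⁻¹ : ℤ_[p]ˣ) • y) h
      simpa [Units.smul_def, smul_smul] using this
    exact tate_pow_smul_injective _ x h'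


open IsLocalRing in
theorem tatePi_smul_of_mem (n : ℕ) (r : ℤ_[p]) (hr : r ∈ (maximalIdeal ℤ_[p]) ^ n)
    (t : tateSub p J) : tatePi n (r • t) = 0 := by
  rw [maximalIdeal_eq_span_p, Ideal.span_singleton_pow, ← ker_toZModPow, RingHom.mem_ker,
    tate_toZModPow_eq, ZMod.natCast_eq_zero_iff] at hr
  rw [tatePi_smul]
  obtain ⟨c, hc⟩ := hr
  rw [hc, mul_comm, mul_smul, tatePi_pow_smul, smul_zero]

open IsLocalRing in
theorem tatePi_eq_zero_of_mem (n : ℕ) (x : tateSub p J)
    (hx : x ∈ ((maximalIdeal ℤ_[p]) ^ n • ⊤ : Submodule ℤ_[p] (tateSub p J))) :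
    tatePi n x = 0 := by
  refine Submodule.smul_induction_on (p := fun x => tatePi n x = 0) hx
    (fun r hr t _ => tatePi_smul_of_mem n r hr t) (fun x y hx hy => ?_)
  rw [map_add, hx, hy, add_zero]

open IsLocalRing in
instance tate_isHausdorff : IsHausdorff (maximalIdeal ℤ_[p]) (tateSub p J) where
  haus' x hx := by
    apply tate_ext; intro n
    have := hx n
    rw [SModEq.zero] at this
    exact tatePi_eq_zero_of_mem n x this

theorem tate_isPrecomplete_pi {R : Type*} [CommRing R] (I : Ideal R) [IsPrecomplete I R]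
    (ι : Type*) [Finite ι] : IsPrecomplete I (ι → R) := by
  classical
  cases nonempty_fintype ι
  refine ⟨fun f hf => ?_⟩
  have hcoord : ∀ (n : ℕ) (x : ι → R), x ∈ (I ^ n • ⊤ : Submodule R (ι → R)) →
      ∀ i, x i ∈ I ^ n := by
    intro n x hx i
    exact Submodule.smul_induction_on (p := fun x => x i ∈ I ^ n) hx
      (fun r hr t _ => Ideal.mul_mem_right _ _ hr) (fun x y hx hy => Ideal.add_mem _ hx hy)
  have hconv : ∀ (n : ℕ) (x : ι → R), (∀ i, x i ∈ I ^ n) →
      x ∈ (I ^ n • ⊤ : Submodule R (ι → R)) := by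
    intro n x hx
    rw [← Finset.univ_sum_single x]
    refine Submodule.sum_mem _ fun i _ => ?_
    have : (Pi.single i (x i) : ι → R) = x i • (Pi.single i 1 : ι → R) := by
      ext j; simp [Pi.single_apply]
    rw [this]
    exact Submodule.smul_mem_smul (hx i) Submodule.mem_top
  have hlim : ∀ i, ∃ L : R, ∀ n, f n i ≡ L [SMOD (I ^ n • ⊤ : Submodule R R)] := by
    intro i
    apply IsPrecomplete.prec' (I := I) (fun n => f n i)
    intro m n hmn
    have h1 := hf hmn
    rw [SModEq.sub_mem] at h1 ⊢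
    have h2 := hcoord m _ h1 i
    simpa using h2
  choose L hL using hlim
  refine ⟨L, fun n => ?_⟩
  rw [SModEq.sub_mem]
  apply hconv
  intro i
  have h1 := hL i n
  rw [SModEq.sub_mem] at h1
  simpa using h1

open IsLocalRing in
theorem tate_finite (hfin : Set.Finite {x : J | p ^ 1 • x = 0}) :
    Module.Finite ℤ_[p] (tateSub p J) := by
  classical
  have hrange : (Set.range (tatePi (p := p) (J := J) 1)).Finite :=
    hfin.subset (by rintro _ ⟨x, rfl⟩; exact tatePi_pow_smul x 1)
  have : Finite (Set.range (tatePi (p := p) (J := J) 1)) := hrange.to_subtype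
  cases nonempty_fintype (Set.range (tatePi (p := p) (J := J) 1))
  let g : Set.range (tatePi (p := p) (J := J) 1) → tateSub p J := fun y => Classical.choose y.2
  have hg : ∀ y : Set.range (tatePi (p := p) (J := J) 1), tatePi 1 (g y) = y :=
    fun y => Classical.choose_spec y.2
  let Ψ : (Set.range (tatePi (p := p) (J := J) 1) → ℤ_[p]) →ₗ[ℤ_[p]] tateSub p J :=
    Fintype.linearCombination ℤ_[p] g
  have := tate_isPrecomplete_pi (maximalIdeal ℤ_[p]) (Set.range (tatePi (p := p) (J := J) 1))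
  have hsurj : Function.Surjective Ψ := by
    apply surjective_of_mkQ_comp_surjective (I := maximalIdeal ℤ_[p])
    intro y
    obtain ⟨x, rfl⟩ := Submodule.mkQ_surjective _ y
    let i : Set.range (tatePi (p := p) (J := J) 1) := ⟨tatePi 1 x, x, rfl⟩
    refine ⟨Pi.single i 1, ?_⟩
    have h1 : Ψ (Pi.single i 1) = g i := by
      simp [Ψ, Fintype.linearCombination_apply_single]
    rw [LinearMap.comp_apply, h1, Submodule.mkQ_apply, Submodule.mkQ_apply,
      Submodule.Quotient.eq]
    have h2 : tatePi 1 (g i - x) = 0 := by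
      rw [map_sub, hg]; exact sub_self _
    obtain ⟨s, hs⟩ := tatePi_ker 1 _ h2
    rw [hs, pow_one]
    exact Submodule.smul_mem_smul
      (by rw [maximalIdeal_eq_span_p]; exact Ideal.mem_span_singleton_self _) Submodule.mem_top
  exact Module.Finite.of_surjective Ψ hsurj

theorem tate_free (hfin : Set.Finite {x : J | p ^ 1 • x = 0}) :
    Module.Free ℤ_[p] (tateSub p J) := by
  have := tate_finite (p := p) (J := J) hfin
  exact Module.free_of_finite_type_torsion_free'


/-- An antitone sequence of finite sets is eventually constant: some member is contained in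
all the others. -/
theorem tate_antitone_stabilizes {α : Type*} (A : ℕ → Set α) (hA : Antitone A)
    (hfin : (A 0).Finite) : ∃ m₀, ∀ m, A m₀ ⊆ A m := by
  obtain ⟨c, ⟨m₀, rfl⟩, hmin⟩ := Nat.lt_wfRel.wf.has_min (Set.range fun m => (A m).ncard)
    ⟨(A 0).ncard, 0, rfl⟩
  refine ⟨m₀, fun m => ?_⟩
  rcases le_total m m₀ with h | h
  · exact hA h
  · have hsub : A m ⊆ A m₀ := hA h
    have hle : (A m₀).ncard ≤ (A m).ncard := not_lt.mp (hmin _ ⟨m, rfl⟩)
    have hfin₀ : (A m₀).Finite := hfin.subset (hA (Nat.zero_le _))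
    exact (Set.eq_of_subset_of_ncard_le hsub hle hfin₀).ge

variable (p J) in
/-- The subgroup-like set `p ^ m • J[p ^ (k + m)]`. -/
def tateImg (k m : ℕ) : Set J := {y | ∃ z : J, p ^ (k + m) • z = 0 ∧ p ^ m • z = y}

variable (p J) in
/-- The stable image `⋂ m, p ^ m • J[p ^ (k + m)]`. -/
def tateStab (k : ℕ) : Set J := {y | ∀ m, y ∈ tateImg p J k m}

theorem tateImg_antitone (k : ℕ) : Antitone (tateImg p J k) := by
  apply antitone_nat_of_succ_le
  rintro m y ⟨z, hz, rfl⟩
  refine ⟨p • z, ?_, ?_⟩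
  · rw [← mul_smul, ← pow_succ]; exact hz
  · rw [← mul_smul, ← pow_succ]

theorem tateImg_zero_subset (k : ℕ) : tateImg p J k 0 ⊆ {y | p ^ k • y = 0} := by
  rintro y ⟨z, hz, rfl⟩
  simpa using hz

theorem tateStab_pow_smul {k : ℕ} {y : J} (hy : y ∈ tateStab p J k) : p ^ k • y = 0 :=
  tateImg_zero_subset k (hy 0)

theorem tate_exists_img_subset_stab (hfin : ∀ k : ℕ, Set.Finite {x : J | p ^ k • x = 0})
    (k : ℕ) : ∃ m, tateImg p J k m ⊆ tateStab p J k := by
  obtain ⟨m₀, hm₀⟩ := tate_antitone_stabilizes (tateImg p J k) (tateImg_antitone k)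
    ((hfin k).subset (tateImg_zero_subset k))
  exact ⟨m₀, fun y hy m => hm₀ m hy⟩

theorem tateStab_lift (hfin : ∀ k : ℕ, Set.Finite {x : J | p ^ k • x = 0})
    (k : ℕ) {y : J} (hy : y ∈ tateStab p J k) :
    ∃ w, w ∈ tateStab p J (k + 1) ∧ p • w = y := by
  let W : ℕ → Set J := fun m => {w | w ∈ tateImg p J (k + 1) m ∧ p • w = y}
  have hW : Antitone W := fun a b hab w hw => ⟨tateImg_antitone (k + 1) hab hw.1, hw.2⟩
  have hfinW : (W 0).Finite :=
    (hfin (k + 1)).subset fun w hw => tateImg_zero_subset (k + 1) hw.1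
  obtain ⟨m₀, hm₀⟩ := tate_antitone_stabilizes W hW hfinW
  have hne : (W m₀).Nonempty := by
    obtain ⟨z, hz, hzy⟩ := hy (m₀ + 1)
    refine ⟨p ^ m₀ • z, ⟨z, ?_, rfl⟩, ?_⟩
    · rw [← hz]; congr 2; ring
    · rw [← mul_smul, ← pow_succ']; exact hzy
  obtain ⟨w, hw⟩ := hne
  exact ⟨w, fun m => (hm₀ m hw).1, hw.2⟩

theorem tateStab_exists (hfin : ∀ k : ℕ, Set.Finite {x : J | p ^ k • x = 0})
    (k : ℕ) {y : J} (hy : y ∈ tateStab p J k) :
    ∃ t : tateSub p J, tatePi k t = y := by
  classical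
  let F : ∀ n : ℕ, {w : J // w ∈ tateStab p J (k + n)} := fun n =>
    Nat.rec (motive := fun n => {w : J // w ∈ tateStab p J (k + n)}) ⟨y, hy⟩
      (fun n w => ⟨Classical.choose (tateStab_lift hfin (k + n) w.2),
        (Classical.choose_spec (tateStab_lift hfin (k + n) w.2)).1⟩) n
  have hF0 : (F 0 : J) = y := rfl
  have hFs : ∀ n, p • (F (n + 1) : J) = (F n : J) := fun n =>
    (Classical.choose_spec (tateStab_lift hfin (k + n) (F n).2)).2
  have hFpow : ∀ n j, p ^ n • (F (j + n) : J) = (F j : J) := by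
    intro n j
    induction n with
    | zero => simp
    | succ n ih =>
      rw [pow_succ, mul_smul]
      show p ^ n • p • (F ((j + n) + 1) : J) = (F j : J)
      rw [hFs, ih]
  refine ⟨⟨fun j => p ^ k • (F j : J), ?_, fun j => ?_⟩, ?_⟩
  · show p ^ k • (F 0 : J) = 0
    rw [hF0]; exact tateStab_pow_smul hy
  · show p • p ^ k • (F (j + 1) : J) = p ^ k • (F j : J)
    rw [smul_comm, hFs]
  · show p ^ k • (F k : J) = y
    have := hFpow k 0
    rw [zero_add] at this
    rw [this, hF0]

theorem tate_image (hfin : ∀ k : ℕ, Set.Finite {x : J | p ^ k • x = 0}) (k : ℕ) :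
    ∃ m : ℕ, ∀ x : J, p ^ (k + m) • x = 0 → ∃ t : tateSub p J, tatePi k t = p ^ m • x := by
  obtain ⟨m, hm⟩ := tate_exists_img_subset_stab hfin k
  exact ⟨m, fun x hx => tateStab_exists hfin k (hm ⟨x, hx, rfl⟩)⟩

end TateBasic

/-- **A3a (Tate).** The `p`-adic Tate module of an abelian group with finite `p`-power torsion. -/
theorem tate : TateStatement := by
  intro p hp J _ hfin
  have hfin1 : Set.Finite {x : J | p ^ 1 • x = 0} := hfin 1
  exact ⟨tateSub p J, inferInstance, inferInstance, tate_free hfin1, tate_finite hfin1,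
    tatePi, tatePhi, tatePi_pow_smul (p := p) (J := J) |> fun h k t => h t k,
    fun k t => tatePi_succ t k, fun k t ht => tatePi_ker k t ht, tate_image hfin,
    fun f k t => tatePi_tatePhi f k t⟩




end Fermat.Agent.S30
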