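import Fermat.Agent.S30.PackageAdicCore
import Fermat.Agent.S31.TatePackage
import Fermat.Agent.S30.Tate
import Fermat.Agent.S30.EigenVector

/-!
# P-GALREP, module A4 (PackageAdic)

`packageAdic_of : TateStatement → EigenVectorStatement → PackageAdicStatement N p` and its
unconditional form `packageAdic`: the geometric inputs produce, for every character `χ` of the
Hecke algebra away from `S` with values in a complete discrete valuation ring `𝒪` of residue
characteristic `p`, a nonzero finite free `𝒪`-module with a continuous action of `G_ℚ`,
unramified outside `N p`, on which the Frobenius elements at `ℓ ∉ S` satisfy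
`F² - χ(T_ℓ) F + ℓ = 0`.

The lattice is the `𝒪`-dual of the module of `χ`-eigenfunctionals on the `p`-adic Tate module
of `J₀(N)` (`Fermat.Agent.S31.tatePackage`, `EigenLattice.exists_eigenlattice`,
`packageAdic_of_tatePackage`).  The eigenvector interface is not needed by this construction.
-/

set_option autoImplicit false

namespace Fermat.Agent.S30

/-- **A4 (PackageAdic).** -/
theorem packageAdic_of (hT : TateStatement) (_hE : EigenVectorStatement) (N p : ℕ) [NeZero N] :
    PackageAdicStatement N p :=
  packageAdic_of_tatePackage N p hT (fun {_} => Fermat.Agent.S31.tatePackage N p)

/-- **A4 (PackageAdic)**, unconditional form. -/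
theorem packageAdic (N p : ℕ) [NeZero N] : PackageAdicStatement N p :=
  packageAdic_of tate eigenVector N p

end Fermat.Agent.S30
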