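import Fermat.Agent.S30.Skeleton

/-!
# P-GALREP, module A1 (S30): `QuadRepOdd`

A nonzero finite free module `Λ` over a discrete valuation ring `𝒪` of characteristic zero with an
action `ρ` of a group `G` such that every `ρ g` satisfies a monic quadratic with constant term
`d g` (`d` a character), and an involution `c` with `d c = -1`, yields a rank-two representation
`ρ'` over `𝒪` with the prescribed characteristic polynomials, at least as continuous as `ρ`
and `d`.

Proof.  Put `x = ρ c`.  The anticommutator identity gives, for `u` in the `+1`-eigenspace of `x`,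
`x (ρ g u) + ρ g u = (b (c g) + b g) u`, and the mirror identity on the `-1`-eigenspace.  Either
some line is stable up to saturation (rank-one case, `ρ' = diag (ψ, d ψ⁻¹)`), or there are
eigenvectors `u` (for `+1`) and `w` (for `-1`) such that the saturation of `span {u, w}` is stable
(rank-two case, `ρ'` is the matrix of `ρ` on it in an `𝒪`-basis).  No passage to the fraction
field and no simple submodule is needed.
-/

set_option autoImplicit false
set_option linter.unusedSectionVars false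

open Polynomial

namespace Fermat.Agent.S30.QRO

section Anticomm

variable {R : Type} [CommRing R] {G : Type} [Group G] {M : Type} [AddCommGroup M] [Module R M]

/-- The standing hypothesis: `ρ g` satisfies `X ^ 2 - b g X + d g`. -/
def Rel (ρ : G →* Module.End R M) (d : G →* Rˣ) (b : G → R) : Prop :=
  ∀ g, ρ g * ρ g - b g • ρ g + ((d g : Rˣ) : R) • (1 : Module.End R M) = 0

variable {ρ : G →* Module.End R M} {d : G →* Rˣ} {b : G → R}

theorem Rel.sq (h : Rel ρ d b) (g : G) :
    ρ g * ρ g = b g • ρ g - ((d g : Rˣ) : R) • (1 : Module.End R M) := by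
  have := h g
  linear_combination (norm := module) this

theorem Rel.mul_conj (h : Rel ρ d b) (g : G) :
    ρ g * (b g • (1 : Module.End R M) - ρ g) = ((d g : Rˣ) : R) • (1 : Module.End R M) := by
  rw [mul_sub, mul_smul_comm, mul_one, h.sq g]
  module

/-- The anticommutator identity. -/
theorem Rel.anticomm (h : Rel ρ d b) (g g' : G) :
    ρ g * ρ g' + ρ g' * ρ g =
      b g' • ρ g + b g • ρ g' + (b (g * g') - b g * b g') • (1 : Module.End R M) := by
  set x := ρ g with hx
  set y := ρ g' with hy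
  have hxy : ρ (g * g') = x * y := map_mul ρ g g'
  have hu : ρ (g * g')⁻¹ * (x * y) = 1 := by
    rw [← hxy, ← map_mul, inv_mul_cancel, map_one]
  have h1 : (x * y) * (b (g * g') • (1 : Module.End R M) - x * y) =
      (((d g : Rˣ) : R) * ((d g' : Rˣ) : R)) • (1 : Module.End R M) := by
    have := h.mul_conj (g * g')
    rw [hxy, map_mul, Units.val_mul] at this
    exact this
  have h2 : (x * y) * ((b g' • (1 : Module.End R M) - y) * (b g • (1 : Module.End R M) - x)) =
      (((d g : Rˣ) : R) * ((d g' : Rˣ) : R)) • (1 : Module.End R M) := by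
    have e : (x * y) * ((b g' • (1 : Module.End R M) - y) * (b g • (1 : Module.End R M) - x)) =
        x * (y * (b g' • (1 : Module.End R M) - y)) * (b g • (1 : Module.End R M) - x) := by
      simp only [mul_assoc]
    rw [e, h.mul_conj g', mul_smul_comm, mul_one, smul_mul_assoc, h.mul_conj g, smul_smul,
      mul_comm]
  have h3 : b (g * g') • (1 : Module.End R M) - x * y =
      (b g' • (1 : Module.End R M) - y) * (b g • (1 : Module.End R M) - x) := by
    have := congrArg (fun t => ρ (g * g')⁻¹ * t) (h1.trans h2.symm)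
    simp only [← mul_assoc, hu, one_mul] at this
    exact this
  have h4 : (b g' • (1 : Module.End R M) - y) * (b g • (1 : Module.End R M) - x) =
      (b g' * b g) • (1 : Module.End R M) - b g' • x - b g • y + y * x := by
    simp only [sub_mul, mul_sub, smul_mul_assoc, mul_smul_comm, one_mul, mul_one]
    module
  rw [h4] at h3
  linear_combination (norm := module) -h3

end Anticomm

section Inv

variable {R : Type} [CommRing R] [IsDomain R] {G : Type} [Group G]
  {M : Type} [AddCommGroup M] [Module R M] [Module.IsTorsionFree R M]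
  {ρ : G →* Module.End R M} {d : G →* Rˣ} {b : G → R} {c : G}

theorem rho_c_sq (hc : c * c = 1) : ρ c * ρ c = 1 := by
  rw [← map_mul, hc, map_one]

theorem rho_c_rho_c (hc : c * c = 1) (z : M) : ρ c (ρ c z) = z := by
  have h := congrArg (fun t : Module.End R M => t z) (rho_c_sq (ρ := ρ) hc)
  simpa using h

theorem b_c_eq_zero [Nontrivial M] (h : Rel ρ d b) (hc : c * c = 1) (hd : d c = -1) :
    b c = 0 := by
  have h1 := h c
  rw [rho_c_sq hc, hd] at h1
  have h2 : b c • ρ c = 0 := by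
    have h1' : (1 : Module.End R M) - b c • ρ c + ((-1 : R)) • (1 : Module.End R M) = 0 := by
      simpa using h1
    linear_combination (norm := module) -h1'
  obtain ⟨v, hv⟩ := exists_ne (0 : M)
  have h4 : b c • ρ c (ρ c v) = 0 := by
    have := congrArg (fun t : Module.End R M => t (ρ c v)) h2
    simpa using this
  rw [rho_c_rho_c hc] at h4
  exact (smul_eq_zero.mp h4).resolve_right hv

/-- anticommutator with the involution -/
theorem anticomm_c (h : Rel ρ d b) (hbc : b c = 0) (g : G) :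
    ρ c * ρ g + ρ g * ρ c = b g • ρ c + b (c * g) • (1 : Module.End R M) := by
  have := h.anticomm c g
  rw [hbc] at this
  rw [this]
  module

/-- the `+`-part of `ρ g u` for `u` in the `+1`-eigenspace -/
theorem plus_part (h : Rel ρ d b) (hbc : b c = 0) (g : G) {u : M} (hu : ρ c u = u) :
    ρ c (ρ g u) + ρ g u = (b (c * g) + b g) • u := by
  have := congrArg (fun t : Module.End R M => t u) (anticomm_c h hbc g)
  simp only [LinearMap.add_apply, Module.End.mul_apply, LinearMap.smul_apply,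
    Module.End.one_apply, hu] at this
  rw [this]
  module

/-- the `-`-part of `ρ g w` for `w` in the `-1`-eigenspace -/
theorem minus_part (h : Rel ρ d b) (hbc : b c = 0) (g : G) {w : M} (hw : ρ c w = -w) :
    ρ g w - ρ c (ρ g w) = (b g - b (c * g)) • w := by
  have := congrArg (fun t : Module.End R M => t w) (anticomm_c h hbc g)
  simp only [LinearMap.add_apply, Module.End.mul_apply, LinearMap.smul_apply,
    Module.End.one_apply, hw, map_neg] at this
  have e : ρ g w - ρ c (ρ g w) = -(ρ c (ρ g w) + -(ρ g w)) := by abel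
  rw [e, this]
  module

theorem plus_mem (hc : c * c = 1) (z : M) : ρ c (ρ c z + z) = ρ c z + z := by
  rw [map_add, rho_c_rho_c hc]
  abel

theorem minus_mem (hc : c * c = 1) (z : M) : ρ c (z - ρ c z) = -(z - ρ c z) := by
  rw [map_sub, rho_c_rho_c hc]
  abel

/-- `P ρ(h₁) Q ρ(h₀) u` is a multiple of `u`. -/
theorem plus_minus (h : Rel ρ d b) (hbc : b c = 0) (h₁ h₀ : G) {u : M} (hu : ρ c u = u) :
    ρ c (ρ h₁ (ρ h₀ u - ρ c (ρ h₀ u))) + ρ h₁ (ρ h₀ u - ρ c (ρ h₀ u)) =
      (2 * (b (c * (h₁ * h₀)) + b (h₁ * h₀)) - (b (c * h₁) + b h₁) * (b (c * h₀) + b h₀)) • u := by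
  have e0 : ρ h₀ u - ρ c (ρ h₀ u) = (2 : R) • ρ h₀ u - (b (c * h₀) + b h₀) • u := by
    rw [← plus_part h hbc h₀ hu]
    module
  have e1 := plus_part h hbc h₁ hu
  have e2 := plus_part h hbc (h₁ * h₀) hu
  rw [map_mul, Module.End.mul_apply] at e2
  rw [e0]
  simp only [map_sub, map_smul]
  have : (2 : R) • ρ c (ρ h₁ (ρ h₀ u)) - (b (c * h₀) + b h₀) • ρ c (ρ h₁ u) +
      ((2 : R) • ρ h₁ (ρ h₀ u) - (b (c * h₀) + b h₀) • ρ h₁ u) =
      (2 : R) • (ρ c (ρ h₁ (ρ h₀ u)) + ρ h₁ (ρ h₀ u)) -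
        (b (c * h₀) + b h₀) • (ρ c (ρ h₁ u) + ρ h₁ u) := by module
  rw [this, e1, e2]
  module

/-- `Q ρ(h) P ρ(h₁) w` is a multiple of `w`. -/
theorem minus_plus (h : Rel ρ d b) (hbc : b c = 0) (g h₁ : G) {w : M} (hw : ρ c w = -w) :
    ρ g (ρ c (ρ h₁ w) + ρ h₁ w) - ρ c (ρ g (ρ c (ρ h₁ w) + ρ h₁ w)) =
      (2 * (b (g * h₁) - b (c * (g * h₁))) - (b g - b (c * g)) * (b h₁ - b (c * h₁))) • w := by
  have e0 : ρ c (ρ h₁ w) + ρ h₁ w = (2 : R) • ρ h₁ w - (b h₁ - b (c * h₁)) • w := by
    rw [← minus_part h hbc h₁ hw]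
    module
  have e1 := minus_part h hbc g hw
  have e2 := minus_part h hbc (g * h₁) hw
  rw [map_mul, Module.End.mul_apply] at e2
  rw [e0]
  simp only [map_sub, map_smul]
  have : (2 : R) • ρ g (ρ h₁ w) - (b h₁ - b (c * h₁)) • ρ g w -
      ((2 : R) • ρ c (ρ g (ρ h₁ w)) - (b h₁ - b (c * h₁)) • ρ c (ρ g w)) =
      (2 : R) • (ρ g (ρ h₁ w) - ρ c (ρ g (ρ h₁ w))) -
        (b h₁ - b (c * h₁)) • (ρ g w - ρ c (ρ g w)) := by module
  rw [this, e1, e2]
  module

end Inv

section Sat

variable {R : Type} [CommRing R] [IsDomain R] {M : Type} [AddCommGroup M] [Module R M]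

/-- The saturation of a submodule: all `v` with a nonzero multiple in `N`. -/
def sat (N : Submodule R M) : Submodule R M where
  carrier := {v | ∃ r : R, r ≠ 0 ∧ r • v ∈ N}
  add_mem' := by
    rintro v w ⟨r, hr, hv⟩ ⟨s, hs, hw⟩
    refine ⟨r * s, mul_ne_zero hr hs, ?_⟩
    have e : (r * s) • (v + w) = s • (r • v) + r • (s • w) := by module
    rw [e]
    exact N.add_mem (N.smul_mem s hv) (N.smul_mem r hw)
  zero_mem' := ⟨1, one_ne_zero, by simp⟩
  smul_mem' := by
    rintro a v ⟨r, hr, hv⟩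
    exact ⟨r, hr, by rw [smul_comm]; exact N.smul_mem a hv⟩

theorem mem_sat {N : Submodule R M} {v : M} : v ∈ sat N ↔ ∃ r : R, r ≠ 0 ∧ r • v ∈ N :=
  Iff.rfl

theorem le_sat (N : Submodule R M) : N ≤ sat N := fun v hv =>
  ⟨1, one_ne_zero, by simpa using hv⟩

theorem sat_of_smul_mem {N : Submodule R M} {r : R} (hr : r ≠ 0) {v : M}
    (hv : r • v ∈ sat N) : v ∈ sat N := by
  obtain ⟨s, hs, hsv⟩ := hv
  exact ⟨s * r, mul_ne_zero hs hr, by rwa [mul_smul]⟩

/-- an endomorphism mapping generators of `N` into `sat N` preserves `sat N`. -/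
theorem sat_stable (f : Module.End R M) (S : Set M)
    (hS : ∀ s ∈ S, f s ∈ sat (Submodule.span R S)) :
    ∀ v ∈ sat (Submodule.span R S), f v ∈ sat (Submodule.span R S) := by
  have h1 : ∀ v ∈ Submodule.span R S, f v ∈ sat (Submodule.span R S) := by
    intro v hv
    induction hv using Submodule.span_induction with
    | mem x hx => exact hS x hx
    | zero => rw [map_zero]; exact Submodule.zero_mem _
    | add x y _ _ hx hy => rw [map_add]; exact Submodule.add_mem _ hx hy
    | smul a x _ hx => rw [map_smul]; exact Submodule.smul_mem _ a hx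
  rintro v ⟨r, hr, hv⟩
  have h2 := h1 _ hv
  rw [map_smul] at h2
  exact sat_of_smul_mem hr h2

/-- a finitely generated submodule of `sat N` has a common denominator. -/
theorem exists_smul_mem_of_fg {N : Submodule R M} (P : Submodule R M) (hP : P.FG)
    (hle : P ≤ sat N) : ∃ r : R, r ≠ 0 ∧ ∀ v ∈ P, r • v ∈ N := by
  refine Submodule.fg_induction
    (motive := fun P _ => P ≤ sat N → ∃ r : R, r ≠ 0 ∧ ∀ v ∈ P, r • v ∈ N) ?_ ?_ P hP hle
  · intro x hle
    obtain ⟨r, hr, hx⟩ := hle (Submodule.mem_span_singleton_self x)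
    refine ⟨r, hr, fun v hv => ?_⟩
    obtain ⟨a, rfl⟩ := Submodule.mem_span_singleton.mp hv
    rw [smul_comm]
    exact N.smul_mem a hx
  · intro M₁ M₂ _ _ h₁ h₂ hle
    obtain ⟨r₁, hr₁, h₁'⟩ := h₁ (le_trans le_sup_left hle)
    obtain ⟨r₂, hr₂, h₂'⟩ := h₂ (le_trans le_sup_right hle)
    refine ⟨r₁ * r₂, mul_ne_zero hr₁ hr₂, fun v hv => ?_⟩
    obtain ⟨y, hy, z, hz, rfl⟩ := Submodule.mem_sup.mp hv
    have e : (r₁ * r₂) • (y + z) = r₂ • (r₁ • y) + r₁ • (r₂ • z) := by module
    rw [e]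
    exact N.add_mem (N.smul_mem r₂ (h₁' y hy)) (N.smul_mem r₁ (h₂' z hz))

variable [IsPrincipalIdealRing R] [Module.Free R M] [Module.Finite R M]

/-- the saturation has the same rank. -/
theorem finrank_sat (N : Submodule R M) :
    Module.finrank R (sat N) = Module.finrank R N := by
  apply le_antisymm
  · have hfg : (sat N).FG := IsNoetherian.noetherian (sat N)
    obtain ⟨r, hr, h⟩ := exists_smul_mem_of_fg (sat N) hfg le_rfl
    let f : sat N →ₗ[R] N :=
      { toFun := fun v => ⟨r • (v : M), h v v.2⟩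
        map_add' := fun v w => by
          apply Subtype.ext
          simp [smul_add]
        map_smul' := fun a v => by
          apply Subtype.ext
          simp [smul_comm r a] }
    have hf : Function.Injective f := by
      intro v w hvw
      have h1 : r • (v : M) = r • (w : M) := congrArg Subtype.val hvw
      exact Subtype.ext ((smul_right_inj hr).mp h1)
    exact LinearMap.finrank_le_finrank_of_injective hf
  · exact Submodule.finrank_mono (le_sat N)

/-- the saturation of the span of a linearly independent family of size `k` has rank `k`. -/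
theorem finrank_sat_span {k : ℕ} {f : Fin k → M} (hf : LinearIndependent R f) :
    Module.finrank R (sat (Submodule.span R (Set.range f))) = k := by
  rw [finrank_sat, finrank_span_eq_card hf, Fintype.card_fin]

end Sat

section MatRep

variable {R : Type} [CommRing R] {G : Type} [Group G] {M : Type} [AddCommGroup M] [Module R M]

/-- restriction of a representation to a stable submodule -/
def restrictRep (ρ : G →* Module.End R M) (N : Submodule R M)
    (hN : ∀ g, ∀ v ∈ N, ρ g v ∈ N) : G →* Module.End R N where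
  toFun g := (ρ g).restrict (hN g)
  map_one' := by
    ext v
    simp
  map_mul' g h := by
    ext v
    simp [map_mul]

theorem restrictRep_coe (ρ : G →* Module.End R M) (N : Submodule R M)
    (hN : ∀ g, ∀ v ∈ N, ρ g v ∈ N) (g : G) (v : N) :
    ((restrictRep ρ N hN g v : N) : M) = ρ g (v : M) := rfl

theorem restrictRep_rel {ρ : G →* Module.End R M} {N : Submodule R M}
    {hN : ∀ g, ∀ v ∈ N, ρ g v ∈ N} {g : G} {b e : R}
    (h : ρ g * ρ g - b • ρ g + e • (1 : Module.End R M) = 0) :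
    restrictRep ρ N hN g * restrictRep ρ N hN g - b • restrictRep ρ N hN g
      + e • (1 : Module.End R N) = 0 := by
  ext v
  have h1 := congrArg (fun t : Module.End R M => t (v : M)) h
  simp only [LinearMap.add_apply, LinearMap.sub_apply, Module.End.mul_apply,
    LinearMap.smul_apply, Module.End.one_apply, LinearMap.zero_apply] at h1
  simp only [LinearMap.add_apply, LinearMap.sub_apply, Module.End.mul_apply,
    LinearMap.smul_apply, Module.End.one_apply, LinearMap.zero_apply, Submodule.coe_add,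
    Submodule.coe_sub, Submodule.coe_smul, restrictRep_coe, ZeroMemClass.coe_zero]
  exact h1

theorem restrictRep_eq_one {ρ : G →* Module.End R M} {N : Submodule R M}
    {hN : ∀ g, ∀ v ∈ N, ρ g v ∈ N} {g : G} (h : ρ g = 1) : restrictRep ρ N hN g = 1 := by
  ext v
  rw [restrictRep_coe, h]
  rfl

/-- The matrix form of a representation in a basis. -/
noncomputable def matRep {V : Type} [AddCommGroup V] [Module R V] {n : ℕ}
    (e : Module.Basis (Fin n) R V) (ρ : G →* Module.End R V) :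
    G →* Matrix (Fin n) (Fin n) R where
  toFun g := LinearMap.toMatrix e e (ρ g)
  map_one' := by rw [map_one]; exact LinearMap.toMatrix_one e
  map_mul' g h := by rw [map_mul]; exact LinearMap.toMatrix_mul e (ρ g) (ρ h)

theorem matRep_apply {V : Type} [AddCommGroup V] [Module R V] {n : ℕ}
    (e : Module.Basis (Fin n) R V) (ρ : G →* Module.End R V) (g : G) :
    matRep e ρ g = LinearMap.toMatrix e e (ρ g) := rfl

theorem matRep_rel {V : Type} [AddCommGroup V] [Module R V] {n : ℕ}
    (e : Module.Basis (Fin n) R V) {ρ : G →* Module.End R V} {g : G}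
    {b c : R} (h : ρ g * ρ g - b • ρ g + c • (1 : Module.End R V) = 0) :
    matRep e ρ g * matRep e ρ g - b • matRep e ρ g + c • (1 : Matrix (Fin n) (Fin n) R) = 0 := by
  have h1 := congrArg (LinearMap.toMatrix e e) h
  rw [map_add, map_sub, map_smul, map_smul, LinearMap.toMatrix_mul, LinearMap.toMatrix_one,
    map_zero] at h1
  exact h1

theorem matRep_eq_smul_one_iff {V : Type} [AddCommGroup V] [Module R V] {n : ℕ}
    (e : Module.Basis (Fin n) R V) (ρ : G →* Module.End R V) (g : G) (s : R) :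
    matRep e ρ g = s • (1 : Matrix (Fin n) (Fin n) R) ↔ ρ g = s • (1 : Module.End R V) := by
  rw [matRep_apply]
  constructor
  · intro h
    apply (LinearMap.toMatrix e e).injective
    rw [h, map_smul, LinearMap.toMatrix_one]
  · intro h
    rw [h, map_smul, LinearMap.toMatrix_one]

/-- The linear representation on `Fin 2 → R` attached to a matrix representation. -/
noncomputable def linOfMat (A : G →* Matrix (Fin 2) (Fin 2) R) :
    G →* Module.End R (Fin 2 → R) where
  toFun g := Matrix.toLin' (A g)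
  map_one' := by rw [map_one, Matrix.toLin'_one]; rfl
  map_mul' g h := by rw [map_mul, Matrix.toLin'_mul]; rfl

theorem linOfMat_apply (A : G →* Matrix (Fin 2) (Fin 2) R) (g : G) :
    linOfMat A g = Matrix.toLin' (A g) := rfl

theorem charpoly_linOfMat (A : G →* Matrix (Fin 2) (Fin 2) R) (g : G) :
    LinearMap.charpoly (linOfMat A g) = (A g).charpoly := by
  rw [linOfMat_apply]
  exact Matrix.charpoly_toLin' (A g)

theorem linOfMat_eq_one (A : G →* Matrix (Fin 2) (Fin 2) R) {g : G} (h : A g = 1) :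
    linOfMat A g = 1 := by
  rw [linOfMat_apply, h, Matrix.toLin'_one]; rfl

/-- a vector with coordinates in `I` lies in `I • ⊤`. -/
theorem pi_mem_smul_top {k : ℕ} (I : Ideal R) (w : Fin k → R) (hw : ∀ i, w i ∈ I) :
    w ∈ I • (⊤ : Submodule R (Fin k → R)) := by
  have e : w = ∑ i, w i • (Pi.single i (1 : R) : Fin k → R) := by
    funext j
    simp [Finset.sum_apply, Pi.single_apply]
  rw [e]
  exact Submodule.sum_mem _ fun i _ => Submodule.smul_mem_smul (hw i) Submodule.mem_top

theorem linOfMat_sub_mem (A : G →* Matrix (Fin 2) (Fin 2) R) (I : Ideal R) (g : G)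
    (hA : ∀ i j, (A g - 1) i j ∈ I) (w : Fin 2 → R) :
    linOfMat A g w - w ∈ I • (⊤ : Submodule R (Fin 2 → R)) := by
  have e : linOfMat A g w - w = (A g - 1).mulVec w := by
    rw [linOfMat_apply, Matrix.toLin'_apply, Matrix.sub_mulVec, Matrix.one_mulVec]
  rw [e]
  refine pi_mem_smul_top I _ fun i => ?_
  rw [Matrix.mulVec, dotProduct]
  exact Ideal.sum_mem _ fun j _ => Ideal.mul_mem_right _ _ (hA i j)

end MatRep

section DVR

variable {R : Type} [CommRing R] [IsDomain R] [IsDiscreteValuationRing R]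
  {G : Type} [Group G] {M : Type} [AddCommGroup M] [Module R M]

theorem mem_pow_smul_top_iff {ϖ : R} (hϖ : Irreducible ϖ) (n : ℕ) (v : M) :
    v ∈ (IsLocalRing.maximalIdeal R ^ n) • (⊤ : Submodule R M) ↔ ∃ z : M, ϖ ^ n • z = v := by
  rw [hϖ.maximalIdeal_eq, Ideal.span_singleton_pow, Submodule.ideal_span_singleton_smul,
    Submodule.mem_smul_pointwise_iff_exists]
  simp

/-- continuity passes to the matrix of the restriction to a saturated stable submodule. -/
theorem matRep_sub_one_mem {ρ : G →* Module.End R M} {N : Submodule R M}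
    (hN : ∀ g, ∀ v ∈ N, ρ g v ∈ N)
    (hsat : ∀ (r : R) (v : M), r ≠ 0 → r • v ∈ N → v ∈ N) {k : ℕ}
    (e : Module.Basis (Fin k) R N) (g : G) (n : ℕ)
    (hg : ∀ v : M, ρ g v - v ∈ (IsLocalRing.maximalIdeal R ^ n) • (⊤ : Submodule R M))
    (i j : Fin k) :
    (matRep e (restrictRep ρ N hN) g - 1) i j ∈ IsLocalRing.maximalIdeal R ^ n := by
  obtain ⟨ϖ, hϖ⟩ := IsDiscreteValuationRing.exists_irreducible R
  obtain ⟨z, hz⟩ := (mem_pow_smul_top_iff hϖ n _).mp (hg (e j : M))
  have hzN : z ∈ N := by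
    refine hsat (ϖ ^ n) z (pow_ne_zero _ hϖ.ne_zero) ?_
    rw [hz]
    exact N.sub_mem (hN g _ (e j).2) (e j).2
  have h1 : restrictRep ρ N hN g (e j) = e j + ϖ ^ n • (⟨z, hzN⟩ : N) := by
    apply Subtype.ext
    rw [restrictRep_coe, Submodule.coe_add, Submodule.coe_smul, hz]
    abel
  have h2 : (matRep e (restrictRep ρ N hN) g - 1) i j = ϖ ^ n * e.repr ⟨z, hzN⟩ i := by
    rw [Matrix.sub_apply, matRep_apply, LinearMap.toMatrix_apply, h1, map_add, map_smul,
      Module.Basis.repr_self, Finsupp.add_apply, Finsupp.smul_apply, smul_eq_mul,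
      Matrix.one_apply, Finsupp.single_apply]
    by_cases hij : i = j
    · subst hij
      simp
    · have hji : ¬ j = i := fun h => hij h.symm
      simp [hij, hji]
  rw [h2]
  refine Ideal.mul_mem_right _ _ (Ideal.pow_mem_pow ?_ n)
  rw [hϖ.maximalIdeal_eq]
  exact Ideal.mem_span_singleton_self ϖ

end DVR

section TwoByTwo

variable {R : Type} [CommRing R]

/-- Cayley–Hamilton for `2 × 2` matrices. -/
theorem cayley_hamilton_fin_two [Nontrivial R] (A : Matrix (Fin 2) (Fin 2) R) :
    A * A - A.trace • A + A.det • (1 : Matrix (Fin 2) (Fin 2) R) = 0 := by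
  have h := Matrix.aeval_self_charpoly A
  rw [Matrix.charpoly_fin_two] at h
  simp only [map_add, map_sub, map_mul, aeval_X, aeval_C, pow_two,
    Algebra.algebraMap_eq_smul_one, smul_mul_assoc, one_mul] at h
  exact h

/-- A `2 × 2` matrix over a domain killed by `X ^ 2 - b X + d` is a scalar or has trace `b`. -/
theorem scalar_or_trace_eq [IsDomain R] {A : Matrix (Fin 2) (Fin 2) R} {b d : R}
    (h : A * A - b • A + d • (1 : Matrix (Fin 2) (Fin 2) R) = 0) :
    A = (A 0 0) • (1 : Matrix (Fin 2) (Fin 2) R) ∨ A.trace = b := by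
  have hCH := cayley_hamilton_fin_two A
  have h1 : (A.trace - b) • A = (A.det - d) • (1 : Matrix (Fin 2) (Fin 2) R) := by
    linear_combination (norm := module) h - hCH
  by_cases hne : A.trace = b
  · exact Or.inr hne
  · left
    have hne' : A.trace - b ≠ 0 := sub_ne_zero.mpr hne
    have e01 := congrFun (congrFun h1 0) 1
    have e10 := congrFun (congrFun h1 1) 0
    have e00 := congrFun (congrFun h1 0) 0
    have e11 := congrFun (congrFun h1 1) 1
    simp only [Matrix.smul_apply, smul_eq_mul, Matrix.one_apply_eq, mul_one] at e00 e11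
    simp only [Matrix.smul_apply, smul_eq_mul, ne_eq, zero_ne_one, one_ne_zero,
      not_false_eq_true, Matrix.one_apply_ne, mul_zero, mul_eq_zero] at e01 e10
    have a01 : A 0 1 = 0 := e01.resolve_left hne'
    have a10 : A 1 0 = 0 := e10.resolve_left hne'
    have a11 : A 1 1 = A 0 0 := mul_left_cancel₀ hne' (e11.trans e00.symm)
    ext i j
    fin_cases i <;> fin_cases j <;> simp [a01, a10, a11]

theorem det_eq_of_trace_eq [Nontrivial R] {A : Matrix (Fin 2) (Fin 2) R} {b d : R}
    (h : A * A - b • A + d • (1 : Matrix (Fin 2) (Fin 2) R) = 0) (htr : A.trace = b) :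
    A.det = d := by
  have hCH := cayley_hamilton_fin_two A
  have h1 : (A.det - d) • (1 : Matrix (Fin 2) (Fin 2) R) = 0 := by
    rw [htr] at hCH
    linear_combination (norm := module) hCH - h
  have h2 := congrFun (congrFun h1 0) 0
  simp only [Matrix.zero_apply, Matrix.smul_apply, Matrix.one_apply_eq, smul_eq_mul,
    mul_one] at h2
  exact sub_eq_zero.mp h2

theorem charpoly_of_trace_det [Nontrivial R] {A : Matrix (Fin 2) (Fin 2) R} {b d : R}
    (htr : A.trace = b) (hdet : A.det = d) : A.charpoly = X ^ 2 - C b * X + C d := by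
  rw [Matrix.charpoly_fin_two, htr, hdet]

end TwoByTwo

section Final

variable {𝒪 : Type} [CommRing 𝒪] [IsDomain 𝒪] [IsDiscreteValuationRing 𝒪] [CharZero 𝒪]
  {G : Type} [Group G] {Λ : Type} [AddCommGroup Λ] [Module 𝒪 Λ] [Module.Free 𝒪 Λ]
  [Module.Finite 𝒪 Λ] [Nontrivial Λ]
  {ρ : G →* Module.End 𝒪 Λ} {d : G →* 𝒪ˣ} {b : G → 𝒪} {c : G}

/-- The conclusion of `QuadRepOddStatement`. -/
def Conclusion (ρ : G →* Module.End 𝒪 Λ) (d : G →* 𝒪ˣ) : Prop :=
  ∃ ρ' : G →* Module.End 𝒪 (Fin 2 → 𝒪),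
    (∀ (g : G) (b : 𝒪),
      ρ g * ρ g - b • ρ g + ((d g : 𝒪ˣ) : 𝒪) • (1 : Module.End 𝒪 Λ) = 0 →
        LinearMap.charpoly (ρ' g) = X ^ 2 - C b * X + C ((d g : 𝒪ˣ) : 𝒪)) ∧
    (∀ (g : G) (n : ℕ),
      (∀ v : Λ, ρ g v - v ∈ (IsLocalRing.maximalIdeal 𝒪 ^ n) • (⊤ : Submodule 𝒪 Λ)) →
      ((d g : 𝒪ˣ) : 𝒪) - 1 ∈ IsLocalRing.maximalIdeal 𝒪 ^ n →
        ∀ w : Fin 2 → 𝒪, ρ' g w - w ∈
          (IsLocalRing.maximalIdeal 𝒪 ^ n) • (⊤ : Submodule 𝒪 (Fin 2 → 𝒪))) ∧
    (∀ g : G, ρ g = 1 → d g = 1 → ρ' g = 1)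

theorem Rel.unique (h : Rel ρ d b) {g : G} {b' : 𝒪}
    (h' : ρ g * ρ g - b' • ρ g + ((d g : 𝒪ˣ) : 𝒪) • (1 : Module.End 𝒪 Λ) = 0) : b' = b g := by
  have h1 := h g
  have h2 : (b g - b') • ρ g = 0 := by linear_combination (norm := module) h' - h1
  obtain ⟨v, hv⟩ := exists_ne (0 : Λ)
  have h3 : (b g - b') • ρ g (ρ g⁻¹ v) = 0 := by
    simpa using congrArg (fun t : Module.End 𝒪 Λ => t (ρ g⁻¹ v)) h2
  have h4 : ρ g (ρ g⁻¹ v) = v := by
    rw [← Module.End.mul_apply, ← map_mul, mul_inv_cancel, map_one]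
    rfl
  rw [h4] at h3
  have := (smul_eq_zero.mp h3).resolve_right hv
  exact (sub_eq_zero.mp this).symm

theorem conclusion_of_mat (h : Rel ρ d b) (A : G →* Matrix (Fin 2) (Fin 2) 𝒪)
    (hchar : ∀ g, (A g).charpoly = X ^ 2 - C (b g) * X + C ((d g : 𝒪ˣ) : 𝒪))
    (hcont : ∀ (g : G) (n : ℕ),
      (∀ v : Λ, ρ g v - v ∈ (IsLocalRing.maximalIdeal 𝒪 ^ n) • (⊤ : Submodule 𝒪 Λ)) →
      ((d g : 𝒪ˣ) : 𝒪) - 1 ∈ IsLocalRing.maximalIdeal 𝒪 ^ n →
        ∀ i j, (A g - 1) i j ∈ IsLocalRing.maximalIdeal 𝒪 ^ n)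
    (htriv : ∀ g, ρ g = 1 → d g = 1 → A g = 1) : Conclusion ρ d :=
  ⟨linOfMat A, fun g b' hb' => by rw [charpoly_linOfMat, hchar, h.unique hb'],
    fun g n h1 h2 w => linOfMat_sub_mem A _ g (hcont g n h1 h2) w,
    fun g h1 h2 => linOfMat_eq_one A (htriv g h1 h2)⟩

/-- the rank-two case -/
theorem conclusion_of_plane (h : Rel ρ d b) (hbc : b c = 0) {u w : Λ}
    (hu : ρ c u = u) (hw : ρ c w = -w) (hu0 : u ≠ 0) (hw0 : w ≠ 0)
    (hstab : ∀ g, ρ g u ∈ sat (Submodule.span 𝒪 (Set.range ![u, w])) ∧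
      ρ g w ∈ sat (Submodule.span 𝒪 (Set.range ![u, w]))) : Conclusion ρ d := by
  have h2 : (2 : 𝒪) ≠ 0 := two_ne_zero
  have hf : LinearIndependent 𝒪 ![u, w] := by
    rw [LinearIndependent.pair_iff]
    intro s t hst
    have h1 := congrArg (ρ c) hst
    rw [map_add, map_smul, map_smul, hu, hw, map_zero] at h1
    have hs : (2 * s) • u = 0 := by
      have : (2 * s) • u = (s • u + t • w) + (s • u + t • -w) := by
        rw [smul_neg]
        module
      rw [this, hst, h1, add_zero]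
    have hs0 : s = 0 := by
      rcases smul_eq_zero.mp hs with h3 | h3
      · exact (mul_eq_zero.mp h3).resolve_left h2
      · exact absurd h3 hu0
    rw [hs0, zero_smul, zero_add] at hst
    exact ⟨hs0, (smul_eq_zero.mp hst).resolve_right hw0⟩
  have hrank := finrank_sat_span hf
  set N := sat (Submodule.span 𝒪 (Set.range ![u, w])) with hNdef
  have hN : ∀ g, ∀ v ∈ N, ρ g v ∈ N := fun g =>
    sat_stable (ρ g) (Set.range ![u, w]) (by
      rintro s ⟨i, rfl⟩
      fin_cases i
      · exact (hstab g).1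
      · exact (hstab g).2)
  have hsat : ∀ (r : 𝒪) (v : Λ), r ≠ 0 → r • v ∈ N → v ∈ N := fun r v hr hv =>
    sat_of_smul_mem hr hv
  have huN : u ∈ N := le_sat _ (Submodule.subset_span ⟨0, rfl⟩)
  have hwN : w ∈ N := le_sat _ (Submodule.subset_span ⟨1, rfl⟩)
  let e : Module.Basis (Fin 2) 𝒪 N := Module.finBasisOfFinrankEq 𝒪 N hrank
  refine conclusion_of_mat h (matRep e (restrictRep ρ N hN)) (fun g => ?_)
    (fun g n h1 _ => matRep_sub_one_mem hN hsat e g n h1)
    (fun g h1 _ => by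
      rw [matRep_apply, restrictRep_eq_one h1]
      exact LinearMap.toMatrix_one e)
  have hrel := matRep_rel e (restrictRep_rel (N := N) (hN := hN) (h g))
  have htr : (matRep e (restrictRep ρ N hN) g).trace = b g := by
    rcases scalar_or_trace_eq hrel with hsc | htr
    · set lam := (matRep e (restrictRep ρ N hN) g) 0 0 with hlam
      have h3 := (matRep_eq_smul_one_iff e (restrictRep ρ N hN) g lam).mp hsc
      have hgu : ρ g u = lam • u := by
        have := congrArg (fun t : Module.End 𝒪 N => ((t ⟨u, huN⟩ : N) : Λ)) h3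
        simpa [restrictRep_coe] using this
      have hgw : ρ g w = lam • w := by
        have := congrArg (fun t : Module.End 𝒪 N => ((t ⟨w, hwN⟩ : N) : Λ)) h3
        simpa [restrictRep_coe] using this
      have hp := plus_part h hbc g hu
      rw [hgu, map_smul, hu, ← add_smul] at hp
      have hp' := smul_left_injective 𝒪 hu0 hp
      have hm := minus_part h hbc g hw
      rw [hgw, map_smul, hw, smul_neg, sub_neg_eq_add, ← add_smul] at hm
      have hm' := smul_left_injective 𝒪 hw0 hm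
      have h4 : 2 * (2 * lam) = 2 * b g := by linear_combination hp' + hm'
      have h5 : 2 * lam = b g := mul_left_cancel₀ h2 h4
      rw [hsc, Matrix.trace_smul, Matrix.trace_one, Fintype.card_fin, smul_eq_mul, ← h5]
      push_cast
      ring
    · exact htr
  exact charpoly_of_trace_det htr (det_eq_of_trace_eq hrel htr)

end Final

section Line

variable {𝒪 : Type} [CommRing 𝒪] [IsDomain 𝒪] [IsDiscreteValuationRing 𝒪] [CharZero 𝒪]
  {G : Type} [Group G] {Λ : Type} [AddCommGroup Λ] [Module 𝒪 Λ] [Module.Free 𝒪 Λ]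
  [Module.Finite 𝒪 Λ] [Nontrivial Λ]
  {ρ : G →* Module.End 𝒪 Λ} {d : G →* 𝒪ˣ} {b : G → 𝒪} {c : G}

/-- the character of a `1 × 1` matrix representation -/
def charOfMat (A : G →* Matrix (Fin 1) (Fin 1) 𝒪) : G →* 𝒪 where
  toFun g := A g 0 0
  map_one' := by rw [map_one]; rfl
  map_mul' g h := by
    rw [map_mul, Matrix.mul_apply]
    simp

theorem charOfMat_apply (A : G →* Matrix (Fin 1) (Fin 1) 𝒪) (g : G) :
    charOfMat A g = A g 0 0 := rfl

/-- the diagonal representation `diag(ψ, d ψ⁻¹)` -/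
def diagRep (ψ : G →* 𝒪ˣ) (d : G →* 𝒪ˣ) : G →* Matrix (Fin 2) (Fin 2) 𝒪 where
  toFun g := !![((ψ g : 𝒪ˣ) : 𝒪), 0; 0, ((d g * (ψ g)⁻¹ : 𝒪ˣ) : 𝒪)]
  map_one' := by
    simp [Matrix.one_fin_two]
  map_mul' g h := by
    rw [Matrix.mul_fin_two]
    simp only [map_mul, mul_inv_rev, Units.val_mul, mul_zero, add_zero, zero_mul, zero_add]
    congr 1
    ext i j
    fin_cases i <;> fin_cases j <;> simp
    ring

theorem diagRep_apply (ψ : G →* 𝒪ˣ) (d : G →* 𝒪ˣ) (g : G) :
    diagRep ψ d g = !![((ψ g : 𝒪ˣ) : 𝒪), 0; 0, ((d g * (ψ g)⁻¹ : 𝒪ˣ) : 𝒪)] := rfl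

/-- the rank-one case -/
theorem conclusion_of_line (h : Rel ρ d b) {v : Λ} (hv0 : v ≠ 0)
    (hstab : ∀ g, ρ g v ∈ sat (Submodule.span 𝒪 (Set.range ![v]))) : Conclusion ρ d := by
  have hf : LinearIndependent 𝒪 ![v] := by
    rw [linearIndependent_unique_iff]
    simpa using hv0
  have hrank := finrank_sat_span hf
  set N := sat (Submodule.span 𝒪 (Set.range ![v])) with hNdef
  have hN : ∀ g, ∀ z ∈ N, ρ g z ∈ N := fun g =>
    sat_stable (ρ g) (Set.range ![v]) (by
      rintro s ⟨i, rfl⟩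
      fin_cases i
      exact hstab g)
  have hsat : ∀ (r : 𝒪) (z : Λ), r ≠ 0 → r • z ∈ N → z ∈ N := fun r z hr hz =>
    sat_of_smul_mem hr hz
  let e : Module.Basis (Fin 1) 𝒪 N := Module.finBasisOfFinrankEq 𝒪 N hrank
  set A := matRep e (restrictRep ρ N hN) with hA
  set ψ := (charOfMat A).toHomUnits with hψ
  have hψA : ∀ g, ((ψ g : 𝒪ˣ) : 𝒪) = A g 0 0 := fun g => rfl
  have hrel : ∀ g, ((ψ g : 𝒪ˣ) : 𝒪) * ((ψ g : 𝒪ˣ) : 𝒪) - b g * ((ψ g : 𝒪ˣ) : 𝒪)
      + ((d g : 𝒪ˣ) : 𝒪) = 0 := by
    intro g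
    have h1 := matRep_rel e (restrictRep_rel (N := N) (hN := hN) (h g))
    have h2 := congrFun (congrFun h1 0) 0
    simp only [Matrix.add_apply, Matrix.sub_apply, Matrix.mul_apply, Matrix.smul_apply,
      Matrix.one_apply_eq, Matrix.zero_apply, smul_eq_mul, mul_one, Finset.univ_unique,
      Fin.default_eq_zero, Finset.sum_singleton] at h2
    rw [hψA]
    exact h2
  have hinv : ∀ g, ((ψ g : 𝒪ˣ) : 𝒪) * (((ψ g)⁻¹ : 𝒪ˣ) : 𝒪) = 1 := fun g => by
    rw [← Units.val_mul, mul_inv_cancel, Units.val_one]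
  refine conclusion_of_mat h (diagRep ψ d) (fun g => ?_) (fun g n h1 h2 i j => ?_)
    (fun g h1 h2 => ?_)
  · refine charpoly_of_trace_det ?_ ?_
    · rw [diagRep_apply, Matrix.trace_fin_two_of, Units.val_mul]
      linear_combination (((ψ g)⁻¹ : 𝒪ˣ) : 𝒪) * hrel g - (((ψ g : 𝒪ˣ) : 𝒪) - b g) * hinv g
    · rw [diagRep_apply, Matrix.det_fin_two_of, Units.val_mul]
      linear_combination ((d g : 𝒪ˣ) : 𝒪) * hinv g
  · have hp : ((ψ g : 𝒪ˣ) : 𝒪) - 1 ∈ IsLocalRing.maximalIdeal 𝒪 ^ n := by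
      have := matRep_sub_one_mem hN hsat e g n h1 0 0
      rw [Matrix.sub_apply, Matrix.one_apply_eq] at this
      exact this
    have hq : ((d g * (ψ g)⁻¹ : 𝒪ˣ) : 𝒪) - 1 ∈ IsLocalRing.maximalIdeal 𝒪 ^ n := by
      have e1 : ((d g * (ψ g)⁻¹ : 𝒪ˣ) : 𝒪) - 1 =
          (((ψ g)⁻¹ : 𝒪ˣ) : 𝒪) * ((((d g : 𝒪ˣ) : 𝒪) - 1) - (((ψ g : 𝒪ˣ) : 𝒪) - 1)) := by
        rw [Units.val_mul]
        linear_combination hinv g
      rw [e1]
      exact Ideal.mul_mem_left _ _ (Ideal.sub_mem _ h2 hp)
    rw [diagRep_apply]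
    fin_cases i <;> fin_cases j
    · simpa using hp
    · simp
    · simp
    · simpa using hq
  · have h3 : A g = 1 := by
      rw [hA, matRep_apply, restrictRep_eq_one h1]
      exact LinearMap.toMatrix_one e
    have h4 : ψ g = 1 := by
      apply Units.ext
      rw [hψA, h3]
      rfl
    rw [diagRep_apply, h4, h2]
    simp [Matrix.one_fin_two]

end Line

section Main

variable {𝒪 : Type} [CommRing 𝒪] [IsDomain 𝒪] [IsDiscreteValuationRing 𝒪] [CharZero 𝒪]
  {G : Type} [Group G] {Λ : Type} [AddCommGroup Λ] [Module 𝒪 Λ] [Module.Free 𝒪 Λ]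
  [Module.Finite 𝒪 Λ] [Nontrivial Λ]
  {ρ : G →* Module.End 𝒪 Λ} {d : G →* 𝒪ˣ} {b : G → 𝒪} {c : G}

theorem smul_mem_span_single (s : 𝒪) (v : Λ) :
    s • v ∈ Submodule.span 𝒪 (Set.range ![v]) :=
  Submodule.smul_mem _ _ (Submodule.subset_span ⟨0, rfl⟩)

theorem smul_add_smul_mem_span_pair (s t : 𝒪) (u w : Λ) :
    s • u + t • w ∈ Submodule.span 𝒪 (Set.range ![u, w]) :=
  Submodule.add_mem _ (Submodule.smul_mem _ _ (Submodule.subset_span ⟨0, rfl⟩))
    (Submodule.smul_mem _ _ (Submodule.subset_span ⟨1, rfl⟩))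

theorem conclusion_of_rel (h : Rel ρ d b) (hc : c * c = 1) (hd : d c = -1) :
    Conclusion ρ d := by
  have h2 : (2 : 𝒪) ≠ 0 := two_ne_zero
  have hbc : b c = 0 := b_c_eq_zero h hc hd
  by_cases hplus : ∃ u : Λ, u ≠ 0 ∧ ρ c u = u
  · obtain ⟨u, hu0, hu⟩ := hplus
    by_cases hC : ∀ g, ρ g u - ρ c (ρ g u) = 0
    · -- the line through `u` is stable
      refine conclusion_of_line h hu0 fun g => ⟨2, h2, ?_⟩
      have e : (2 : 𝒪) • ρ g u = (b (c * g) + b g) • u := by
        rw [← plus_part h hbc g hu]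
        have := hC g
        have e' : (2 : 𝒪) • ρ g u = (ρ c (ρ g u) + ρ g u) + (ρ g u - ρ c (ρ g u)) := by module
        rw [e', this, add_zero]
      rw [e]
      exact smul_mem_span_single _ _
    · obtain ⟨h₀, hw0⟩ := not_forall.mp hC
      have hw : ρ c (ρ h₀ u - ρ c (ρ h₀ u)) = -(ρ h₀ u - ρ c (ρ h₀ u)) := minus_mem hc _
      by_cases hB : ∀ g, ρ c (ρ g (ρ h₀ u - ρ c (ρ h₀ u))) + ρ g (ρ h₀ u - ρ c (ρ h₀ u)) = 0
      · -- the line through `w` is stable
        refine conclusion_of_line h hw0 fun g => ⟨2, h2, ?_⟩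
        have e : (2 : 𝒪) • ρ g (ρ h₀ u - ρ c (ρ h₀ u)) =
            (b g - b (c * g)) • (ρ h₀ u - ρ c (ρ h₀ u)) := by
          rw [← minus_part h hbc g hw]
          have := hB g
          have e' : (2 : 𝒪) • ρ g (ρ h₀ u - ρ c (ρ h₀ u)) =
              (ρ c (ρ g (ρ h₀ u - ρ c (ρ h₀ u))) + ρ g (ρ h₀ u - ρ c (ρ h₀ u))) +
              (ρ g (ρ h₀ u - ρ c (ρ h₀ u)) - ρ c (ρ g (ρ h₀ u - ρ c (ρ h₀ u)))) := by module
          rw [e', this, zero_add]
        rw [e]
        exact smul_mem_span_single _ _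
      · obtain ⟨h₁, hu'⟩ := not_forall.mp hB
        have hξ := plus_minus h hbc h₁ h₀ hu
        set w := ρ h₀ u - ρ c (ρ h₀ u) with hwdef
        set ξ := 2 * (b (c * (h₁ * h₀)) + b (h₁ * h₀)) -
          (b (c * h₁) + b h₁) * (b (c * h₀) + b h₀) with hξdef
        have hξ0 : ξ ≠ 0 := by
          intro h0
          rw [h0, zero_smul] at hξ
          exact hu' hξ
        refine conclusion_of_plane h hbc hu hw hu0 hw0 fun g => ⟨?_, ?_⟩
        · -- `ρ g u`
          refine ⟨2 * ξ, mul_ne_zero h2 hξ0, ?_⟩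
          have hmp := minus_plus h hbc g h₁ hw
          simp only [hξ, map_smul] at hmp
          rw [← smul_sub] at hmp
          have e : (2 * ξ) • ρ g u = (ξ * (b (c * g) + b g)) • u +
              (2 * (b (g * h₁) - b (c * (g * h₁))) - (b g - b (c * g)) * (b h₁ - b (c * h₁))) •
                w := by
            rw [← hmp, mul_smul ξ, ← plus_part h hbc g hu]
            module
          rw [e]
          exact smul_add_smul_mem_span_pair _ _ _ _
        · -- `ρ g w`
          refine ⟨2, h2, ?_⟩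
          have hpm := plus_minus h hbc g h₀ hu
          rw [← hwdef] at hpm
          have e : (2 : 𝒪) • ρ g w =
              (2 * (b (c * (g * h₀)) + b (g * h₀)) - (b (c * g) + b g) * (b (c * h₀) + b h₀)) •
                u + (b g - b (c * g)) • w := by
            rw [← hpm, ← minus_part h hbc g hw]
            module
          rw [e]
          exact smul_add_smul_mem_span_pair _ _ _ _
  · -- no `+1`-eigenvector: `ρ c = -1`
    obtain ⟨v, hv0⟩ := exists_ne (0 : Λ)
    have hx : ∀ z : Λ, ρ c z + z = 0 := fun z => by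
      by_contra hz
      exact hplus ⟨_, hz, plus_mem hc z⟩
    have hv : ρ c v = -v := eq_neg_of_add_eq_zero_left (hx v)
    refine conclusion_of_line h hv0 fun g => ⟨2, h2, ?_⟩
    have e : (2 : 𝒪) • ρ g v = (b g - b (c * g)) • v := by
      rw [← minus_part h hbc g hv]
      have := hx (ρ g v)
      have e' : (2 : 𝒪) • ρ g v = (ρ c (ρ g v) + ρ g v) + (ρ g v - ρ c (ρ g v)) := by module
      rw [e', this, zero_add]
    rw [e]
    exact smul_mem_span_single _ _

end Main

end Fermat.Agent.S30.QRO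

namespace Fermat.Agent.S30

/-- **A1 (QuadRepOdd).** -/
theorem quadRepOdd : QuadRepOddStatement := by
  intro 𝒪 _ _ _ _ G _ Λ _ _ _ _ _ ρ d c hc hd hex
  choose b hb using hex
  exact QRO.conclusion_of_rel (b := b) hb hc hd

end Fermat.Agent.S30
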