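import Fermat.Agent.S30.Assembly
import Fermat.Agent.S30.QuadRepOdd
import Fermat.Agent.S30.PackageAdic
import Fermat.Agent.Jac.FinalTFL
import Fermat.Agent.Red.HKGal

/-!
# P-GALREP: the remaining inputs

`geometricInputsFull_of` : the geometric inputs of P-GALREP from the three statements which are
still open (commutativity of the Hecke operators on `J₀(N)`, the Eichler–Shimura relation on
torsion points, the lattice form of the key lemma); finiteness of the torsion and the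
compatibility of the Hecke operators with Galois are landed.

`s30_of_geometry` : S30 from the geometric inputs (A1 `quadRepOdd` and A4 `packageAdic` are
landed).

Author: helper30.
-/

set_option autoImplicit false

open Polynomial

namespace Fermat.Agent.S30

open Fermat.Agent.S29 (GQ HeckeGaloisCommute EichlerShimuraTorsion TorsionFiniteLevel)
open Fermat.Agent.S31 (HeckeKeyLattice)

/-- The geometric inputs from the three open statements. -/
theorem geometricInputsFull_of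
    (hComm : ∀ (N : ℕ) [NeZero N], ModularCurve.HeckeOperatorsCommuteBar N)
    (hES : ∀ (N p : ℕ) [NeZero N], p.Prime → EichlerShimuraTorsion N p)
    (hKL : ∀ (N : ℕ) [NeZero N], ModularCurve.HeckeOperatorsCommuteBar N → HeckeKeyLattice N) :
    GeometricInputsFull :=
  ⟨fun N _ => ⟨hComm N, fun ℓ σ x => Fermat.Agent.Red.HKGal.heckeOperatorBar_galois N ℓ σ x⟩, hES,
    fun N n _ hn => Fermat.Agent.Jac.torsionFiniteLevel N n hn, fun N _ => hKL N (hComm N)⟩

/-- S30 from the geometric inputs. -/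
theorem s30_of_geometry (h : GeometricInputsFull) :
    ∀ (p : ℕ) [Fact p.Prime] (N : ℕ) [NeZero N] (S : Finset ℕ)
      (_hpS : p ∈ S) (_hNS : ∀ q : ℕ, q.Prime → q ∣ N → q ∈ S)
      (𝒪' : Type) [CommRing 𝒪'] [IsDomain 𝒪'] [IsDiscreteValuationRing 𝒪']
      [IsAdicComplete (IsLocalRing.maximalIdeal 𝒪') 𝒪'] [Finite (IsLocalRing.ResidueField 𝒪')]
      [CharZero 𝒪'] (_hp𝒪' : (p : 𝒪') ∈ IsLocalRing.maximalIdeal 𝒪')
      (χ : CuspForm.heckeAlgebra N 2 (↑S : Set ℕ) →+* 𝒪'),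
      ∃ (𝒪'' : Type) (_ : CommRing 𝒪'') (_ : IsDomain 𝒪'') (_ : IsDiscreteValuationRing 𝒪'')
        (_ : IsAdicComplete (IsLocalRing.maximalIdeal 𝒪'') 𝒪'')
        (_ : Finite (IsLocalRing.ResidueField 𝒪'')) (_ : CharZero 𝒪'')
        (_ : Algebra 𝒪' 𝒪'') (_ : Module.Finite 𝒪' 𝒪'') (_ : IsLocalHom (algebraMap 𝒪' 𝒪'')),
      Function.Injective (algebraMap 𝒪' 𝒪'') ∧
      ∃ ρ : GaloisRepAdic 𝒪'',
        (∀ (ℓ : ℕ) (hℓ : ℓ.Prime) (hℓN : ¬ ℓ ∣ N) (hℓS : ℓ ∉ (↑S : Set ℕ)),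
          ∀ A : ValuationSubring (AlgebraicClosure ℚ), A.LiesOverPrime ℓ →
            ∀ σ : AlgebraicClosure ℚ ≃ₐ[ℚ] AlgebraicClosure ℚ, A.IsFrobeniusAt σ ℓ →
              LinearMap.charpoly (ρ.ρ σ) =
                X ^ 2 - C (algebraMap 𝒪' 𝒪'' (χ (CuspForm.heckeAlgebra.T hℓ hℓN hℓS))) * X
                  + C ((ℓ : 𝒪''))) ∧
        (∀ q : ℕ, q.Prime → ¬ q ∣ N → q ≠ p → ρ.IsUnramifiedAt q) :=
  s30_of quadRepOdd (fun N p _ => packageAdic N p) h

end Fermat.Agent.S30
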