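import Fermat.Agent.S30.Final
import Fermat.Agent.S31.Assembly
import Fermat.Agent.S34.Assembly
import Fermat.Agent.Jac.FinalHK2
import Fermat.Agent.Red.HKComm.Main
import Fermat.Agent.Red.EstI
import Fermat.Agent.Red.EST.Assembly

/-!
# P-GALREP: the geometric inputs from the torsion gate

Landed: commutativity of the Hecke operators and their compatibility with Galois (HK-COMM,
HK-GAL), finiteness of the torsion and the lattice form of the key lemma (IN-JAC), the
congruence for inertia (EST-I) and the assembly of the Eichler–Shimura relation on torsion
points (R-EST).  The only open inputs are the torsion gate `Gate N` and the Kronecker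
congruence in function form `IfaceCongFrobenius N`.

Author: helper30.
-/

set_option autoImplicit false

namespace Fermat.Agent.S30

/-- The geometric inputs of P-GALREP from the gate and the Kronecker congruence. -/
theorem geometricInputsFull_of_gate
    (hG : ∀ (N : ℕ) [NeZero N], Fermat.Agent.S37.Gate N)
    (hF : ∀ (N : ℕ) [NeZero N], Fermat.Agent.S37.IfaceCongFrobenius N) :
    GeometricInputsFull :=
  ⟨fun N _ => Fermat.Agent.Red.HKComm.heckeGaloisCommute N,
    fun N p _ _ => Fermat.Agent.Red.EST.eichlerShimuraTorsion_of' N p (hG N)
      (Fermat.Agent.Red.EstI.ifaceCongInertia N) (hF N),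
    fun N n _ hn => Fermat.Agent.Jac.torsionFiniteLevel N n hn,
    fun N _ => Fermat.Agent.Jac.heckeKeyLattice N
      (Fermat.Agent.Red.HKComm.heckeOperatorsCommuteBar N)⟩

end Fermat.Agent.S30
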