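import Fermat.Agent.S30.GlueGood
import Fermat.Agent.Red.GateGoodFinal
import Fermat.Agent.Red.SM.FinalTID

/-!
# P-GALREP: the geometric inputs from the row `RowTID`

With the gate at good levels reduced to smoothness (R-GATEGOOD) and smoothness reduced to the
existence of the two base coordinates (`RowTID`, R-SM), the geometric inputs of P-GALREP follow
from `RowTID` alone.

Author: helper30.
-/

set_option autoImplicit false

namespace Fermat.Agent.S30

/-- The geometric inputs of P-GALREP from smoothness at good levels. -/
theorem geometricInputsFull_of_smooth (hSM : Fermat.Agent.S37.IfaceSmooth) :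
    GeometricInputsFull :=
  geometricInputsFull_of_gateGood (Fermat.Agent.Red.GG.gateGood_of_smooth hSM)

/-- The geometric inputs of P-GALREP from the existence of the base coordinates. -/
theorem geometricInputsFull_of_rowTID (h : Fermat.Agent.Red.SM.Inst.RowTID) :
    GeometricInputsFull :=
  geometricInputsFull_of_smooth (Fermat.Agent.Red.SM.h13_ifaceSmooth_of_rowTID h)

end Fermat.Agent.S30
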