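import Mathlib

/-!
# P-GALREP, module A4 (PackageAdic): two auxiliary lemmas (Mathlib only)

* `PackageAdicAux.exists_eq_mul_of_isIntegral`: if an element `h` of a commutative ring `T`
  embedded in a ring `E` is `c` times an element of `E` which is integral over `ℤ`, then every
  character of `T` with values in an integrally closed domain sends `h` to a multiple of `c`.
* `PackageAdicAux.exists_eq_smul_of_mem`: membership in `𝔪 ^ n • ⊤` for a module over `ℤ_[p]`.
-/

set_option autoImplicit false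

namespace Fermat.Agent.S30.PackageAdicAux

open Polynomial

/-- A root of a scaled monic integer polynomial in an integrally closed domain is divisible by
the scaling factor. -/
theorem exists_eq_mul_of_scaleRoots {𝒪 : Type*} [CommRing 𝒪] [IsDomain 𝒪]
    [IsIntegrallyClosed 𝒪] (K : Type*) [Field K] [Algebra 𝒪 K] [IsFractionRing 𝒪 K]
    (a : 𝒪) (c : ℤ) (hc : (c : 𝒪) ≠ 0) (m : ℤ[X]) (hm : m.Monic)
    (h : Polynomial.aeval a (Polynomial.scaleRoots m c) = 0) : ∃ y : 𝒪, a = (c : 𝒪) * y := by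
  have hinj : Function.Injective (algebraMap 𝒪 K) := IsFractionRing.injective 𝒪 K
  have h3 : Polynomial.aeval (algebraMap 𝒪 K a) (Polynomial.scaleRoots m c) = 0 := by
    rw [← map_zero (algebraMap 𝒪 K), ← h]
    exact Polynomial.aeval_algHom_apply ((algebraMap 𝒪 K).toIntAlgHom) a _
  have hcK : (c : K) ≠ 0 := by
    intro h0
    apply hc
    apply hinj
    rw [map_intCast, map_zero]
    exact h0
  have h5 : algebraMap 𝒪 K a = algebraMap ℤ K c * (algebraMap 𝒪 K a / (c : K)) := by
    rw [eq_intCast]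
    field_simp
  have h6 : Polynomial.aeval (algebraMap 𝒪 K a / (c : K)) m = 0 := by
    rw [h5, Polynomial.aeval_def, Polynomial.scaleRoots_eval₂_mul] at h3
    rcases mul_eq_zero.mp h3 with h9 | h9
    · rw [eq_intCast] at h9
      exact absurd h9 (pow_ne_zero _ hcK)
    · exact h9
  have hx : IsIntegral ℤ (algebraMap 𝒪 K a / (c : K)) := ⟨m, hm, h6⟩
  have hx' : IsIntegral 𝒪 (algebraMap 𝒪 K a / (c : K)) := hx.tower_top
  obtain ⟨y, hy⟩ := IsIntegrallyClosed.isIntegral_iff.mp hx'
  refine ⟨y, ?_⟩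
  apply hinj
  rw [map_mul, hy, map_intCast]
  field_simp

/-- If `h = c * B` in `E` with `B` integral over `ℤ`, then `χ h ∈ c 𝒪` for every character `χ`
with values in an integrally closed domain `𝒪` in which `c ≠ 0`. -/
theorem exists_eq_mul_of_isIntegral {E : Type*} [Ring E] {T : Type*} [CommRing T]
    (j : T →+* E) (hj : Function.Injective j)
    {𝒪 : Type*} [CommRing 𝒪] [IsDomain 𝒪] [IsIntegrallyClosed 𝒪] (χ : T →+* 𝒪)
    (h : T) (c : ℤ) (hc : (c : 𝒪) ≠ 0) (B : E) (hB : IsIntegral ℤ B)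
    (hh : j h = (c : E) * B) : ∃ y : 𝒪, χ h = (c : 𝒪) * y := by
  obtain ⟨m, hm, hm0⟩ := hB
  have hm0' : Polynomial.aeval B m = 0 := hm0
  have h1 : Polynomial.aeval (j h) (Polynomial.scaleRoots m c) = 0 := by
    have h2 := Polynomial.scaleRoots_aeval_eq_zero (r := c) hm0'
    rw [eq_intCast] at h2
    rw [hh]
    exact h2
  have h2 : Polynomial.aeval h (Polynomial.scaleRoots m c) = 0 := by
    apply hj
    rw [map_zero, ← h1]
    exact (Polynomial.aeval_algHom_apply (j.toIntAlgHom) h _).symm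
  have h3 : Polynomial.aeval (χ h) (Polynomial.scaleRoots m c) = 0 := by
    rw [← map_zero χ, ← h2]
    exact Polynomial.aeval_algHom_apply (χ.toIntAlgHom) h _
  exact exists_eq_mul_of_scaleRoots (FractionRing 𝒪) (χ h) c hc m hm h3

/-- Membership in `𝔪 ^ n • ⊤` for a module over `ℤ_[p]`. -/
theorem exists_eq_smul_of_mem {p : ℕ} [Fact p.Prime] {M : Type*} [AddCommGroup M]
    [Module ℤ_[p] M] (n : ℕ) (x : M)
    (hx : x ∈ (IsLocalRing.maximalIdeal ℤ_[p] ^ n) • (⊤ : Submodule ℤ_[p] M)) :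
    ∃ v : M, x = ((p : ℤ_[p]) ^ n) • v := by
  rw [PadicInt.maximalIdeal_eq_span_p, Ideal.span_singleton_pow,
    Submodule.ideal_span_singleton_smul] at hx
  obtain ⟨v, -, hv⟩ := (Submodule.mem_smul_pointwise_iff_exists _ _ _).mp hx
  exact ⟨v, hv.symm⟩

/-- Conversely. -/
theorem mem_of_eq_smul {p : ℕ} [Fact p.Prime] {M : Type*} [AddCommGroup M]
    [Module ℤ_[p] M] (n : ℕ) (x v : M) (hx : x = ((p : ℤ_[p]) ^ n) • v) :
    x ∈ (IsLocalRing.maximalIdeal ℤ_[p] ^ n) • (⊤ : Submodule ℤ_[p] M) := by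
  rw [hx]
  refine Submodule.smul_mem_smul (Ideal.pow_mem_pow ?_ n) Submodule.mem_top
  rw [PadicInt.maximalIdeal_eq_span_p]
  exact Ideal.subset_span rfl

end Fermat.Agent.S30.PackageAdicAux
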