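import Fermat.Agent.S30.Skeleton
import Fermat.Agent.S30.Skeleton2
import Fermat.Agent.S30.EigenLattice
import Fermat.Agent.S30.PackageAdicAux
import Fermat.Agent.S30.CycCharAdic
import Fermat.Agent.S31.Skeleton

/-!
# P-GALREP, module A4 (PackageAdic): from the Tate package to the eigenlattice

`PackageAdic.packageAdic_of_tatePackage`: the Tate package of `J₀(N)` (interface
`Fermat.Agent.S31.TatePackageStatement N p`) yields `PackageAdicStatement N p`.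

* the character `χ` of the Hecke algebra away from `S` is pulled back to the polynomial ring
  `ℤ[X_ℓ : ℓ ∉ S, ℓ ∤ N]`;
* key congruence: if `P(T)` maps the Tate module `M` into `p ^ k M` then `χ (P(T)) ∈ p ^ k 𝒪`
  (link to the torsion points, `HeckeKeyInt`, integrality and integral closedness of `𝒪`);
* the eigenlattice theorem `EigenLattice.exists_eigenlattice`.
-/

set_option autoImplicit false

namespace Fermat.Agent.S30

open Fermat.Agent.S29 (GQ HeckeGaloisCommute EichlerShimuraTorsion TorsionFiniteLevel)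

namespace PackageAdic

variable {N : ℕ} [NeZero N] (S : Finset ℕ)

/-- the index type of the Hecke operators `T_ℓ` away from `S` and `N` -/
abbrev GoodPrime (N : ℕ) (S : Finset ℕ) : Type :=
  {ℓ : Nat.Primes // ¬ (ℓ : ℕ) ∣ N ∧ (ℓ : ℕ) ∉ (↑S : Set ℕ)}

/-- the Hecke operator `T_ℓ` in the Hecke algebra away from `S` -/
noncomputable def heckeT (ℓ : GoodPrime N S) : CuspForm.heckeAlgebra N 2 (↑S : Set ℕ) :=
  CuspForm.heckeAlgebra.T ℓ.1.2 ℓ.2.1 ℓ.2.2

/-- evaluation of integer polynomials in the Hecke algebra away from `S` -/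
noncomputable def evS :
    MvPolynomial (GoodPrime N S) ℤ →ₐ[ℤ] CuspForm.heckeAlgebra N 2 (↑S : Set ℕ) :=
  MvPolynomial.aeval (heckeT S)

theorem evS_X (ℓ : GoodPrime N S) : evS S (MvPolynomial.X ℓ) = heckeT S ℓ :=
  MvPolynomial.aeval_X _ ℓ

theorem coe_evS (P : MvPolynomial (GoodPrime N S) ℤ) :
    ((evS S P : CuspForm.heckeAlgebra N 2 (↑S : Set ℕ)) :
        Module.End ℂ (CuspForm (CongruenceSubgroup.Gamma0 N) 2))
      = ((MvPolynomial.aeval (R := ℤ) (heckeTAll N) (MvPolynomial.rename Subtype.val P) :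
          CuspForm.heckeAlgebra N 2 (∅ : Set ℕ)) :
        Module.End ℂ (CuspForm (CongruenceSubgroup.Gamma0 N) 2)) := by
  have h : ((CuspForm.heckeAlgebra N 2 (↑S : Set ℕ)).val.comp (evS S)) =
      ((CuspForm.heckeAlgebra N 2 (∅ : Set ℕ)).val.comp
        ((MvPolynomial.aeval (R := ℤ) (heckeTAll N)).comp
          (MvPolynomial.rename Subtype.val))) := by
    apply MvPolynomial.algHom_ext
    intro i
    simp [evS, heckeT, heckeTAll, i.2.1]
  exact DFunLike.congr_fun h P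


section Key

variable {p : ℕ} [Fact p.Prime]

omit [NeZero N] in
/-- primes outside `S` do not divide `N * p ^ n` -/
theorem not_dvd_of_good (hpS : p ∈ S) (ℓ : GoodPrime N S) (n : ℕ) :
    ¬ ((ℓ.1 : ℕ) ∣ N * p ^ n) := by
  intro h
  rcases (Nat.Prime.dvd_mul ℓ.1.2).mp h with h1 | h1
  · exact ℓ.2.1 h1
  · have h2 := ℓ.1.2.dvd_of_dvd_pow h1
    have h3 : (ℓ.1 : ℕ) = p := (Nat.prime_dvd_prime_iff_eq ℓ.1.2 Fact.out).mp h2
    exact ℓ.2.2 (by rw [h3]; exact Finset.mem_coe.mpr hpS)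

/-- **Key congruence.**  If `P(T)` maps the Tate module into `p ^ k` times itself, then
`χ (P(T))` is divisible by `p ^ k`. -/
theorem key_congruence (hKey : ∀ k : ℕ, HeckeKeyInt N (p ^ k)) (hpS : p ∈ S)
    {M : Type} [AddCommGroup M] [Module ℤ_[p] M]
    (Θ : MvPolynomial Nat.Primes ℤ →+* Module.End ℤ_[p] M)
    (hlink : ∀ (P : MvPolynomial Nat.Primes ℤ) (k : ℕ),
      (∀ v : M, ∃ w : M, Θ P v = ((p : ℤ_[p]) ^ k) • w) →
      ∃ m : ℕ, letI := ModularCurve.heckeModuleBar N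
        ∀ x : ModularCurve.JZero N, p ^ (k + m) • x = 0 →
          (MvPolynomial.C ((p : ℤ) ^ m) * P) • x = 0)
    {𝒪 : Type} [CommRing 𝒪] [IsDomain 𝒪] [IsDiscreteValuationRing 𝒪] [CharZero 𝒪]
    (χ : CuspForm.heckeAlgebra N 2 (↑S : Set ℕ) →+* 𝒪)
    (P : MvPolynomial (GoodPrime N S) ℤ) (k : ℕ)
    (hP : ∀ v : M, ∃ w : M,
      Θ (MvPolynomial.rename Subtype.val P) v = ((p : ℤ_[p]) ^ k) • w) :
    ∃ y : 𝒪, χ (evS S P) = (p : 𝒪) ^ k * y := by
  classical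
  have hp0 : (p : ℂ) ≠ 0 := Nat.cast_ne_zero.mpr (Fact.out : p.Prime).ne_zero
  obtain ⟨m, hm⟩ := hlink _ k hP
  have hvars : ∀ ℓ ∈ (MvPolynomial.C ((p : ℤ) ^ m) *
      MvPolynomial.rename Subtype.val P : MvPolynomial Nat.Primes ℤ).vars,
      ¬ (ℓ : ℕ) ∣ N * p ^ (k + m) := by
    intro ℓ hℓ
    have h1 := MvPolynomial.vars_mul _ _ hℓ
    rw [MvPolynomial.vars_C, Finset.empty_union] at h1
    have h2 := MvPolynomial.vars_rename _ _ h1
    obtain ⟨i, -, rfl⟩ := Finset.mem_image.mp h2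
    exact not_dvd_of_good S hpS i (k + m)
  obtain ⟨B, hB, hBeq⟩ := hKey (k + m) _ hvars hm
  have h1 : ((evS S P : CuspForm.heckeAlgebra N 2 (↑S : Set ℕ)) :
      Module.End ℂ (CuspForm (CongruenceSubgroup.Gamma0 N) 2)) = ((p : ℂ) ^ k) • B := by
    rw [coe_evS]
    have h2 : ((p : ℂ) ^ m) • ((MvPolynomial.aeval (R := ℤ) (heckeTAll N)
        (MvPolynomial.rename Subtype.val P) : CuspForm.heckeAlgebra N 2 (∅ : Set ℕ)) :
        Module.End ℂ (CuspForm (CongruenceSubgroup.Gamma0 N) 2))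
        = ((p : ℂ) ^ m) • (((p : ℂ) ^ k) • B) := by
      rw [smul_smul, ← pow_add, add_comm m k]
      rw [map_mul, MvPolynomial.aeval_C] at hBeq
      push_cast at hBeq
      rw [← hBeq, Algebra.smul_def, map_pow, map_natCast]
    exact smul_right_injective _ (pow_ne_zero m hp0) h2
  have hc : (((p : ℤ) ^ k : ℤ) : 𝒪) ≠ 0 := by
    push_cast
    exact pow_ne_zero k (Nat.cast_ne_zero.mpr (Fact.out : p.Prime).ne_zero)
  obtain ⟨y, hy⟩ := PackageAdicAux.exists_eq_mul_of_isIntegral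
    ((CuspForm.heckeAlgebra N 2 (↑S : Set ℕ)).val : _ →+* _) Subtype.val_injective χ
    (evS S P) ((p : ℤ) ^ k) hc B hB (by
      show ((evS S P : CuspForm.heckeAlgebra N 2 (↑S : Set ℕ)) :
        Module.End ℂ (CuspForm (CongruenceSubgroup.Gamma0 N) 2)) = _
      rw [h1, Algebra.smul_def, map_pow, map_natCast]
      push_cast
      rfl)
  refine ⟨y, ?_⟩
  rw [hy]
  push_cast
  rfl

end Key

end PackageAdic

open PackageAdic in
/-- **A4 (PackageAdic), from the Tate package.** -/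
theorem packageAdic_of_tatePackage (N p : ℕ) [NeZero N] (hT : TateStatement)
    (hTP : ∀ [Fact p.Prime], Fermat.Agent.S31.TatePackageStatement N p) :
    PackageAdicStatement N p := by
  intro hp hHG hES hTF hKey S hpS hNS 𝒪 _ _ _ _ _ _ hp𝒪 χ
  have : Fact p.Prime := ⟨hp⟩
  obtain ⟨M, iM1, iM2, iM3, iM4, ρ, Θ, hcomm, hcont, hunr, hfrob, hlink⟩ :=
    hTP hT hHG hES hTF
  let _ : Algebra ℤ_[p] 𝒪 := (CycCharAdic.padicLift p 𝒪 hp𝒪).toAlgebra
  have hp0 : (p : 𝒪) ≠ 0 := Nat.cast_ne_zero.mpr hp.ne_zero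
  let Θ' : MvPolynomial (GoodPrime N S) ℤ →+* Module.End ℤ_[p] M :=
    Θ.comp (MvPolynomial.rename Subtype.val : _ →ₐ[ℤ] MvPolynomial Nat.Primes ℤ).toRingHom
  let χ' : MvPolynomial (GoodPrime N S) ℤ →+* 𝒪 := χ.comp (evS S).toRingHom
  obtain ⟨Λ, iΛ1, iΛ2, iΛ3, iΛ4, iΛ5, ρΛ, h1, h2, h3⟩ :=
    EigenLattice.exists_eigenlattice Θ' ρ (fun P g => hcomm _ g) hp𝒪 hp0 χ'
      (fun P k hP => key_congruence S hKey hpS Θ hlink χ P k hP)
  have hnd : ∀ q : ℕ, q.Prime → ¬ q ∣ N → q ≠ p → ¬ q ∣ N * p := by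
    intro q hq hqN hqp h
    rcases (Nat.Prime.dvd_mul hq).mp h with h4 | h4
    · exact hqN h4
    · exact hqp ((Nat.prime_dvd_prime_iff_eq hq hp).mp h4)
  refine ⟨Λ, iΛ1, iΛ2, iΛ3, iΛ4, iΛ5, ρΛ, ?_, ?_, ?_⟩
  · intro n
    obtain ⟨L, hL, hLσ⟩ := hcont n
    refine ⟨L, hL, fun σ hσ w => h2 σ n (fun v => ?_) w⟩
    exact PackageAdicAux.exists_eq_smul_of_mem n _ (hLσ σ hσ v)
  · intro q hq hqN hqp A hA σ hσ
    exact h1 σ (hunr q hq (hnd q hq hqN hqp) A hA σ hσ)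
  · intro ℓ hℓ hℓN hℓS A hA σ hσ
    have hℓp : ℓ ≠ p := fun h => hℓS (by rw [h]; exact Finset.mem_coe.mpr hpS)
    have h4 := h3 σ (MvPolynomial.X ⟨⟨ℓ, hℓ⟩, hℓN, hℓS⟩) (ℓ : ℤ_[p]) (by
      have h5 := hfrob ℓ hℓ (hnd ℓ hℓ hℓN hℓp) A hA σ hσ
      have h6 : Θ' (MvPolynomial.X ⟨⟨ℓ, hℓ⟩, hℓN, hℓS⟩) = Θ (MvPolynomial.X ⟨ℓ, hℓ⟩) := by
        show Θ (MvPolynomial.rename Subtype.val (MvPolynomial.X _)) = _
        rw [MvPolynomial.rename_X]
      rw [h6]
      exact h5)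
    have h7 : χ' (MvPolynomial.X ⟨⟨ℓ, hℓ⟩, hℓN, hℓS⟩) = χ (CuspForm.heckeAlgebra.T hℓ hℓN hℓS) := by
      show χ (evS S (MvPolynomial.X _)) = _
      rw [evS_X]
      rfl
    rw [h7, map_natCast] at h4
    exact h4

end Fermat.Agent.S30
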